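import Fermat.Agent.Corollaries.HM.Hilb.Product

/-!
# Existence of rational numbers with given Hilbert symbols (Serre, III, th. 4)
-/

set_option autoImplicit false

namespace Fermat.Agent.Cor.Hilb

open IsDedekindDomain NumberField WithZero Rat.HeightOneSpectrum
open Fermat.Agent.CFT Fermat.Agent.CFT.Global Fermat.Agent.CFT.Global2
open Fermat.Agent.CFT.SUnits (ord)
open Fermat.Agent.Cor.HM Fermat.Agent.Cor.HM.RatLoc Fermat.Agent.Cor.HM.RatProd

/-- every class of `ℚ_pˣ` modulo squares contains a rational number -/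
lemma exists_class_padic {p : ℕ} [hp : Fact p.Prime] {A : ℚ_[p]} (hA : A ≠ 0) :
    ∃ a : ℚˣ, ∀ B : ℚ_[p], hilb B A = hilb B ((a : ℚ) : ℚ_[p]) := by
  obtain ⟨a, -, ha, -⟩ := exists_class (eqv_ne_zero hA)
  refine ⟨a, fun B => ?_⟩
  rw [← hilb_eqv, ha, ← hilb_eqv (p := p) B]
  congr 1
  rw [← eq_ratCast (algebraMap ℚ ℚ_[p]), AlgEquiv.commutes]

/-- **Existence of rational numbers with given Hilbert symbols** (Serre, III, th. 4). -/
theorem exists_rat_hilb_iff {ι : Type*} [Finite ι] (a : ι → ℚ) (ha : ∀ i, a i ≠ 0)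
    (ε : ι → Nat.Primes → ℤˣ) (δ : ι → ℤˣ) :
    (∃ x : ℚ, x ≠ 0 ∧ (∀ i p, hilbAt p (a i) x = ε i p) ∧ ∀ i, hilbInf (a i) x = δ i) ↔
      (∀ i, {p : Nat.Primes | ε i p ≠ 1}.Finite) ∧ (∀ i, (∏ᶠ p, ε i p) * δ i = 1) ∧
      (∀ (p : ℕ) [hp : Fact p.Prime], ∃ x : ℚ_[p], x ≠ 0 ∧
        ∀ i, hilb (a i : ℚ_[p]) x = ε i ⟨p, hp.out⟩) ∧
      ∃ x : ℝ, x ≠ 0 ∧ ∀ i, hilb (a i : ℝ) x = δ i := by
  classical
  constructor
  · rintro ⟨x, hx, h1, h2⟩
    refine ⟨fun i => ?_, fun i => ?_, fun p hp => ⟨x, by exact_mod_cast hx, fun i => ?_⟩,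
      x, by exact_mod_cast hx, fun i => h2 i⟩
    · simp only [← h1]
      exact finite_hilbAt (ha i) hx
    · rw [← h2 i, ← finprod_congr (h1 i)]
      exact product_formula (ha i) hx
    · exact h1 i ⟨p, hp.out⟩
  · rintro ⟨hfin, hprod, hloc, xr, hxr, hreal⟩
    obtain ⟨LS⟩ := nonempty_LS ℚ
    have := Fintype.ofFinite ι
    -- local elements
    have hloc' : ∀ v : HeightOneSpectrum (𝓞 ℚ), ∃ e : ℚˣ, ∀ i,
        sgHom (LS.sym v (Units.mk0 (a i) (ha i)) e) = ε i (primesEquiv v) := by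
      intro v
      have hp : Fact (primesEquiv v).1.Prime := ⟨(primesEquiv v).2⟩
      obtain ⟨x, hx, h1⟩ := hloc (primesEquiv v).1
      obtain ⟨e, he⟩ := exists_class_padic hx
      refine ⟨e, fun i => ?_⟩
      have h2 := hilbAt_units LS (primesEquiv v) (Units.mk0 (a i) (ha i)) e
      rw [Equiv.symm_apply_apply] at h2
      rw [← h2]
      change hilb ((a i : ℚ) : ℚ_[(primesEquiv v).1]) ((e : ℚ) : ℚ_[(primesEquiv v).1]) = _
      rw [← he, h1]
      rfl
    choose e he using hloc'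
    -- the set of bad places
    have hT : {v : HeightOneSpectrum (𝓞 ℚ) | ∃ i, ε i (primesEquiv v) ≠ 1}.Finite := by
      have h1 : {v : HeightOneSpectrum (𝓞 ℚ) | ∃ i, ε i (primesEquiv v) ≠ 1} =
          ⋃ i, {v : HeightOneSpectrum (𝓞 ℚ) | ε i (primesEquiv v) ≠ 1} := by
        ext v
        simp
      rw [h1]
      exact Set.finite_iUnion fun i => (hfin i).preimage (primesEquiv.injective.injOn)
    obtain ⟨S, hTS, hS2, -, hSa⟩ := exists_good (K := ℚ) 2 two_ne_zero hT.toFinset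
      (Finset.univ.image fun i => Units.mk0 (a i) (ha i))
    obtain ⟨x, v₁, hv₁, hxS, hxu, hxs⟩ := exists_rat_approx S e (xr < 0)
    have hnT : ∀ v ∉ S, ∀ i, ε i (primesEquiv v) = 1 := by
      intro v hv i
      by_contra h
      exact hv (hTS (hT.mem_toFinset.mpr ⟨i, h⟩))
    have hne : ∀ v, v ≠ v₁ → ∀ i, sgHom (LS.sym v (Units.mk0 (a i) (ha i)) x) =
        ε i (primesEquiv v) := by
      intro v hv i
      by_cases hvS : v ∈ S
      · have h2 : LS.sym v (Units.mk0 (a i) (ha i)) (x / e v) = 1 :=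
          LS.sym_eq_one_of_right (hxS v hvS)
        rw [_root_.map_div, div_eq_one] at h2
        rw [h2, he]
      · rw [hnT v hvS i, LS.unit_mem v (fun h => hvS (hS2 v h)) _ _
          (mem_E.mp (hSa _ (Finset.mem_image_of_mem _ (Finset.mem_univ i))) v hvS)
          (hxu v hvS hv), map_one]
    have hinf : ∀ i, hilbInf (a i) x = δ i := by
      intro i
      rw [← hreal i, hilbInf_eq (ha i) x.ne_zero, hilb_real (by exact_mod_cast ha i) hxr]
      have h1 : ((a i : ℝ) < 0 ∧ xr < 0) ↔ (a i < 0 ∧ (x : ℚ) < 0) := by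
        rw [hxs, Rat.cast_lt_zero]
      simp only [h1]
    have hat : ∀ (p : Nat.Primes) i, p ≠ primesEquiv v₁ → hilbAt p (a i) x = ε i p := by
      intro p i hp
      have h1 := hne (primesEquiv.symm p) (fun h => hp (by rw [← h, Equiv.apply_symm_apply])) i
      rw [Equiv.apply_symm_apply] at h1
      rw [← h1]
      exact hilbAt_units LS p (Units.mk0 (a i) (ha i)) x
    refine ⟨x, x.ne_zero, fun i p => ?_, hinf⟩
    by_cases hp : p = primesEquiv v₁
    · subst hp
      have h1 := product_formula (ha i) x.ne_zero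
      have h2 := hprod i
      rw [hinf i, ← h2] at h1
      have h3 := mul_right_cancel h1
      have h4 : (∏ᶠ p : Nat.Primes, hilbAt p (a i) x / ε i p) = 1 := by
        rw [finprod_div_distrib (finite_hilbAt (ha i) x.ne_zero) (hfin i), h3, div_self']
      rw [finprod_eq_single _ (primesEquiv v₁) fun q hq => by rw [hat q i hq, div_self']] at h4
      exact div_eq_one.mp h4
    · exact hat p i hp

end Fermat.Agent.Cor.Hilb
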