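import Fermat.Agent.Corollaries.HM.Hilb.Basic
import Fermat.Agent.Corollaries.HM.AdicForms
import Fermat.Agent.CFT.Local2.Symbols
import Fermat.Agent.CFT.Global2.Unramified

/-!
# The Hilbert symbol of the completion of a number field at a finite place

It is bilinear and non-degenerate.
-/

set_option autoImplicit false

namespace Fermat.Agent.Cor.Hilb

open IsDedekindDomain NumberField WithZero
open Fermat.Agent.CFT Fermat.Agent.CFT.Global Fermat.Agent.CFT.Global2
open Fermat.Agent.Cor.HM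

/-- the isomorphism of `ℤ / 2` with `{1, -1}` -/
def sg (t : Multiplicative (ZMod 2)) : ℤˣ := if t = 1 then 1 else -1

lemma sg_mul (s t : Multiplicative (ZMod 2)) : sg (s * t) = sg s * sg t := by
  revert s t
  decide

lemma sg_eq_one_iff {t : Multiplicative (ZMod 2)} : sg t = 1 ↔ t = 1 := by
  revert t
  decide

variable {K : Type} [Field K] [NumberField K] (LS : LocalSymbols 2 K)
  {v : HeightOneSpectrum (𝓞 K)}

/-- The Hilbert symbol of two elements of `K` is the symbol of class field theory. -/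
theorem hilb_algebraMap (a b : Kˣ) : hilb (algebraMap K (v.adicCompletion K) a)
    (algebraMap K (v.adicCompletion K) b) = sg (LS.sym v a b) := by
  have ha : algebraMap K (v.adicCompletion K) a ≠ 0 := (_root_.map_ne_zero _).mpr a.ne_zero
  have hc0 : ∀ c : Kˣ, algebraMap K (v.adicCompletion K) c ≠ 0 :=
    fun c => (_root_.map_ne_zero _).mpr c.ne_zero
  have key : Sol (algebraMap K (v.adicCompletion K) a) (algebraMap K (v.adicCompletion K) b) ↔
      LS.sym v a b = 1 := by
    rw [sol_iff_norm HM.two_ne_zero' ha]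
    constructor
    · exact sym_eq_one_of_adic LS a b
    · intro h
      obtain ⟨s, t, c, hc, hbc⟩ := mem_norm_mul_locPow LS v a b h
      rw [mem_locPow_two_iff] at hbc
      obtain ⟨r, hr⟩ := hbc
      rw [Units.val_div_eq_div_val, map_div₀, div_eq_iff (hc0 c), hc, map_sub, map_mul, map_pow,
        map_pow] at hr
      refine ⟨r * algebraMap K _ s, r * algebraMap K _ t, ?_⟩
      rw [hr]
      ring
  by_cases h : LS.sym v a b = 1
  · rw [hilb_eq_one_iff.mpr (key.mpr h), h, sg_eq_one_iff.mpr rfl]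
  · rw [hilb_eq_neg_one_iff.mpr fun h1 => h (key.mp h1), sg, if_neg h]

/-- every class is the class of an element of `K` -/
lemma exists_class {A : v.adicCompletion K} (hA : A ≠ 0) :
    ∃ a : Kˣ, (∀ B, hilb A B = hilb (algebraMap K (v.adicCompletion K) a) B) ∧
      (∀ B, hilb B A = hilb B (algebraMap K (v.adicCompletion K) a)) ∧
      ∃ β ≠ 0, A * β ^ 2 = algebraMap K (v.adicCompletion K) a := by
  obtain ⟨a, β, hβ, h⟩ := exists_eq_mul_sq hA
  refine ⟨a, fun B => ?_, fun B => ?_, β, hβ, h⟩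
  · rw [← h, hilb_mul_sq_left _ _ hβ]
  · rw [← h, hilb_mul_sq_right _ _ hβ]

variable (K) in
lemma nonempty_LS : Nonempty (LocalSymbols 2 K) :=
  Fermat.Agent.CFT.Bridge.nonempty_localSymbols_all K (Unr.isPrimitiveRoot_neg_one' K)

/-- **Bilinearity.** -/
theorem hilb_adic_mul_left {A A' B : v.adicCompletion K} (hA : A ≠ 0) (hA' : A' ≠ 0)
    (hB : B ≠ 0) : hilb (A * A') B = hilb A B * hilb A' B := by
  obtain ⟨LS⟩ := nonempty_LS K
  obtain ⟨a, ha, -, α, hα, hα'⟩ := exists_class hA
  obtain ⟨a', ha', -, α', hα₀, hα₁⟩ := exists_class hA'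
  obtain ⟨b, -, hb, -⟩ := exists_class hB
  have h1 : hilb (A * A') B = hilb (algebraMap K (v.adicCompletion K) ((a * a' : Kˣ) : K)) B := by
    rw [Units.val_mul, map_mul, ← hα', ← hα₁, ← hilb_mul_sq_left (A * A') B (mul_ne_zero hα hα₀)]
    congr 1
    ring
  rw [h1, ha, ha', hb, hb, hb, hilb_algebraMap LS, hilb_algebraMap LS, hilb_algebraMap LS,
    map_mul, MonoidHom.mul_apply, sg_mul]

theorem hilb_adic_mul_right {A B B' : v.adicCompletion K} (hA : A ≠ 0) (hB : B ≠ 0)
    (hB' : B' ≠ 0) : hilb A (B * B') = hilb A B * hilb A B' := by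
  rw [hilb_comm, hilb_adic_mul_left hB hB' hA, hilb_comm B, hilb_comm B']

/-- **Non-degeneracy.** -/
theorem isSquare_of_hilb_adic {A : v.adicCompletion K} (hA : A ≠ 0)
    (h : ∀ B, B ≠ 0 → hilb A B = 1) : IsSquare A := by
  obtain ⟨LS⟩ := nonempty_LS K
  obtain ⟨a, ha, -, α, hα, hα'⟩ := exists_class hA
  have h1 : a ∈ locPow 2 v := by
    rw [LS.mem_locPow_iff]
    intro x
    rw [← sg_eq_one_iff, ← hilb_algebraMap LS, ← ha]
    exact h _ ((_root_.map_ne_zero _).mpr x.ne_zero)
  rw [mem_locPow_two_iff] at h1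
  obtain ⟨r, hr⟩ := h1
  refine ⟨r / α, ?_⟩
  rw [← hα'] at hr
  field_simp
  linear_combination hr

end Fermat.Agent.Cor.Hilb
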