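import Mathlib.Tactic
import Mathlib.Analysis.SpecialFunctions.Sqrt

/-!
# The Hilbert symbol of a field

`hilb a b = 1` if `z² = a x² + b y²` has a solution different from `(0, 0, 0)`, and `-1` otherwise.
-/

set_option autoImplicit false

namespace Fermat.Agent.Cor.Hilb

section Field

variable {E : Type*} [Field E]

/-- `z² = a x² + b y²` has a non-trivial solution in `E`. -/
def Sol (a b : E) : Prop :=
  ∃ x y z : E, ¬ (x = 0 ∧ y = 0 ∧ z = 0) ∧ z ^ 2 = a * x ^ 2 + b * y ^ 2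

open Classical in
/-- **The Hilbert symbol** of the field `E`. -/
noncomputable def hilb (a b : E) : ℤˣ := if Sol a b then 1 else -1

lemma hilb_eq_one_iff {a b : E} : hilb a b = 1 ↔ Sol a b := by
  rw [hilb]
  split_ifs with h
  · exact ⟨fun _ => h, fun _ => rfl⟩
  · exact ⟨fun h1 => absurd h1 (by decide), fun h1 => absurd h1 h⟩

lemma hilb_eq_neg_one_iff {a b : E} : hilb a b = -1 ↔ ¬ Sol a b := by
  rw [hilb]
  split_ifs with h
  · exact ⟨fun h1 => absurd h1 (by decide), fun h1 => absurd h h1⟩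
  · exact ⟨fun _ => h, fun _ => rfl⟩

lemma Sol.symm {a b : E} (h : Sol a b) : Sol b a := by
  obtain ⟨x, y, z, h0, h1⟩ := h
  exact ⟨y, x, z, fun h => h0 ⟨h.2.1, h.1, h.2.2⟩, by rw [h1, add_comm]⟩

lemma sol_comm {a b : E} : Sol a b ↔ Sol b a := ⟨Sol.symm, Sol.symm⟩

lemma hilb_congr {E' : Type*} [Field E'] {a b : E} {c d : E'} (h : Sol a b ↔ Sol c d) :
    hilb a b = hilb c d := by
  by_cases h1 : Sol a b
  · rw [hilb_eq_one_iff.mpr h1, hilb_eq_one_iff.mpr (h.mp h1)]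
  · rw [hilb_eq_neg_one_iff.mpr h1, hilb_eq_neg_one_iff.mpr fun h2 => h1 (h.mpr h2)]

/-- symmetry -/
theorem hilb_comm (a b : E) : hilb a b = hilb b a := hilb_congr sol_comm

lemma Sol.mul_sq {a b c : E} (hc : c ≠ 0) (h : Sol a b) : Sol (a * c ^ 2) b := by
  obtain ⟨x, y, z, h0, h1⟩ := h
  refine ⟨x / c, y, z, fun h => h0 ⟨?_, h.2.1, h.2.2⟩, ?_⟩
  · have h2 := h.1
    rw [div_eq_zero_iff] at h2
    exact h2.resolve_right hc
  · rw [h1]
    field_simp

lemma sol_mul_sq {a b c : E} (hc : c ≠ 0) : Sol (a * c ^ 2) b ↔ Sol a b := by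
  refine ⟨fun h => ?_, Sol.mul_sq hc⟩
  have h1 := h.mul_sq (c := c⁻¹) (inv_ne_zero hc)
  have h2 : a * c ^ 2 * c⁻¹ ^ 2 = a := by field_simp
  rwa [h2] at h1

/-- the symbol depends only on the classes modulo squares -/
theorem hilb_mul_sq_left (a b : E) {c : E} (hc : c ≠ 0) : hilb (a * c ^ 2) b = hilb a b :=
  hilb_congr (sol_mul_sq hc)

theorem hilb_mul_sq_right (a b : E) {c : E} (hc : c ≠ 0) : hilb a (b * c ^ 2) = hilb a b := by
  rw [hilb_comm, hilb_mul_sq_left _ _ hc, hilb_comm]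

/-- `(a, c²) = 1` -/
theorem hilb_sq_right (a c : E) : hilb a (c ^ 2) = 1 :=
  hilb_eq_one_iff.mpr ⟨0, 1, c, fun h => one_ne_zero h.2.1, by ring⟩

theorem hilb_one_right (a : E) : hilb a 1 = 1 := by
  have h := hilb_sq_right a (1 : E)
  rwa [one_pow] at h

/-- `(a, -a) = 1` -/
theorem hilb_neg_self (a : E) : hilb a (-a) = 1 :=
  hilb_eq_one_iff.mpr ⟨1, 1, 0, fun h => one_ne_zero h.1, by ring⟩

/-- `(a, 1 - a) = 1` (the Steinberg relation) -/
theorem hilb_one_sub (a : E) : hilb a (1 - a) = 1 :=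
  hilb_eq_one_iff.mpr ⟨1, 1, 1, fun h => one_ne_zero h.1, by ring⟩

lemma Sol.map {E' : Type*} [Field E'] (e : E →+* E') {a b : E} (h : Sol a b) :
    Sol (e a) (e b) := by
  obtain ⟨x, y, z, h0, h1⟩ := h
  refine ⟨e x, e y, e z, fun h => h0 ?_, ?_⟩
  · simpa only [map_eq_zero] using h
  · rw [← map_pow, h1]
    simp only [map_add, map_mul, map_pow]

/-- invariance under isomorphisms of fields -/
theorem hilb_map {E' : Type*} [Field E'] (e : E ≃+* E') (a b : E) :
    hilb (e a) (e b) = hilb a b := by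
  refine hilb_congr ⟨fun h => ?_, fun h => h.map (e : E →+* E')⟩
  have h1 := h.map (e.symm : E' →+* E)
  simpa using h1

/-- `(a, b) = 1` iff `b` is a norm from `E(√a)`. -/
theorem sol_iff_norm (h2 : (2 : E) ≠ 0) {a b : E} (ha : a ≠ 0) :
    Sol a b ↔ ∃ s t : E, b = s ^ 2 - a * t ^ 2 := by
  constructor
  · rintro ⟨x, y, z, h0, h1⟩
    by_cases hy : y = 0
    · subst hy
      have hx : x ≠ 0 := by
        rintro rfl
        apply h0
        refine ⟨rfl, rfl, ?_⟩
        have h3 : z ^ 2 = 0 := by rw [h1]; ring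
        exact pow_eq_zero_iff (two_ne_zero) |>.mp h3
      have hz : z ≠ 0 := by
        rintro rfl
        have h3 : a * x ^ 2 = 0 := by linear_combination -h1
        exact (mul_ne_zero ha (pow_ne_zero 2 hx)) h3
      refine ⟨(b + 1) / 2, (b - 1) * x / (2 * z), ?_⟩
      have h3 : a * x ^ 2 = z ^ 2 := by linear_combination -h1
      have h4 : a * ((b - 1) * x / (2 * z)) ^ 2 = (a * x ^ 2) * ((b - 1) / (2 * z)) ^ 2 := by
        field_simp
      rw [h4, h3]
      field_simp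
      ring
    · refine ⟨z / y, x / y, ?_⟩
      field_simp
      linear_combination -h1
  · rintro ⟨s, t, h⟩
    exact ⟨t, 1, s, fun h => one_ne_zero h.2.1, by rw [h]; ring⟩

end Field

section Real

/-- **The Hilbert symbol of `ℝ`.** -/
theorem hilb_real {a b : ℝ} (ha : a ≠ 0) (hb : b ≠ 0) :
    hilb a b = if a < 0 ∧ b < 0 then -1 else 1 := by
  split_ifs with h
  · rw [hilb_eq_neg_one_iff]
    rintro ⟨x, y, z, h0, h1⟩
    apply h0
    have h2 : 0 ≤ -a * x ^ 2 := mul_nonneg (neg_nonneg.mpr h.1.le) (sq_nonneg x)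
    have h3 : 0 ≤ -b * y ^ 2 := mul_nonneg (neg_nonneg.mpr h.2.le) (sq_nonneg y)
    have h4 := sq_nonneg z
    have h5 : -a * x ^ 2 = 0 := by linarith
    have h6 : -b * y ^ 2 = 0 := by linarith
    have h7 : z ^ 2 = 0 := by linarith
    exact ⟨pow_eq_zero_iff two_ne_zero |>.mp ((mul_eq_zero.mp h5).resolve_left (neg_ne_zero.mpr ha)),
      pow_eq_zero_iff two_ne_zero |>.mp ((mul_eq_zero.mp h6).resolve_left (neg_ne_zero.mpr hb)),
      pow_eq_zero_iff two_ne_zero |>.mp h7⟩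
  · rw [hilb_eq_one_iff]
    by_cases h1 : a < 0
    · have h2 : 0 ≤ b := not_lt.mp fun h3 => h ⟨h1, h3⟩
      exact ⟨0, 1, Real.sqrt b, fun h => one_ne_zero h.2.1, by rw [Real.sq_sqrt h2]; ring⟩
    · exact ⟨1, 0, Real.sqrt a, fun h => one_ne_zero h.1, by rw [Real.sq_sqrt (not_lt.mp h1)]; ring⟩

end Real

end Fermat.Agent.Cor.Hilb
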