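import Mathlib

/-!
# Quadratic extensions of a field of characteristic different from two

The subfields `E` of an algebraically closed extension `Ω` of `F` with `[E : F] = 2` correspond to
the non-trivial elements of `Fˣ / Fˣ²` (`E = F(√d)`).
-/

set_option autoImplicit false

namespace Fermat.Agent.Cor.Hilb

open Module IntermediateField Polynomial

section Quad

variable {F Ω : Type*} [Field F] [Field Ω] [Algebra F Ω]

lemma isIntegral_sqrt {d : F} {r : Ω} (hr : r ^ 2 = algebraMap F Ω d) : IsIntegral F r := by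
  refine ⟨X ^ 2 - C d, monic_X_pow_sub_C d (by norm_num), ?_⟩
  simp [hr]

/-- the elements of `F(√d)` -/
lemma mem_adjoin_sqrt {d : F} {r : Ω} (hr : r ^ 2 = algebraMap F Ω d) {s : Ω} (hs : s ∈ F⟮r⟯) :
    ∃ x y : F, s = algebraMap F Ω x + algebraMap F Ω y * r := by
  have hint := isIntegral_sqrt hr
  have h1 : s ∈ Algebra.adjoin F {r} := by
    rwa [← adjoin_simple_toSubalgebra_of_isAlgebraic hint.isAlgebraic]
  clear hs
  induction h1 using Algebra.adjoin_induction with
  | mem x hx =>
    rw [Set.mem_singleton_iff] at hx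
    exact ⟨0, 1, by rw [hx]; simp⟩
  | algebraMap x => exact ⟨x, 0, by simp⟩
  | add x y _ _ hx hy =>
    obtain ⟨a, b, rfl⟩ := hx
    obtain ⟨c, e, rfl⟩ := hy
    exact ⟨a + c, b + e, by simp only [map_add]; ring⟩
  | mul x y _ _ hx hy =>
    obtain ⟨a, b, rfl⟩ := hx
    obtain ⟨c, e, rfl⟩ := hy
    refine ⟨a * c + b * e * d, a * e + b * c, ?_⟩
    simp only [map_add, map_mul]
    linear_combination (algebraMap F Ω b * algebraMap F Ω e) * hr

/-- `[F(√d) : F] = 2` if `d` is not a square -/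
lemma finrank_adjoin_sqrt {d : F} (hd : ¬ IsSquare d) {r : Ω} (hr : r ^ 2 = algebraMap F Ω d) :
    finrank F F⟮r⟯ = 2 := by
  rw [adjoin.finrank (isIntegral_sqrt hr)]
  have h1 : Irreducible (X ^ 2 - C d : F[X]) :=
    X_pow_sub_C_irreducible_of_prime Nat.prime_two fun b hb => hd ⟨b, by rw [← hb, sq]⟩
  have h2 : X ^ 2 - C d = minpoly F r :=
    minpoly.eq_of_irreducible_of_monic h1 (by simp [hr]) (monic_X_pow_sub_C d (by norm_num))
  rw [← h2, natDegree_X_pow_sub_C]

lemma adjoin_sqrt_le {d e : F} (he : e ≠ 0) {r s : Ω} (hr : r ^ 2 = algebraMap F Ω d)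
    (hs : s ^ 2 = algebraMap F Ω e) (h : IsSquare (d * e)) : F⟮r⟯ ≤ F⟮s⟯ := by
  rw [adjoin_simple_le_iff]
  obtain ⟨c, hc⟩ := h
  have hs0 : s ≠ 0 := by
    rintro rfl
    rw [zero_pow two_ne_zero] at hs
    exact he ((_root_.map_eq_zero (algebraMap F Ω)).mp hs.symm)
  have h1 : (r * s) ^ 2 = (algebraMap F Ω c) ^ 2 := by
    rw [mul_pow, hr, hs, ← map_mul, hc, map_mul, sq]
  have hs1 : s ∈ F⟮s⟯ := mem_adjoin_simple_self F s
  rcases sq_eq_sq_iff_eq_or_eq_neg.mp h1 with h2 | h2
  · have h3 : r = algebraMap F Ω c / s := by field_simp; exact h2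
    rw [h3]
    exact div_mem (IntermediateField.algebraMap_mem _ _) hs1
  · have h3 : r = -(algebraMap F Ω c / s) := by field_simp; exact h2
    rw [h3]
    exact neg_mem (div_mem (IntermediateField.algebraMap_mem _ _) hs1)

/-- `F(√d) = F(√e)` iff `d e` is a square -/
theorem adjoin_sqrt_eq_iff (h2 : (2 : F) ≠ 0) {d e : F} (hd : ¬ IsSquare d) (he : ¬ IsSquare e)
    {r s : Ω} (hr : r ^ 2 = algebraMap F Ω d) (hs : s ^ 2 = algebraMap F Ω e) :
    F⟮r⟯ = F⟮s⟯ ↔ IsSquare (d * e) := by
  constructor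
  · intro h
    have h1 : s ∈ F⟮r⟯ := h ▸ mem_adjoin_simple_self F s
    obtain ⟨x, y, hxy⟩ := mem_adjoin_sqrt hr h1
    have h3 : algebraMap F Ω (e - x ^ 2 - y ^ 2 * d) = algebraMap F Ω (2 * x * y) * r := by
      simp only [map_sub, map_mul, map_pow, map_ofNat]
      rw [hxy] at hs
      linear_combination -hs + (algebraMap F Ω y) ^ 2 * hr
    by_cases h4 : 2 * x * y = 0
    · rw [h4, map_zero, zero_mul] at h3
      have h5 := (_root_.map_eq_zero (algebraMap F Ω)).mp h3
      have h6 : x = 0 ∨ y = 0 := by simpa [h2] using h4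
      rcases h6 with rfl | rfl
      · exact ⟨y * d, by linear_combination d * h5⟩
      · exact absurd ⟨x, by linear_combination h5⟩ he
    · exfalso
      apply hd
      have h5 : r = algebraMap F Ω ((e - x ^ 2 - y ^ 2 * d) / (2 * x * y)) := by
        rw [map_div₀, h3, mul_div_cancel_left₀ _ ((_root_.map_ne_zero (algebraMap F Ω)).mpr h4)]
      rw [h5, ← map_pow] at hr
      have h6 := (algebraMap F Ω).injective hr
      exact ⟨_, by rw [← h6, sq]⟩
  · intro h
    have hd0 : d ≠ 0 := fun h0 => hd ⟨0, by rw [h0, mul_zero]⟩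
    have he0 : e ≠ 0 := fun h0 => he ⟨0, by rw [h0, mul_zero]⟩
    exact le_antisymm (adjoin_sqrt_le he0 hr hs h)
      (adjoin_sqrt_le hd0 hs hr (by rwa [mul_comm]))

/-- every quadratic extension is `F(√d)` -/
theorem exists_sqrt_of_finrank (h2 : (2 : F) ≠ 0) {E : IntermediateField F Ω}
    (hE : finrank F E = 2) : ∃ (d : F) (r : Ω), ¬ IsSquare d ∧ r ^ 2 = algebraMap F Ω d ∧
      E = F⟮r⟯ := by
  have hfin : FiniteDimensional F E := Module.finite_of_finrank_pos (by rw [hE]; norm_num)
  obtain ⟨x, hxE, hx⟩ : ∃ x ∈ E, x ∉ (⊥ : IntermediateField F Ω) := by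
    by_contra! h
    have h1 : E = ⊥ := le_bot_iff.mp h
    rw [h1, IntermediateField.finrank_bot] at hE
    norm_num at hE
  have hx' : ∀ y : F, algebraMap F Ω y ≠ x := fun y hy => hx (hy ▸ IntermediateField.algebraMap_mem _ _)
  -- a quadratic equation
  set z : E := ⟨x, hxE⟩ with hz
  have hint : IsIntegral F z := Algebra.IsIntegral.isIntegral z
  have hdeg : (minpoly F z).natDegree ≤ 2 := hE ▸ minpoly.natDegree_le z
  set p := minpoly F z with hp
  have hp0 : p ≠ 0 := minpoly.ne_zero hint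
  have hev : algebraMap F Ω (p.coeff 2) * x ^ 2 + algebraMap F Ω (p.coeff 1) * x +
      algebraMap F Ω (p.coeff 0) = 0 := by
    have h1 : aeval z p = 0 := minpoly.aeval F z
    rw [aeval_eq_sum_range' (n := 3) (by omega)] at h1
    have h3 := congrArg (algebraMap E Ω) h1
    simp only [Finset.sum_range_succ, Finset.sum_range_zero, map_add, map_zero, zero_add,
      Algebra.smul_def, map_mul, map_pow, pow_zero, pow_one, mul_one] at h3
    have h4 : algebraMap E Ω z = x := rfl
    simp only [h4, ← IsScalarTower.algebraMap_apply] at h3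
    linear_combination h3
  have ha : p.coeff 2 ≠ 0 := by
    intro ha
    rw [ha, map_zero, zero_mul, zero_add] at hev
    by_cases hb : p.coeff 1 = 0
    · rw [hb, map_zero, zero_mul, zero_add] at hev
      have hc := (_root_.map_eq_zero (algebraMap F Ω)).mp hev
      apply hp0
      ext n
      rw [coeff_zero]
      rcases Nat.lt_or_ge 2 n with hn | hn
      · exact coeff_eq_zero_of_natDegree_lt (lt_of_le_of_lt hdeg hn)
      · interval_cases n
        · exact hc
        · exact hb
        · exact ha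
    · refine hx' (-(p.coeff 0) / p.coeff 1) ?_
      have hb' : algebraMap F Ω (p.coeff 1) ≠ 0 := (_root_.map_ne_zero _).mpr hb
      rw [map_div₀, map_neg]
      field_simp
      linear_combination -hev
  set a := p.coeff 2 with hadef
  set b := p.coeff 1
  set c := p.coeff 0
  have ha' : algebraMap F Ω a ≠ 0 := (_root_.map_ne_zero _).mpr ha
  have h2' : (2 : Ω) ≠ 0 := by
    rw [← map_ofNat (algebraMap F Ω) 2]
    exact (_root_.map_ne_zero _).mpr h2
  set r : Ω := algebraMap F Ω (2 * a) * x + algebraMap F Ω b with hr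
  have hr2 : r ^ 2 = algebraMap F Ω (b ^ 2 - 4 * a * c) := by
    rw [hr]
    simp only [map_sub, map_mul, map_pow, map_ofNat]
    linear_combination 4 * algebraMap F Ω a * hev
  have hrE : r ∈ E := E.add_mem (E.mul_mem (IntermediateField.algebraMap_mem _ _) hxE) (IntermediateField.algebraMap_mem _ _)
  have hns : ¬ IsSquare (b ^ 2 - 4 * a * c) := by
    rintro ⟨t, ht⟩
    rw [ht, map_mul, ← sq] at hr2
    have key : ∀ t : F, r ≠ algebraMap F Ω t := by
      intro t ht
      refine hx' ((t - b) / (2 * a)) ?_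
      rw [map_div₀, map_sub, ← ht, hr]
      simp only [map_mul, map_ofNat]
      field_simp
      ring
    rcases sq_eq_sq_iff_eq_or_eq_neg.mp hr2 with h | h
    · exact key t h
    · exact key (-t) (by rw [map_neg]; exact h)
  refine ⟨_, r, hns, hr2, ?_⟩
  symm
  refine IntermediateField.eq_of_le_of_finrank_eq (by rwa [adjoin_simple_le_iff]) ?_
  rw [finrank_adjoin_sqrt hns hr2, hE]

end Quad

section Count

variable {F Ω : Type*} [Field F] [Field Ω] [Algebra F Ω]

lemma mk_units_eq_iff {a b : Fˣ} :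
    (QuotientGroup.mk a : Fˣ ⧸ (powMonoidHom 2 : Fˣ →* Fˣ).range) = QuotientGroup.mk b ↔
      IsSquare ((a : F) * b) := by
  rw [QuotientGroup.eq, MonoidHom.mem_range]
  constructor
  · rintro ⟨r, hr⟩
    rw [powMonoidHom_apply] at hr
    have h1 : b = a * r ^ 2 := by rw [hr, mul_inv_cancel_left]
    refine ⟨a * r, ?_⟩
    rw [h1]
    push_cast
    ring
  · rintro ⟨r, hr⟩
    have hr0 : r ≠ 0 := by
      rintro rfl
      rw [mul_zero] at hr
      exact mul_ne_zero a.ne_zero b.ne_zero hr
    refine ⟨a⁻¹ * Units.mk0 r hr0, ?_⟩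
    rw [powMonoidHom_apply]
    apply Units.ext
    push_cast
    rw [Units.val_mk0]
    have ha := a.ne_zero
    field_simp
    linear_combination -hr

variable (F Ω) in
/-- **The quadratic extensions of `F` in an algebraically closed extension `Ω`** correspond to the
non-trivial elements of `Fˣ / Fˣ²`. -/
theorem exists_equiv_quadratic [IsAlgClosed Ω] (h2 : (2 : F) ≠ 0) :
    ∃ e : {E : IntermediateField F Ω // finrank F E = 2} ≃
      {c : Fˣ ⧸ (powMonoidHom 2 : Fˣ →* Fˣ).range // c ≠ 1},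
      ∀ (E : {E : IntermediateField F Ω // finrank F E = 2}) (d : Fˣ) (r : Ω),
        r ^ 2 = algebraMap F Ω d → E.1 = F⟮r⟯ → (e E : Fˣ ⧸ (powMonoidHom 2 : Fˣ →* Fˣ).range) =
          QuotientGroup.mk d := by
  choose D R hD hR hE using fun E : {E : IntermediateField F Ω // finrank F E = 2} =>
    exists_sqrt_of_finrank h2 E.2
  have hD0 : ∀ E, D E ≠ 0 := fun E h0 => hD E ⟨0, by rw [h0, mul_zero]⟩
  let f : {E : IntermediateField F Ω // finrank F E = 2} →
      {c : Fˣ ⧸ (powMonoidHom 2 : Fˣ →* Fˣ).range // c ≠ 1} := fun E =>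
    ⟨QuotientGroup.mk (Units.mk0 (D E) (hD0 E)), fun h => hD E (by
      rw [← QuotientGroup.mk_one, mk_units_eq_iff] at h
      simpa using h)⟩
  have key : ∀ (E : {E : IntermediateField F Ω // finrank F E = 2}) (d : Fˣ) (r : Ω),
      r ^ 2 = algebraMap F Ω d → E.1 = F⟮r⟯ →
        ((f E : Fˣ ⧸ (powMonoidHom 2 : Fˣ →* Fˣ).range)) = QuotientGroup.mk d := by
    intro E d r hr hEr
    have hd : ¬ IsSquare (d : F) := by
      rintro ⟨t, ht⟩
      rw [ht, map_mul, ← sq] at hr
      have h3 : r ∈ (⊥ : IntermediateField F Ω) := by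
        rcases sq_eq_sq_iff_eq_or_eq_neg.mp hr with h | h
        · rw [h]
          exact IntermediateField.algebraMap_mem _ _
        · rw [h]
          exact neg_mem (IntermediateField.algebraMap_mem _ _)
      have h4 := E.2
      rw [hEr, adjoin_simple_eq_bot_iff.mpr h3, IntermediateField.finrank_bot] at h4
      norm_num at h4
    refine mk_units_eq_iff.mpr ?_
    exact (adjoin_sqrt_eq_iff h2 (hD E) hd (hR E) hr).mp ((hE E).symm.trans hEr)
  have hbij : Function.Bijective f := by
    constructor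
    · intro E E' h
      have h1 := mk_units_eq_iff.mp (congrArg Subtype.val h)
      have h3 := (adjoin_sqrt_eq_iff h2 (hD E) (hD E') (hR E) (hR E')).mpr h1
      exact Subtype.ext (((hE E).trans h3).trans (hE E').symm)
    · rintro ⟨c, hc⟩
      obtain ⟨d, rfl⟩ := QuotientGroup.mk_surjective c
      have hd : ¬ IsSquare (d : F) := by
        intro h
        apply hc
        rw [← QuotientGroup.mk_one, mk_units_eq_iff]
        simpa using h
      obtain ⟨r, hr⟩ := IsAlgClosed.exists_pow_nat_eq (algebraMap F Ω d) (n := 2) (by norm_num)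
      exact ⟨⟨F⟮r⟯, finrank_adjoin_sqrt hd hr⟩, Subtype.ext (key _ d r hr rfl)⟩
  exact ⟨Equiv.ofBijective f hbij, key⟩

variable (F Ω) in
/-- **The number of quadratic extensions.** -/
theorem card_quadratic [IsAlgClosed Ω] (h2 : (2 : F) ≠ 0) :
    Nat.card {E : IntermediateField F Ω // finrank F E = 2} =
      Nat.card (Fˣ ⧸ (powMonoidHom 2 : Fˣ →* Fˣ).range) - 1 := by
  obtain ⟨e, -⟩ := exists_equiv_quadratic F Ω h2
  rw [Nat.card_congr e]
  have h1 : Nat.card {c : Fˣ ⧸ (powMonoidHom 2 : Fˣ →* Fˣ).range // c ≠ 1} =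
      ({1}ᶜ : Set (Fˣ ⧸ (powMonoidHom 2 : Fˣ →* Fˣ).range)).ncard := rfl
  rw [h1]
  rcases finite_or_infinite (Fˣ ⧸ (powMonoidHom 2 : Fˣ →* Fˣ).range) with hfin | hinf
  · rw [Set.ncard_compl, Set.ncard_singleton]
  · rw [Nat.card_eq_zero_of_infinite, (Set.finite_singleton 1).infinite_compl.ncard]

end Count

end Fermat.Agent.Cor.Hilb
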