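import Fermat.Agent.Corollaries.HM.Hilb.LocalInst
import Fermat.Agent.Corollaries.HM.Hilb.QuadExt
import Fermat.Agent.CFT.Local.Final
import Fermat.Agent.CFT.Local.QpIndex
import Fermat.Agent.CFT.Global.LocalCount

/-!
# Counting classes of quadratic forms over local fields

* `card_padic`, `card_padic_two`: `ℚ_pˣ / ℚ_pˣ²` has `4` elements for odd `p` and `8` for `p = 2`;
* `card_adic`: `K_vˣ / K_vˣ²` has `4 N(v)^(ord_v 2)` elements;
* `LocalHilb.card_classes`: the number of classes of regular forms of rank `n`;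
* `card_classes_padic`, `card_classes_padic_two`: `4, 7, 8, 8, …` for odd `p` and
  `8, 15, 16, 16, …` for `p = 2`;
* `card_quadratic_padic`: `ℚ_p` has `3` quadratic extensions for odd `p` and `7` for `p = 2`.
-/

set_option autoImplicit false

namespace Fermat.Agent.Cor.Hilb

open IsDedekindDomain NumberField QuadraticMap
open Fermat.Agent.CFT Fermat.Agent.CFT.Global Fermat.Agent.CFT.Global2
open Fermat.Agent.Cor.HM

section Classes

variable {F : Type*} [Field F] [Invertible (2 : F)]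

variable (F) in
/-- The regular quadratic forms in `n` variables. -/
def RegForm (n : ℕ) : Type _ :=
  {Q : QuadraticForm F (Fin n → F) // (associated (R := F) Q).SeparatingLeft}

variable (F) in
/-- Equivalence of regular quadratic forms. -/
def regSetoid (n : ℕ) : Setoid (RegForm F n) where
  r Q Q' := Q.1.Equivalent Q'.1
  iseqv := ⟨fun Q => Equivalent.refl Q.1, fun h => h.symm, fun h h' => h.trans h'⟩

variable (F) in
/-- The classes of regular quadratic forms in `n` variables. -/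
def FormClass (n : ℕ) : Type _ := Quotient (regSetoid F n)

variable (H : LocalHilb F)

/-- The invariants of a class: discriminant and Hasse-Witt invariant. -/
noncomputable def LocalHilb.inv (n : ℕ) :
    FormClass F n → (Fˣ ⧸ (powMonoidHom 2 : Fˣ →* Fˣ).range) × ℤˣ :=
  Quotient.lift (fun Q => (qdisc Q.1 Q.2, hasseWitt H.symb Q.1 Q.2)) fun Q Q' h => by
    have h1 := (H.equivalent_iff_invariants Q.1 Q'.1 Q.2 Q'.2).mp h
    exact Prod.ext h1.2.1 h1.2.2

lemma LocalHilb.inv_injective (n : ℕ) : Function.Injective (H.inv n) := by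
  intro x y
  induction x using Quotient.inductionOn with | _ Q
  induction y using Quotient.inductionOn with | _ Q'
  intro h
  refine Quotient.sound ?_
  exact (H.equivalent_iff_invariants Q.1 Q'.1 Q.2 Q'.2).mpr
    ⟨rfl, congrArg Prod.fst h, congrArg Prod.snd h⟩

lemma LocalHilb.range_inv (n : ℕ) : Set.range (H.inv n) =
    {p | ∃ d : Fˣ, p.1 = QuotientGroup.mk d ∧ ((n = 0 ∧ IsSquare d ∧ p.2 = 1) ∨
      (n = 1 ∧ p.2 = 1) ∨ (n = 2 ∧ (¬ IsSquare (-d) ∨ p.2 = 1)) ∨ 3 ≤ n)} := by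
  ext p
  constructor
  · rintro ⟨x, rfl⟩
    induction x using Quotient.inductionOn with | _ Q
    have h1 := exists_wf Q.1 Q.2
    rw [Module.finrank_fin_fun] at h1
    obtain ⟨a, ha⟩ := h1
    refine ⟨∏ i, a i, qdisc_eq Q.2 ha, ?_⟩
    exact (H.exists_invariants_iff n (∏ i, a i) _).mp
      ⟨a, IsSquare.mul_self _, (hasseWitt_eq H.symb Q.2 ha).symm⟩
  · rintro ⟨d, h1, h2⟩
    obtain ⟨a, ha, hε⟩ := (H.exists_invariants_iff n d p.2).mpr h2
    refine ⟨Quotient.mk _ ⟨wf a, separatingLeft_wf a⟩, ?_⟩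
    refine Prod.ext ?_ ?_
    · rw [h1]
      refine (qdisc_eq (separatingLeft_wf a) (Equivalent.refl (wf a))).trans ?_
      rw [mk_eq_mk_iff, mul_comm]
      exact ha
    · rw [← hε]
      exact hasseWitt_eq H.symb (separatingLeft_wf a) (Equivalent.refl (wf a))

include H in
/-- **The number of classes of regular quadratic forms of rank `n`** over a local field with
`N = |Fˣ / Fˣ²|`: `N` for `n = 1`, `2 N - 1` for `n = 2`, `2 N` for `n ≥ 3`. -/
theorem LocalHilb.card_classes {N : ℕ} (hN : N ≠ 0)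
    (h : Nat.card (Fˣ ⧸ (powMonoidHom 2 : Fˣ →* Fˣ).range) = N) (n : ℕ) :
    Nat.card (FormClass F n) =
      if n = 0 then 1 else if n = 1 then N else if n = 2 then 2 * N - 1 else 2 * N := by
  have hfin : Finite (Fˣ ⧸ (powMonoidHom 2 : Fˣ →* Fˣ).range) :=
    (Nat.card_ne_zero.mp (h ▸ hN)).2
  have hu : Nat.card ℤˣ = 2 := by rw [Nat.card_eq_fintype_card]; rfl
  rw [← Nat.card_range_of_injective (H.inv_injective n), H.range_inv n]
  split_ifs with h0 h1 h2
  · subst h0
    have e : {p : (Fˣ ⧸ (powMonoidHom 2 : Fˣ →* Fˣ).range) × ℤˣ | ∃ d : Fˣ,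
        p.1 = QuotientGroup.mk d ∧ ((0 = 0 ∧ IsSquare d ∧ p.2 = 1) ∨
        (0 = 1 ∧ p.2 = 1) ∨ (0 = 2 ∧ (¬ IsSquare (-d) ∨ p.2 = 1)) ∨ 3 ≤ 0)} = {(1, 1)} := by
      ext p
      simp only [Set.mem_ofPred_eq, Set.mem_singleton_iff]
      constructor
      · rintro ⟨d, h1, h2⟩
        have h3 : IsSquare d ∧ p.2 = 1 := by
          rcases h2 with h2 | h2 | h2 | h2
          · exact h2.2
          · omega
          · omega
          · omega
        refine Prod.ext ?_ h3.2
        rw [h1, ← QuotientGroup.mk_one, mk_eq_mk_iff, mul_one]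
        exact h3.1
      · rintro rfl
        exact ⟨1, rfl, Or.inl ⟨trivial, IsSquare.one, rfl⟩⟩
    rw [e]
    exact Nat.card_unique
  · subst h1
    have e : {p : (Fˣ ⧸ (powMonoidHom 2 : Fˣ →* Fˣ).range) × ℤˣ | ∃ d : Fˣ,
        p.1 = QuotientGroup.mk d ∧ ((1 = 0 ∧ IsSquare d ∧ p.2 = 1) ∨
        (1 = 1 ∧ p.2 = 1) ∨ (1 = 2 ∧ (¬ IsSquare (-d) ∨ p.2 = 1)) ∨ 3 ≤ 1)} =
        Set.univ ×ˢ {1} := by
      ext p
      simp only [Set.mem_ofPred_eq, Set.mem_prod, Set.mem_univ, Set.mem_singleton_iff, true_and]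
      constructor
      · rintro ⟨d, h1, h2⟩
        rcases h2 with h2 | h2 | h2 | h2
        · omega
        · exact h2
        · omega
        · omega
      · intro h2
        obtain ⟨d, hd⟩ := QuotientGroup.mk_surjective p.1
        exact ⟨d, hd.symm, Or.inr (Or.inl h2)⟩
    rw [e, Nat.card_coe_set_eq, Set.ncard_prod, Set.ncard_univ, Set.ncard_singleton, h, mul_one]
  · subst h2
    have e : {p : (Fˣ ⧸ (powMonoidHom 2 : Fˣ →* Fˣ).range) × ℤˣ | ∃ d : Fˣ,
        p.1 = QuotientGroup.mk d ∧ ((2 = 0 ∧ IsSquare d ∧ p.2 = 1) ∨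
        (2 = 1 ∧ p.2 = 1) ∨ (2 = 2 ∧ (¬ IsSquare (-d) ∨ p.2 = 1)) ∨ 3 ≤ 2)} =
        {(QuotientGroup.mk (-1), -1)}ᶜ := by
      ext p
      simp only [Set.mem_ofPred_eq, Set.mem_compl_iff, Set.mem_singleton_iff]
      constructor
      · rintro ⟨d, h1, h2⟩ h3
        have h4 : ¬ IsSquare (-d) ∨ p.2 = 1 := by
          rcases h2 with h2 | h2 | h2 | h2
          · omega
          · omega
          · exact h2.2
          · omega
        rw [h3] at h1 h4
        rcases h4 with h4 | h4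
        · apply h4
          have h5 := mk_eq_mk_iff.mp h1
          rwa [neg_one_mul] at h5
        · exact absurd (show (-1 : ℤˣ) = 1 from h4) (by decide)
      · intro h3
        obtain ⟨d, hd⟩ := QuotientGroup.mk_surjective p.1
        refine ⟨d, hd.symm, Or.inr (Or.inr (Or.inl ⟨trivial, ?_⟩))⟩
        by_contra! h4
        apply h3
        refine Prod.ext ?_ (eq_neg_one_of_ne h4.2)
        rw [← hd]
        exact mk_eq_mk_iff.mpr (by rw [mul_neg_one]; exact h4.1)
    rw [e, Nat.card_coe_set_eq, Set.ncard_compl, Set.ncard_singleton, Nat.card_prod, h, hu,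
      mul_comm]
  · have e : {p : (Fˣ ⧸ (powMonoidHom 2 : Fˣ →* Fˣ).range) × ℤˣ | ∃ d : Fˣ,
        p.1 = QuotientGroup.mk d ∧ ((n = 0 ∧ IsSquare d ∧ p.2 = 1) ∨
        (n = 1 ∧ p.2 = 1) ∨ (n = 2 ∧ (¬ IsSquare (-d) ∨ p.2 = 1)) ∨ 3 ≤ n)} = Set.univ := by
      ext p
      simp only [Set.mem_ofPred_eq, Set.mem_univ, iff_true]
      obtain ⟨d, hd⟩ := QuotientGroup.mk_surjective p.1
      exact ⟨d, hd.symm, Or.inr (Or.inr (Or.inr (by omega)))⟩
    rw [e, Nat.card_coe_set_eq, Set.ncard_univ, Nat.card_prod, h, hu, mul_comm]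

end Classes

section Index

lemma card_ker_two (F : Type) [Field F] [CharZero F] :
    Nat.card (powMonoidHom 2 : Fˣ →* Fˣ).ker = 2 := by
  have : Fact (Nat.Prime 2) := ⟨Nat.prime_two⟩
  exact Fermat.Agent.CFTLocal.card_ker_pow (p := 2) (k := F) (IsPrimitiveRoot.neg_one 0 (by norm_num))

/-- `|ℚ_pˣ / ℚ_pˣ²| = 4` for odd `p`, `8` for `p = 2`. -/
theorem card_padic' (p : ℕ) [hp : Fact p.Prime] :
    Nat.card (ℚ_[p]ˣ ⧸ (powMonoidHom 2 : ℚ_[p]ˣ →* ℚ_[p]ˣ).range) = if p = 2 then 8 else 4 := by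
  have h1 := Fermat.Agent.CFTLocal.index_pow_finite p ℚ_[p] 2 Nat.prime_two
  rw [card_ker_two, Module.finrank_self, Subgroup.index] at h1
  rw [h1]
  by_cases h : p = 2
  · rw [if_pos h, if_pos h.symm]
    norm_num
  · rw [if_neg h, if_neg (Ne.symm h)]

/-- `|ℚ_pˣ / ℚ_pˣ²| = 4` for odd `p`. -/
theorem card_padic (p : ℕ) [hp : Fact p.Prime] (h2 : p ≠ 2) :
    Nat.card (ℚ_[p]ˣ ⧸ (powMonoidHom 2 : ℚ_[p]ˣ →* ℚ_[p]ˣ).range) = 4 := by
  rw [card_padic', if_neg h2]

/-- `|ℚ_2ˣ / ℚ_2ˣ²| = 8`. -/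
theorem card_padic_two :
    Nat.card (ℚ_[2]ˣ ⧸ (powMonoidHom 2 : ℚ_[2]ˣ →* ℚ_[2]ˣ).range) = 8 := by
  rw [card_padic', if_pos rfl]

/-- **Classes of quadratic forms over `ℚ_p`, `p` odd**: `4` in rank one, `7` in rank two, `8` in
every rank `≥ 3`. -/
theorem card_classes_padic (p : ℕ) [hp : Fact p.Prime] (h2 : p ≠ 2) [Invertible (2 : ℚ_[p])]
    (n : ℕ) : Nat.card (FormClass ℚ_[p] n) =
      if n = 0 then 1 else if n = 1 then 4 else if n = 2 then 7 else 8 :=
  (localHilb_padic p).card_classes (by norm_num) (card_padic p h2) n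

/-- **Classes of quadratic forms over `ℚ_2`**: `8` in rank one, `15` in rank two, `16` in every
rank `≥ 3`. -/
theorem card_classes_padic_two [Invertible (2 : ℚ_[2])] (n : ℕ) :
    Nat.card (FormClass ℚ_[2] n) =
      if n = 0 then 1 else if n = 1 then 8 else if n = 2 then 15 else 16 :=
  (localHilb_padic 2).card_classes (by norm_num) card_padic_two n

/-- **The quadratic extensions of `ℚ_p`** in an algebraic closure: `3` for odd `p`, `7` for
`p = 2`. -/
theorem card_quadratic_padic (p : ℕ) [hp : Fact p.Prime] :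
    Nat.card {E : IntermediateField ℚ_[p] (AlgebraicClosure ℚ_[p]) //
      Module.finrank ℚ_[p] E = 2} = if p = 2 then 7 else 3 := by
  rw [card_quadratic ℚ_[p] (AlgebraicClosure ℚ_[p]) two_ne_zero, card_padic']
  split_ifs <;> norm_num

variable {K : Type} [Field K] [NumberField K]

/-- `|K_vˣ / K_vˣ²| = 4 N(v)^(ord_v 2)`. -/
theorem card_adic (v : HeightOneSpectrum (𝓞 K)) :
    Nat.card ((v.adicCompletion K)ˣ ⧸
      (powMonoidHom 2 : (v.adicCompletion K)ˣ →* (v.adicCompletion K)ˣ).range) =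
      4 * Ideal.absNorm v.asIdeal ^ LocalCount.ramP 2 v := by
  set R := (powMonoidHom 2 : (v.adicCompletion K)ˣ →* (v.adicCompletion K)ˣ).range with hR
  let φ : Kˣ →* (v.adicCompletion K)ˣ ⧸ R :=
    (QuotientGroup.mk' R).comp (Units.map (algebraMap K (v.adicCompletion K)).toMonoidHom)
  have hφ : ∀ x : Kˣ, φ x =
      QuotientGroup.mk (Units.map (algebraMap K (v.adicCompletion K)).toMonoidHom x) := fun x => rfl
  have hker : φ.ker = locPow 2 v := by
    ext x
    rw [MonoidHom.mem_ker, hφ, ← QuotientGroup.mk_one, mk_eq_mk_iff, mul_one, isSquare_unit_iff,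
      mem_locPow_two_iff]
    rfl
  have hsurj : Function.Surjective φ := by
    intro y
    obtain ⟨A, rfl⟩ := QuotientGroup.mk_surjective y
    obtain ⟨a, β, hβ, h⟩ := exists_eq_mul_sq A.ne_zero
    refine ⟨a, ?_⟩
    rw [hφ, mk_eq_mk_iff, isSquare_unit_iff]
    refine ⟨A * β, ?_⟩
    rw [Units.val_mul]
    change algebraMap K (v.adicCompletion K) (a : K) * (A : v.adicCompletion K) = _
    rw [← h]
    ring
  have h1 := Subgroup.index_ker φ
  rw [hker, MonoidHom.range_eq_top.mpr hsurj] at h1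
  have h2 := LocalCount.index_locPow v Nat.prime_two (Unr.isPrimitiveRoot_neg_one' K)
  rw [h1] at h2
  rw [← Nat.card_congr (Equiv.Set.univ ((v.adicCompletion K)ˣ ⧸ R)), ← Subgroup.coe_top]
  exact h2

end Index

end Fermat.Agent.Cor.Hilb
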