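import Fermat.Agent.Corollaries.HM.Hilb.Product
import Fermat.Agent.Corollaries.HM.RatFinal

/-!
# Ternary forms over `ℚ` and Legendre's theorem

* `sol_rat_iff`: `z² = a x² + b y²` is solvable in `ℚ` iff all Hilbert symbols are `1`;
* `sol_rat_of_ne`, `sol_rat_of_finite`: one place can be omitted;
* `legendre`: Legendre's theorem on `a x² + b y² + c z² = 0`.
-/

set_option autoImplicit false

namespace Fermat.Agent.Cor.Hilb

open IsDedekindDomain NumberField WithZero Rat.HeightOneSpectrum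
open Fermat.Agent.CFT Fermat.Agent.CFT.Global Fermat.Agent.CFT.Global2
open Fermat.Agent.Cor.HM Fermat.Agent.Cor.HM.RatLoc Fermat.Agent.Cor.HM.RatProd

section Ternary

/-- **Local-global principle** for `z² = a x² + b y²`. -/
theorem sol_rat_iff {a b : ℚ} (ha : a ≠ 0) (hb : b ≠ 0) :
    Sol a b ↔ (∀ p : Nat.Primes, hilbAt p a b = 1) ∧ hilbInf a b = 1 := by
  constructor
  · intro h
    refine ⟨fun p => ?_, ?_⟩
    · have : Fact p.1.Prime := ⟨p.2⟩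
      refine hilb_eq_one_iff.mpr ?_
      have h1 := h.map (algebraMap ℚ ℚ_[p.1])
      simpa only [eq_ratCast] using h1
    · refine hilb_eq_one_iff.mpr ?_
      have h1 := h.map (algebraMap ℚ ℝ)
      simpa only [eq_ratCast] using h1
  · rintro ⟨h, hinf⟩
    obtain ⟨LS⟩ := nonempty_LS ℚ
    have h1 : ∀ v : HeightOneSpectrum (𝓞 ℚ), Sol (algebraMap ℚ (v.adicCompletion ℚ) a)
        (algebraMap ℚ (v.adicCompletion ℚ) b) := by
      intro v
      have h2 := h (primesEquiv v)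
      rw [show hilbAt (primesEquiv v) a b = _ from
        hilbAt_units LS (primesEquiv v) (Units.mk0 a ha) (Units.mk0 b hb),
        Equiv.symm_apply_apply] at h2
      rw [← hilb_eq_one_iff]
      exact (hilb_algebraMap LS (v := v) (Units.mk0 a ha) (Units.mk0 b hb)).trans h2
    obtain ⟨x, hx0, hx⟩ := diag_rat 3 ![-a, -b, 1] (fun i => by
      fin_cases i
      · exact neg_ne_zero.mpr ha
      · exact neg_ne_zero.mpr hb
      · exact one_ne_zero) (fun v => by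
      obtain ⟨x, y, z, h0, h2⟩ := h1 v
      refine ⟨![x, y, z], fun h' => h0 ⟨congrFun h' 0, congrFun h' 1, congrFun h' 2⟩, ?_⟩
      rw [Fin.sum_univ_three]
      change algebraMap ℚ (v.adicCompletion ℚ) (-a) * x ^ 2 +
        algebraMap ℚ (v.adicCompletion ℚ) (-b) * y ^ 2 + algebraMap ℚ _ 1 * z ^ 2 = 0
      rw [map_neg, map_neg, map_one]
      linear_combination h2) (by
      obtain ⟨x, y, z, h0, h2⟩ := hilb_eq_one_iff.mp hinf
      refine ⟨![x, y, z], fun h' => h0 ⟨congrFun h' 0, congrFun h' 1, congrFun h' 2⟩, ?_⟩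
      rw [Fin.sum_univ_three]
      change algebraMap ℚ ℝ (-a) * x ^ 2 + algebraMap ℚ ℝ (-b) * y ^ 2 + algebraMap ℚ ℝ 1 * z ^ 2 = 0
      rw [map_neg, map_neg, map_one, eq_ratCast, eq_ratCast]
      linear_combination h2)
    rw [Fin.sum_univ_three] at hx
    change -a * x 0 ^ 2 + -b * x 1 ^ 2 + 1 * x 2 ^ 2 = 0 at hx
    refine ⟨x 0, x 1, x 2, fun h' => hx0 ?_, by linear_combination hx⟩
    funext i
    fin_cases i
    · exact h'.1
    · exact h'.2.1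
    · exact h'.2.2

/-- **One prime can be omitted.** -/
theorem sol_rat_of_ne {a b : ℚ} (ha : a ≠ 0) (hb : b ≠ 0) (q : Nat.Primes)
    (h : ∀ p : Nat.Primes, p ≠ q → hilbAt p a b = 1) (hinf : hilbInf a b = 1) : Sol a b := by
  refine (sol_rat_iff ha hb).mpr ⟨fun p => ?_, hinf⟩
  by_cases hpq : p = q
  · subst hpq
    have h1 := product_formula ha hb
    rw [hinf, mul_one, finprod_eq_single _ p fun r hr => h r hr] at h1
    exact h1
  · exact h p hpq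

/-- **The real place can be omitted.** -/
theorem sol_rat_of_finite {a b : ℚ} (ha : a ≠ 0) (hb : b ≠ 0)
    (h : ∀ p : Nat.Primes, hilbAt p a b = 1) : Sol a b := by
  refine (sol_rat_iff ha hb).mpr ⟨h, ?_⟩
  have h1 := product_formula ha hb
  rwa [finprod_eq_one_of_forall_eq_one h, one_mul] at h1

end Ternary

section Symbols

variable {p : ℕ} [hp : Fact p.Prime]

/-- units at an odd prime -/
theorem hilbAt_units_odd (hp2 : p ≠ 2) {a b : ℤ} (ha : ¬ (p : ℤ) ∣ a) (hb : ¬ (p : ℤ) ∣ b) :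
    hilbAt ⟨p, hp.out⟩ a b = 1 := by
  obtain ⟨LS⟩ := nonempty_LS ℚ
  have ha0 : a ≠ 0 := fun h => ha (h ▸ dvd_zero _)
  have hb0 : b ≠ 0 := fun h => hb (h ▸ dvd_zero _)
  refine (hilb_rat_eq_one_iff LS (iu a ha0) (iu b hb0)).mpr ?_
  exact hh_units (plc_ne_two hp2) (ord_iu _ _ (by rwa [natGenerator_plc]))
    (ord_iu _ _ (by rwa [natGenerator_plc]))

/-- `(a, b)_p` for an integer `a` divisible by `p` exactly once and `b` a square modulo `p`. -/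
theorem hilbAt_of_dvd (hp2 : p ≠ 2) {a b : ℤ} (ha : (p : ℤ) ∣ a) (ha2 : ¬ (p : ℤ) ^ 2 ∣ a)
    (hb : ¬ (p : ℤ) ∣ b) (hsq : IsSquare (b : ZMod p)) : hilbAt ⟨p, hp.out⟩ a b = 1 := by
  obtain ⟨LS⟩ := nonempty_LS ℚ
  obtain ⟨k, rfl⟩ := ha
  have hk : ¬ (p : ℤ) ∣ k := by
    rintro ⟨l, rfl⟩
    exact ha2 ⟨l, by ring⟩
  have hk0 : k ≠ 0 := fun h => hk (h ▸ dvd_zero _)
  have hb0 : b ≠ 0 := fun h => hb (h ▸ dvd_zero _)
  have h0 : ((p : ℕ) : ℤ) ≠ 0 := by exact_mod_cast hp.out.ne_zero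
  refine (hilb_rat_eq_one_iff LS (iu (p * k) (mul_ne_zero h0 hk0)) (iu b hb0)).mpr ?_
  rw [iu_mul h0 hk0, hh_mul_left]
  have h1 : hh LS (plc p) (iu k hk0) (iu b hb0) = 0 :=
    hh_units (plc_ne_two hp2) (ord_iu _ _ (by rwa [natGenerator_plc]))
      (ord_iu _ _ (by rwa [natGenerator_plc]))
  have h2 : ∀ q : ℕ, natGenerator (plc p) = q → ∀ h0 : (q : ℤ) ≠ 0, IsSquare (b : ZMod q) →
      hh LS (plc p) (iu q h0) (iu b hb0) = 0 := by
    rintro q rfl h0 h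
    exact (hh_gen (plc_ne_two hp2) hb0 (by rwa [natGenerator_plc])
      (by rw [iu_val, Int.cast_natCast])).mpr h
  rw [h1, h2 p (natGenerator_plc p) h0 hsq, add_zero]

end Symbols

section Legendre

/-- A non-trivial solution can be chosen primitive. -/
lemma exists_primitive {a b c : ℤ} (n : ℕ) : ∀ x y z : ℤ, x.natAbs + y.natAbs + z.natAbs = n →
    ¬ (x = 0 ∧ y = 0 ∧ z = 0) → a * x ^ 2 + b * y ^ 2 + c * z ^ 2 = 0 →
    ∃ x y z : ℤ, a * x ^ 2 + b * y ^ 2 + c * z ^ 2 = 0 ∧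
      ∀ p : ℕ, p.Prime → ¬ ((p : ℤ) ∣ x ∧ (p : ℤ) ∣ y ∧ (p : ℤ) ∣ z) := by
  induction n using Nat.strong_induction_on with
  | _ n ih =>
    intro x y z hn h0 h
    by_cases hp : ∃ p : ℕ, p.Prime ∧ (p : ℤ) ∣ x ∧ (p : ℤ) ∣ y ∧ (p : ℤ) ∣ z
    · obtain ⟨p, hp, ⟨x, rfl⟩, ⟨y, rfl⟩, ⟨z, rfl⟩⟩ := hp
      have hp0 : (p : ℤ) ≠ 0 := by exact_mod_cast hp.ne_zero
      have h1 : ¬ (x = 0 ∧ y = 0 ∧ z = 0) := by
        rintro ⟨rfl, rfl, rfl⟩
        exact h0 ⟨mul_zero _, mul_zero _, mul_zero _⟩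
      have h2 : 0 < x.natAbs + y.natAbs + z.natAbs := by omega
      refine ih _ ?_ x y z rfl h1 ?_
      · rw [← hn, Int.natAbs_mul, Int.natAbs_mul, Int.natAbs_mul, Int.natAbs_natCast, ← mul_add,
          ← mul_add]
        exact lt_mul_of_one_lt_left h2 hp.one_lt
      · have h3 : (p : ℤ) ^ 2 * (a * x ^ 2 + b * y ^ 2 + c * z ^ 2) = 0 := by
          linear_combination h
        exact (mul_eq_zero.mp h3).resolve_left (pow_ne_zero 2 hp0)
    · exact ⟨x, y, z, h, fun p hp' h' => hp ⟨p, hp', h'⟩⟩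

/-- The necessity of the condition at `a`. -/
lemma exists_of_primitive {a b c x y z : ℤ} (hsf : Squarefree (a * b * c))
    (h : a * x ^ 2 + b * y ^ 2 + c * z ^ 2 = 0)
    (hpr : ∀ p : ℕ, p.Prime → ¬ ((p : ℤ) ∣ x ∧ (p : ℤ) ∣ y ∧ (p : ℤ) ∣ z)) :
    ∃ r : ℤ, a ∣ r ^ 2 + b * c := by
  have hcop : IsCoprime z a := by
    rw [Int.isCoprime_iff_gcd_eq_one]
    by_contra hg
    obtain ⟨p, hp, hpg⟩ := Nat.exists_prime_and_dvd hg
    have hpP := Nat.prime_iff_prime_int.mp hp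
    have hpz : (p : ℤ) ∣ z := Int.natCast_dvd.mpr (hpg.trans (Nat.gcd_dvd_left _ _))
    have hpa : (p : ℤ) ∣ a := Int.natCast_dvd.mpr (hpg.trans (Nat.gcd_dvd_right _ _))
    have hpb : ¬ (p : ℤ) ∣ b := fun hpb =>
      hpP.not_isUnit (hsf _ ((mul_dvd_mul hpa hpb).mul_right c))
    have hpy : (p : ℤ) ∣ y := by
      have h1 : (p : ℤ) ∣ b * y ^ 2 := by
        have h2 : b * y ^ 2 = -(a * x ^ 2) - c * z ^ 2 := by linear_combination h
        rw [h2]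
        exact dvd_sub (dvd_neg.mpr (hpa.mul_right _)) ((dvd_pow hpz two_ne_zero).mul_left _)
      exact hpP.dvd_of_dvd_pow ((hpP.dvd_or_dvd h1).resolve_left hpb)
    have hpx : (p : ℤ) ∣ x := by
      by_contra hpx
      have h1 : (p : ℤ) * p ∣ a * x ^ 2 := by
        have h2 : a * x ^ 2 = -(b * y ^ 2) - c * z ^ 2 := by linear_combination h
        rw [h2, sq, sq]
        exact dvd_sub (dvd_neg.mpr ((mul_dvd_mul hpy hpy).mul_left _))
          ((mul_dvd_mul hpz hpz).mul_left _)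
      have h3 : IsCoprime ((p : ℤ) * p) (x ^ 2) := by
        have h4 : IsCoprime (p : ℤ) x := (hpP.coprime_iff_not_dvd).mpr hpx
        exact (h4.mul_left h4).pow_right
      exact hpP.not_isUnit (hsf _ ((h3.dvd_of_dvd_mul_right h1).mul_right b |>.mul_right c))
    exact hpr p hp ⟨hpx, hpy, hpz⟩
  obtain ⟨w, k, hw⟩ := hcop
  refine ⟨b * y * w, ?_⟩
  refine ⟨b * (c * k * (1 + w * z)) - b * x ^ 2 * w ^ 2, ?_⟩
  linear_combination b * w ^ 2 * h - b * c * (1 + w * z) * hw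

/-- clearing denominators -/
lemma exists_int_of_rat {a b c : ℤ} (h : ∃ x y z : ℚ, ¬ (x = 0 ∧ y = 0 ∧ z = 0) ∧
    (a : ℚ) * x ^ 2 + b * y ^ 2 + c * z ^ 2 = 0) :
    ∃ x y z : ℤ, ¬ (x = 0 ∧ y = 0 ∧ z = 0) ∧ a * x ^ 2 + b * y ^ 2 + c * z ^ 2 = 0 := by
  obtain ⟨x, y, z, h0, h⟩ := h
  have hx : (x.den : ℚ) ≠ 0 := by exact_mod_cast x.den_ne_zero
  have hy : (y.den : ℚ) ≠ 0 := by exact_mod_cast y.den_ne_zero
  have hz : (z.den : ℚ) ≠ 0 := by exact_mod_cast z.den_ne_zero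
  have hx1 : (x.num : ℚ) = x * x.den := (Rat.mul_den_eq_num x).symm
  have hy1 : (y.num : ℚ) = y * y.den := (Rat.mul_den_eq_num y).symm
  have hz1 : (z.num : ℚ) = z * z.den := (Rat.mul_den_eq_num z).symm
  refine ⟨x.num * y.den * z.den, y.num * x.den * z.den, z.num * x.den * y.den, ?_, ?_⟩
  · rintro ⟨h1, h2, h3⟩
    apply h0
    have hxd : (x.den : ℤ) ≠ 0 := by exact_mod_cast x.den_ne_zero
    have hyd : (y.den : ℤ) ≠ 0 := by exact_mod_cast y.den_ne_zero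
    have hzd : (z.den : ℤ) ≠ 0 := by exact_mod_cast z.den_ne_zero
    simp only [mul_eq_zero, hxd, hyd, hzd, or_false, Rat.num_eq_zero] at h1 h2 h3
    exact ⟨h1, h2, h3⟩
  · have h4 : ((a * (x.num * y.den * z.den) ^ 2 + b * (y.num * x.den * z.den) ^ 2 +
        c * (z.num * x.den * y.den) ^ 2 : ℤ) : ℚ) = 0 := by
      push_cast
      rw [hx1, hy1, hz1]
      linear_combination (x.den * y.den * z.den : ℚ) ^ 2 * h
    exact_mod_cast h4

/-- the local step at an odd prime -/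
lemma hilbAt_legendre {a b c : ℤ} (hsf : Squarefree (a * b * c))
    (ha : ∃ r : ℤ, a ∣ r ^ 2 + b * c) (hb : ∃ s : ℤ, b ∣ s ^ 2 + c * a)
    (hc : ∃ t : ℤ, c ∣ t ^ 2 + a * b) {p : ℕ} [hp : Fact p.Prime] (hp2 : p ≠ 2) :
    hilbAt ⟨p, hp.out⟩ ((-(a * c) : ℤ) : ℚ) ((-(b * c) : ℤ) : ℚ) = 1 := by
  have hpP := Nat.prime_iff_prime_int.mp hp.out
  have hab : (p : ℤ) ∣ a → ¬ (p : ℤ) ∣ b := fun h1 h2 =>
    hpP.not_isUnit (hsf _ ((mul_dvd_mul h1 h2).mul_right c))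
  have hac : (p : ℤ) ∣ a → ¬ (p : ℤ) ∣ c := fun h1 h2 =>
    hpP.not_isUnit (hsf _ (by
      have h3 := mul_dvd_mul h1 h2
      have h4 : a * b * c = a * c * b := by ring
      rw [h4]
      exact h3.mul_right b))
  have hbc : (p : ℤ) ∣ b → ¬ (p : ℤ) ∣ c := fun h1 h2 =>
    hpP.not_isUnit (hsf _ (by
      have h3 := mul_dvd_mul h1 h2
      have h4 : a * b * c = b * c * a := by ring
      rw [h4]
      exact h3.mul_right a))
  have hsq : ∀ {m k : ℤ}, (p : ℤ) ∣ m → ∀ r : ℤ, m ∣ r ^ 2 + k → IsSquare (((-k : ℤ)) : ZMod p) := by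
    intro m k hm r hr
    refine ⟨(r : ZMod p), ?_⟩
    have h1 := (ZMod.intCast_zmod_eq_zero_iff_dvd _ _).mpr (hm.trans hr)
    push_cast at h1 ⊢
    linear_combination -h1
  have hnd : ∀ {u w : ℤ}, ¬ (p : ℤ) ∣ u → ¬ (p : ℤ) ∣ w → ¬ (p : ℤ) ∣ -(u * w) := by
    intro u w hu hw h
    rw [dvd_neg] at h
    exact (hpP.dvd_or_dvd h).elim hu hw
  have h2 : ∀ {u w : ℤ}, Squarefree (u * w) → ¬ (p : ℤ) ^ 2 ∣ -(u * w) := by
    intro u w hu h
    rw [dvd_neg, sq] at h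
    exact hpP.not_isUnit (hu _ h)
  have hsac : Squarefree (a * c) := hsf.squarefree_of_dvd ⟨b, by ring⟩
  have hsbc : Squarefree (b * c) := hsf.squarefree_of_dvd ⟨a, by ring⟩
  obtain ⟨r, hr⟩ := ha
  obtain ⟨s, hs⟩ := hb
  obtain ⟨t, ht⟩ := hc
  by_cases h3 : (p : ℤ) ∣ c
  · have h4 : ¬ (p : ℤ) ∣ a := fun h => hac h h3
    have h5 : ¬ (p : ℤ) ∣ b := fun h => hbc h h3
    have h6 := hilbAt_of_dvd hp2 (a := -(a * c)) (b := -(a * b)) (dvd_neg.mpr (h3.mul_left _))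
      (h2 hsac) (hnd h4 h5) (hsq h3 t ht)
    rw [hilbAt_eq] at h6 ⊢
    have ha0 : ((a : ℤ) : ℚ_[p]) ≠ 0 := by
      have : a ≠ 0 := fun h => h4 (h ▸ dvd_zero _)
      exact_mod_cast this
    have hb0 : ((b : ℤ) : ℚ_[p]) ≠ 0 := by
      have : b ≠ 0 := fun h => h5 (h ▸ dvd_zero _)
      exact_mod_cast this
    have hc0 : ((c : ℤ) : ℚ_[p]) ≠ 0 := by
      have : c ≠ 0 := fun h => by
        rw [h, mul_zero] at hsf
        exact hsf.ne_zero rfl
      exact_mod_cast this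
    push_cast at h6 ⊢
    have h7 := hilb_padic_mul_right (A := -((a : ℚ_[p]) * (c : ℚ_[p])))
      (B := -((b : ℚ_[p]) * (c : ℚ_[p])))
      (B' := -(-((a : ℚ_[p]) * (c : ℚ_[p])))) (neg_ne_zero.mpr (mul_ne_zero ha0 hc0))
      (neg_ne_zero.mpr (mul_ne_zero hb0 hc0)) (by rw [neg_neg]; exact mul_ne_zero ha0 hc0)
    rw [hilb_neg_self, mul_one] at h7
    rw [← h7]
    have h8 : -((b : ℚ_[p]) * (c : ℚ_[p])) * -(-((a : ℚ_[p]) * (c : ℚ_[p]))) =
        -((a : ℚ_[p]) * (b : ℚ_[p])) * (c : ℚ_[p]) ^ 2 := by ring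
    rw [h8, hilb_mul_sq_right _ _ hc0]
    exact h6
  · by_cases h4 : (p : ℤ) ∣ a
    · exact hilbAt_of_dvd hp2 (dvd_neg.mpr (h4.mul_right _)) (h2 hsac) (hnd (hab h4) h3)
        (hsq h4 r hr)
    · by_cases h5 : (p : ℤ) ∣ b
      · rw [hilbAt_eq, hilb_comm, ← hilbAt_eq]
        refine hilbAt_of_dvd hp2 (dvd_neg.mpr (h5.mul_right _)) (h2 hsbc) (hnd h4 h3) ?_
        rw [mul_comm a c]
        exact hsq h5 s hs
      · exact hilbAt_units_odd hp2 (hnd h4 h3) (hnd h5 h3)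

/-- **Legendre's theorem** (1785). -/
theorem legendre {a b c : ℤ} (hsf : Squarefree (a * b * c)) (hpos : ¬ (0 < a ∧ 0 < b ∧ 0 < c))
    (hneg : ¬ (a < 0 ∧ b < 0 ∧ c < 0)) :
    (∃ x y z : ℤ, ¬ (x = 0 ∧ y = 0 ∧ z = 0) ∧ a * x ^ 2 + b * y ^ 2 + c * z ^ 2 = 0) ↔
      (∃ r : ℤ, a ∣ r ^ 2 + b * c) ∧ (∃ s : ℤ, b ∣ s ^ 2 + c * a) ∧ ∃ t : ℤ, c ∣ t ^ 2 + a * b := by
  have hab0 : a ≠ 0 ∧ b ≠ 0 ∧ c ≠ 0 := by
    have h := hsf.ne_zero
    exact ⟨fun h1 => h (by rw [h1]; ring), fun h1 => h (by rw [h1]; ring),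
      fun h1 => h (by rw [h1]; ring)⟩
  obtain ⟨ha0, hb0, hc0⟩ := hab0
  constructor
  · rintro ⟨x, y, z, h0, h⟩
    obtain ⟨x, y, z, h, hpr⟩ := exists_primitive _ x y z rfl h0 h
    refine ⟨exists_of_primitive hsf h hpr, ?_, ?_⟩
    · refine exists_of_primitive (a := b) (b := c) (c := a) (x := y) (y := z) (z := x) ?_
        (by linear_combination h) fun p hp h' => hpr p hp ⟨h'.2.2, h'.1, h'.2.1⟩
      rwa [show b * c * a = a * b * c by ring]
    · refine exists_of_primitive (a := c) (b := a) (c := b) (x := z) (y := x) (z := y) ?_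
        (by linear_combination h) fun p hp h' => hpr p hp ⟨h'.2.1, h'.2.2, h'.1⟩
      rwa [show c * a * b = a * b * c by ring]
  · rintro ⟨ha, hb, hc⟩
    have hA : (((-(a * c) : ℤ)) : ℚ) ≠ 0 := by
      exact_mod_cast neg_ne_zero.mpr (mul_ne_zero ha0 hc0)
    have hB : (((-(b * c) : ℤ)) : ℚ) ≠ 0 := by
      exact_mod_cast neg_ne_zero.mpr (mul_ne_zero hb0 hc0)
    have h1 : Sol (((-(a * c) : ℤ)) : ℚ) (((-(b * c) : ℤ)) : ℚ) := by
      refine sol_rat_of_ne hA hB ⟨2, Nat.prime_two⟩ (fun p hp => ?_) ?_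
      · have : Fact p.1.Prime := ⟨p.2⟩
        exact hilbAt_legendre hsf ha hb hc fun h2 => hp (Subtype.ext h2)
      · rw [hilbInf_eq hA hB, if_neg]
        rintro ⟨h2, h3⟩
        have h4 : -(a * c) < 0 := by exact_mod_cast h2
        have h5 : -(b * c) < 0 := by exact_mod_cast h3
        have h6 : 0 < a * c := by linarith
        have h7 : 0 < b * c := by linarith
        rcases pos_and_pos_or_neg_and_neg_of_mul_pos h6 with h8 | h8
        · exact hpos ⟨h8.1, (pos_iff_pos_of_mul_pos h7).mpr h8.2, h8.2⟩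
        · exact hneg ⟨h8.1, (neg_iff_neg_of_mul_pos h7).mpr h8.2, h8.2⟩
    obtain ⟨x, y, z, h0, h2⟩ := h1
    refine exists_int_of_rat ⟨x, y, z / c, ?_, ?_⟩
    · rintro ⟨h3, h4, h5⟩
      refine h0 ⟨h3, h4, ?_⟩
      rw [div_eq_zero_iff] at h5
      exact h5.resolve_right (by exact_mod_cast hc0)
    · have hc0' : (c : ℚ) ≠ 0 := by exact_mod_cast hc0
      push_cast at h2
      field_simp
      linear_combination h2

/-- Legendre's theorem in the form `a x² + b y² = c z²`, `a, c > 0` (`b` of any sign). -/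
theorem legendre_pos {a b c : ℤ} (ha : 0 < a) (hc : 0 < c)
    (hsf : Squarefree (a * b * c)) :
    (∃ x y z : ℤ, ¬ (x = 0 ∧ y = 0 ∧ z = 0) ∧ a * x ^ 2 + b * y ^ 2 = c * z ^ 2) ↔
      (∃ r : ℤ, a ∣ r ^ 2 - b * c) ∧ (∃ s : ℤ, b ∣ s ^ 2 - c * a) ∧ ∃ t : ℤ, c ∣ t ^ 2 + a * b := by
  have h := legendre (a := a) (b := b) (c := -c) (by
    rw [mul_neg]
    exact hsf.squarefree_of_dvd (neg_dvd.mpr dvd_rfl)) (fun h => by linarith [h.2.2]) (fun h => by linarith [h.1])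
  have h1 : (∃ x y z : ℤ, ¬ (x = 0 ∧ y = 0 ∧ z = 0) ∧ a * x ^ 2 + b * y ^ 2 = c * z ^ 2) ↔
      (∃ x y z : ℤ, ¬ (x = 0 ∧ y = 0 ∧ z = 0) ∧ a * x ^ 2 + b * y ^ 2 + -c * z ^ 2 = 0) := by
    constructor
    · rintro ⟨x, y, z, h0, h⟩
      exact ⟨x, y, z, h0, by linear_combination h⟩
    · rintro ⟨x, y, z, h0, h⟩
      exact ⟨x, y, z, h0, by linear_combination h⟩
  rw [h1, h]
  refine and_congr ?_ (and_congr ?_ ?_)
  · simp only [mul_neg, sub_eq_add_neg]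
  · simp only [neg_mul, sub_eq_add_neg]
  · simp only [neg_dvd]

end Legendre

end Fermat.Agent.Cor.Hilb
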