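import Fermat.Agent.Corollaries.HM.Hilb.Basic
import Fermat.Agent.Corollaries.HM.ClassifyAbs

/-!
# Quadratic forms over a field with a non-degenerate Hilbert symbol

`LocalHilb F`: the Hilbert symbol of `F` is bilinear and non-degenerate, and `Fˣ / Fˣ²` has at least
four elements; for instance `F = ℚ_p` or the completion of a number field at a finite place.
Theorems 6 and 7 and Proposition 6 of Serre, Cours d'arithmétique, chapter IV.
-/

set_option autoImplicit false

namespace Fermat.Agent.Cor.Hilb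

open QuadraticMap Fermat.Agent.Cor.HM

/-- The Hilbert symbol of `F` is bilinear and non-degenerate, and there are two independent classes
modulo squares. -/
structure LocalHilb (F : Type*) [Field F] : Prop where
  two : (2 : F) ≠ 0
  mul_left : ∀ a b c : F, a ≠ 0 → b ≠ 0 → c ≠ 0 → hilb (a * b) c = hilb a c * hilb b c
  nondeg : ∀ a : F, a ≠ 0 → (∀ b, b ≠ 0 → hilb a b = 1) → IsSquare a
  big : ∃ α β : F, α ≠ 0 ∧ β ≠ 0 ∧ ¬ IsSquare α ∧ ¬ IsSquare β ∧ ¬ IsSquare (α * β)

variable {F : Type*} [Field F]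

lemma isSquare_unit_iff {u : Fˣ} : IsSquare u ↔ IsSquare (u : F) := by
  constructor
  · rintro ⟨r, rfl⟩
    exact ⟨r, by rw [Units.val_mul]⟩
  · rintro ⟨r, hr⟩
    have hr0 : r ≠ 0 := by
      rintro rfl
      rw [mul_zero] at hr
      exact u.ne_zero hr
    exact ⟨Units.mk0 r hr0, Units.ext (by rw [Units.val_mul, Units.val_mk0, hr])⟩

lemma isSquare_mul_left_iff {u w : Fˣ} (h : IsSquare u) : IsSquare (u * w) ↔ IsSquare w := by
  constructor
  · intro h1
    have h2 := h1.mul h.inv
    have h3 : u * w * u⁻¹ = w := by rw [mul_comm u w, mul_inv_cancel_right]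
    rwa [h3] at h2
  · exact h.mul

/-- The Hilbert symbol as a symbol in the sense of `HasseInv`. -/
noncomputable def LocalHilb.symb (H : LocalHilb F) : Symb F ℤˣ where
  s := MonoidHom.mk' (fun a => MonoidHom.mk' (fun b => hilb (a : F) b) fun b c => by
    rw [Units.val_mul, hilb_comm, H.mul_left _ _ _ b.ne_zero c.ne_zero a.ne_zero,
      hilb_comm (b : F), hilb_comm (c : F)]) fun a b => by
    refine MonoidHom.ext fun c => ?_
    change hilb ((a * b : Fˣ) : F) c = hilb (a : F) c * hilb (b : F) c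
    rw [Units.val_mul, H.mul_left _ _ _ a.ne_zero b.ne_zero c.ne_zero]
  mul_self a b := Int.units_mul_self _
  symm a b := hilb_comm _ _
  norm a b x y h := (hilb_eq_one_iff.mpr ⟨y, 1, x, fun h' => one_ne_zero h'.2.1, by
    rw [h]; ring⟩ : hilb (a : F) b = 1)

lemma LocalHilb.symb_apply (H : LocalHilb F) (a b : Fˣ) : H.symb.s a b = hilb (a : F) b := rfl

section Values

variable (H : LocalHilb F)

include H

lemma LocalHilb.isSquare_of {a : Fˣ} (h : ∀ x : Fˣ, H.symb.s a x = 1) : IsSquare a := by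
  rw [isSquare_unit_iff]
  refine H.nondeg a a.ne_zero fun b hb => ?_
  exact h (Units.mk0 b hb)

/-- The values of a binary form. -/
lemma LocalHilb.rep_two (a b c : Fˣ) : (∃ x y : F, (a : F) * x ^ 2 + b * y ^ 2 = c) ↔
    H.symb.s c (-(a * b)) = H.symb.s a b := by
  have h1 : (∃ x y : F, (a : F) * x ^ 2 + b * y ^ 2 = c) ↔ H.symb.s (-(a * b)) (a * c) = 1 := by
    rw [H.symb_apply, hilb_eq_one_iff, sol_iff_norm H.two (Units.ne_zero _)]
    push_cast
    constructor
    · rintro ⟨x, y, h⟩
      exact ⟨a * x, y, by rw [← h]; ring⟩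
    · rintro ⟨s, t, h⟩
      refine ⟨s / a, t, ?_⟩
      have ha := a.ne_zero
      field_simp
      linear_combination -h
  have h2 : H.symb.s (-(a * b)) a = H.symb.s a b := by
    have h3 : -(a * b) = -a * b := by rw [neg_mul]
    rw [h3, map_mul, MonoidHom.mul_apply, H.symb.symm (-a) a, H.symb.neg_self, one_mul,
      H.symb.symm]
  rw [h1, map_mul, h2, H.symb.symm c]
  constructor
  · intro h
    exact (mul_left_cancel ((H.symb.mul_self a b).trans h.symm)).symm
  · intro h
    rw [h]
    exact H.symb.mul_self a b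

omit H in
/-- isotropy in two variables -/
lemma iso_two (a b : Fˣ) : (∃ x y : F, ¬ (x = 0 ∧ y = 0) ∧ (a : F) * x ^ 2 + b * y ^ 2 = 0) ↔
    IsSquare (-(a * b)) := by
  have ha := a.ne_zero
  have hb := b.ne_zero
  rw [isSquare_unit_iff]
  push_cast
  constructor
  · rintro ⟨x, y, h0, h⟩
    have hy : y ≠ 0 := by
      rintro rfl
      apply h0
      have h1 : (a : F) * x ^ 2 = 0 := by linear_combination h
      exact ⟨by simpa [ha] using h1, rfl⟩
    refine ⟨a * x / y, ?_⟩
    field_simp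
    linear_combination -h
  · rintro ⟨r, hr⟩
    exact ⟨r, a, fun h => ha h.2, by linear_combination -(a : F) * hr⟩

omit H in
/-- an isotropic binary form represents everything -/
lemma rep_of_iso_two (h2 : (2 : F) ≠ 0) {a b : Fˣ} (h : IsSquare (-(a * b))) (c : F) :
    ∃ x y : F, (a : F) * x ^ 2 + b * y ^ 2 = c := by
  have ha := a.ne_zero
  rw [isSquare_unit_iff] at h
  push_cast at h
  obtain ⟨r, hr⟩ := h
  have hr0 : r ≠ 0 := by
    rintro rfl
    rw [mul_zero, neg_eq_zero] at hr
    exact mul_ne_zero a.ne_zero b.ne_zero hr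
  refine ⟨(c / a + 1) / 2, (c / a - 1) * a / (2 * r), ?_⟩
  have h1 : (b : F) = -(r * r) / a := by
    field_simp
    linear_combination -hr
  rw [h1]
  field_simp
  ring

/-- isotropy in three variables -/
lemma LocalHilb.iso_three (a b c : Fˣ) : (∃ x y z : F, ¬ (x = 0 ∧ y = 0 ∧ z = 0) ∧
    (a : F) * x ^ 2 + b * y ^ 2 + c * z ^ 2 = 0) ↔ H.symb.s (-c) (-(a * b)) = H.symb.s a b := by
  rw [← H.rep_two]
  constructor
  · rintro ⟨x, y, z, h0, h⟩
    by_cases hz : z = 0
    · subst hz
      refine rep_of_iso_two H.two ((iso_two a b).mp ⟨x, y, fun h' => h0 ⟨h'.1, h'.2, rfl⟩, ?_⟩) _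
      linear_combination h
    · refine ⟨x / z, y / z, ?_⟩
      rw [Units.val_neg]
      field_simp
      linear_combination h
  · rintro ⟨x, y, h⟩
    rw [Units.val_neg] at h
    exact ⟨x, y, 1, fun h' => one_ne_zero h'.2.2, by linear_combination h⟩

/-- isotropy in four variables -/
lemma LocalHilb.iso_four' (a b c d : Fˣ) : (∃ x y z t : F, ¬ (x = 0 ∧ y = 0 ∧ z = 0 ∧ t = 0) ∧
    (a : F) * x ^ 2 + b * y ^ 2 + c * z ^ 2 + d * t ^ 2 = 0) ↔
    ∃ u : Fˣ, H.symb.s u (-(a * b)) = H.symb.s a b ∧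
      H.symb.s (-u) (-(c * d)) = H.symb.s c d := by
  have hself : ∀ a b : Fˣ, H.symb.s a (-(a * b)) = H.symb.s a b := fun a b =>
    (H.rep_two a b a).mp ⟨1, 0, by ring⟩
  constructor
  · rintro ⟨x, y, z, t, h0, h⟩
    by_cases hu : (a : F) * x ^ 2 + b * y ^ 2 = 0
    · by_cases hxy : x = 0 ∧ y = 0
      · -- the second half is isotropic
        refine ⟨a, hself a b, ?_⟩
        rw [← H.rep_two]
        refine rep_of_iso_two H.two ((iso_two c d).mp ⟨z, t, fun h' =>
          h0 ⟨hxy.1, hxy.2, h'.1, h'.2⟩, ?_⟩) _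
        linear_combination h - hu
      · refine ⟨-c, ?_, ?_⟩
        · rw [← H.rep_two]
          exact rep_of_iso_two H.two ((iso_two a b).mp ⟨x, y, hxy, hu⟩) _
        · rw [neg_neg]
          exact hself c d
    · refine ⟨Units.mk0 _ hu, ?_, ?_⟩
      · rw [← H.rep_two]
        exact ⟨x, y, rfl⟩
      · rw [← H.rep_two]
        refine ⟨z, t, ?_⟩
        rw [Units.val_neg, Units.val_mk0]
        linear_combination h
  · rintro ⟨u, h1, h2⟩
    rw [← H.rep_two] at h1 h2
    obtain ⟨x, y, hxy⟩ := h1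
    obtain ⟨z, t, hzt⟩ := h2
    rw [Units.val_neg] at hzt
    refine ⟨x, y, z, t, ?_, by linear_combination hxy + hzt⟩
    rintro ⟨rfl, rfl, -, -⟩
    apply u.ne_zero
    rw [← hxy]
    ring

omit H in
lemma eq_neg_one_of_ne {t : ℤˣ} (h : t ≠ 1) : t = -1 := (Int.units_eq_one_or t).resolve_left h

/-- independent classes have independent symbols -/
lemma LocalHilb.exists_sym {α β : Fˣ} (hα : ¬ IsSquare α) (hβ : ¬ IsSquare β)
    (hαβ : ¬ IsSquare (α * β)) (s t : ℤˣ) :
    ∃ x : Fˣ, H.symb.s x α = s ∧ H.symb.s x β = t := by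
  have hex : ∀ γ : Fˣ, ¬ IsSquare γ → ∃ x, H.symb.s x γ = -1 := by
    intro γ hγ
    by_contra! h
    refine hγ (H.isSquare_of fun x => ?_)
    rw [H.symb.symm]
    by_contra h1
    exact h x (eq_neg_one_of_ne h1)
  obtain ⟨x, hx⟩ := hex α hα
  obtain ⟨y, hy⟩ := hex β hβ
  obtain ⟨z, hz⟩ := hex (α * β) hαβ
  rw [map_mul] at hz
  -- elements with symbols (-1, 1) and (1, -1)
  have key : (∃ p : Fˣ, H.symb.s p α = -1 ∧ H.symb.s p β = 1) ∧
      ∃ q : Fˣ, H.symb.s q α = 1 ∧ H.symb.s q β = -1 := by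
    rcases Int.units_eq_one_or (H.symb.s z α) with hz1 | hz1
    · have hz2 : H.symb.s z β = -1 := by rw [hz1, one_mul] at hz; exact hz
      refine ⟨?_, z, hz1, hz2⟩
      rcases Int.units_eq_one_or (H.symb.s x β) with hx1 | hx1
      · exact ⟨x, hx, hx1⟩
      · refine ⟨x * z, ?_, ?_⟩
        · rw [map_mul, MonoidHom.mul_apply, hx, hz1, mul_one]
        · rw [map_mul, MonoidHom.mul_apply, hx1, hz2]; decide
    · have hz2 : H.symb.s z β = 1 := by
        rcases Int.units_eq_one_or (H.symb.s z β) with h | h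
        · exact h
        · rw [hz1, h] at hz
          exact absurd hz (by decide)
      refine ⟨⟨z, hz1, hz2⟩, ?_⟩
      rcases Int.units_eq_one_or (H.symb.s y α) with hy1 | hy1
      · exact ⟨y, hy1, hy⟩
      · refine ⟨y * z, ?_, ?_⟩
        · rw [map_mul, MonoidHom.mul_apply, hy1, hz1]; decide
        · rw [map_mul, MonoidHom.mul_apply, hy, hz2, mul_one]
  obtain ⟨⟨p, hp1, hp2⟩, q, hq1, hq2⟩ := key
  rcases Int.units_eq_one_or s with rfl | rfl <;> rcases Int.units_eq_one_or t with rfl | rfl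
  · exact ⟨1, by rw [map_one, MonoidHom.one_apply], by rw [map_one, MonoidHom.one_apply]⟩
  · exact ⟨q, hq1, hq2⟩
  · exact ⟨p, hp1, hp2⟩
  · refine ⟨p * q, ?_, ?_⟩
    · rw [map_mul, MonoidHom.mul_apply, hp1, hq1, mul_one]
    · rw [map_mul, MonoidHom.mul_apply, hp2, hq2, one_mul]

/-- `(a, b) = 1` if `-ab` is a square -/
lemma LocalHilb.eq_one_of_isSquare {a b : Fˣ} (h : IsSquare (-(a * b))) : H.symb.s a b = 1 := by
  have h1 : H.symb.s a (-a) = H.symb.s a b := by
    refine H.symb.congr_right ?_ a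
    rwa [neg_mul]
  rw [← h1, H.symb.neg_self]

/-- **Isotropy in four variables** in terms of the invariants. -/
lemma LocalHilb.iso_four (a b c d : Fˣ) : (∃ x y z t : F, ¬ (x = 0 ∧ y = 0 ∧ z = 0 ∧ t = 0) ∧
    (a : F) * x ^ 2 + b * y ^ 2 + c * z ^ 2 + d * t ^ 2 = 0) ↔
    ¬ IsSquare (a * b * (c * d)) ∨ H.symb.s a b * H.symb.s c d * H.symb.s (a * b) (c * d) =
      H.symb.s (-1) (-1) := by
  rw [H.iso_four']
  set S := H.symb with hS
  have hself : ∀ a b : Fˣ, S.s a (-(a * b)) = S.s a b := fun a b =>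
    (H.rep_two a b a).mp ⟨1, 0, by ring⟩
  have hneg : ∀ u : Fˣ, S.s (-u) (-(c * d)) = S.s c d ↔
      S.s u (-(c * d)) = S.s (-c) (-d) := by
    intro u
    have e1 : S.s (-u) (-(c * d)) = S.s (-1) (-(c * d)) * S.s u (-(c * d)) := by
      rw [← MonoidHom.mul_apply, ← map_mul, neg_one_mul]
    have e2 : S.s (-c) (-d) = S.s (-1) (-(c * d)) * S.s c d := by
      have f1 : -c = (-1) * c := by rw [neg_one_mul]
      have f2 : -d = (-1) * d := by rw [neg_one_mul]
      have f3 : -(c * d) = (-1) * (c * d) := by rw [neg_one_mul]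
      rw [f1, f2, f3]
      simp only [map_mul, MonoidHom.mul_apply]
      rw [S.symm c (-1)]
      simp only [mul_comm, mul_left_comm]
    rw [e1, e2]
    constructor
    · intro h
      rw [← h, ← mul_assoc, S.mul_self, one_mul]
    · intro h
      rw [h, ← mul_assoc, S.mul_self, one_mul]
  simp only [hneg]
  have hneg' : -c * -d = c * d := neg_mul_neg c d
  by_cases hα : IsSquare (-(a * b))
  · -- the first form is isotropic
    have h1 : S.s a b = 1 := H.eq_one_of_isSquare hα
    have hl : ∃ u : Fˣ, S.s u (-(a * b)) = S.s a b ∧ S.s u (-(c * d)) = S.s (-c) (-d) := by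
      refine ⟨-c, ?_, ?_⟩
      · rw [h1, S.symm]
        obtain ⟨r, hr⟩ := hα
        rw [hr, map_mul, MonoidHom.mul_apply, S.mul_self]
      · have h2 := hself (-c) (-d)
        rwa [hneg'] at h2
    refine iff_of_true hl ?_
    by_cases hD : IsSquare (a * b * (c * d))
    · right
      have hβ : IsSquare (-(c * d)) := by
        rw [← isSquare_mul_left_iff hα, neg_mul_neg]
        exact hD
      have h2 : S.s c d = 1 := H.eq_one_of_isSquare hβ
      have h3 : S.s (a * b) (c * d) = S.s (-1) (-1) := by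
        have h4 : S.s (a * b) (c * d) = S.s (a * b) (-1) := by
          refine S.congr_right ?_ _
          rwa [mul_neg_one]
        have h5 : S.s (-1) (a * b) = S.s (-1) (-1) := by
          refine S.congr_right ?_ _
          rwa [mul_neg_one]
        rw [h4, S.symm, h5]
      rw [h1, h2, h3, one_mul, one_mul]
    · exact Or.inl hD
  by_cases hβ : IsSquare (-(c * d))
  · -- the second form is isotropic
    have h1 : S.s (-c) (-d) = 1 := by
      refine H.eq_one_of_isSquare ?_
      rwa [hneg']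
    have hl : ∃ u : Fˣ, S.s u (-(a * b)) = S.s a b ∧ S.s u (-(c * d)) = S.s (-c) (-d) := by
      refine ⟨a, hself a b, ?_⟩
      rw [h1, S.symm]
      obtain ⟨r, hr⟩ := hβ
      rw [hr, map_mul, MonoidHom.mul_apply, S.mul_self]
    refine iff_of_true hl (Or.inl fun hD => hα ?_)
    rw [← isSquare_mul_left_iff hβ, neg_mul_neg, mul_comm]
    exact hD
  by_cases hD : IsSquare (a * b * (c * d))
  · -- the same functional
    have hcong : ∀ u : Fˣ, S.s u (-(a * b)) = S.s u (-(c * d)) := fun u => by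
      refine S.congr_right ?_ u
      rwa [neg_mul_neg]
    have hl : (∃ u : Fˣ, S.s u (-(a * b)) = S.s a b ∧ S.s u (-(c * d)) = S.s (-c) (-d)) ↔
        S.s a b = S.s (-c) (-d) := by
      constructor
      · rintro ⟨u, h1, h2⟩
        rw [← h1, hcong, h2]
      · intro h
        exact ⟨a, hself a b, by rw [← hcong, hself, h]⟩
    rw [hl, or_iff_right (not_not.mpr hD)]
    -- the algebra of the symbols
    have h3 : S.s (a * b) (c * d) = S.s (-1) (c * d) := by
      have h4 : S.s (c * d) (a * b) = S.s (c * d) (c * d) := by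
        refine S.congr_right ?_ _
        exact hD
      rw [S.symm, h4, S.self_eq, S.symm]
    have e2 : S.s (-c) (-d) = S.s (-1) (-1) * (S.s (-1) (c * d) * S.s c d) := by
      have f1 : -c = (-1) * c := by rw [neg_one_mul]
      have f2 : -d = (-1) * d := by rw [neg_one_mul]
      rw [f1, f2]
      simp only [map_mul, MonoidHom.mul_apply]
      rw [S.symm c (-1)]
      simp only [mul_comm, mul_left_comm]
    rw [e2, h3]
    have q1 := Int.units_mul_self (S.s a b)
    generalize S.s a b = p at *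
    generalize S.s c d = q
    generalize S.s (-1) (c * d) = r
    generalize S.s (-1) (-1) = t
    clear q1 e2 h3 hl hcong
    revert p q r t
    decide
  · refine iff_of_true ?_ (Or.inl hD)
    have h1 := H.exists_sym hα hβ (by rwa [neg_mul_neg]) (S.s a b) (S.s (-c) (-d))
    exact h1

end Values

end Fermat.Agent.Cor.Hilb
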