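import Fermat.Agent.Corollaries.HM.Hilb.Local
import Fermat.Agent.Corollaries.HM.Classify

/-!
# Quadratic forms over a field with a non-degenerate Hilbert symbol: isotropy and classification

`F` is a field with `H : LocalHilb F` (for instance `ℚ_p`, or a completion of a number field at a
finite place) and `S = H.symb` is its Hilbert symbol.

* `LocalHilb.isotropic_iff`: Theorem 6 of Serre, Cours d'arithmétique, IV.2;
* `LocalHilb.exists_value_iff`: the corollary on the elements represented by a form;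
* `LocalHilb.equivalent_iff`: Theorem 7, the classification by rank, discriminant and the
  Hasse-Witt invariant;
* `LocalHilb.exists_invariants_iff`: Proposition 6, the invariants which occur;
* `LocalHilb.equivalent_of_anisotropic_four`: the anisotropic form in four variables is unique.
-/

set_option autoImplicit false

namespace Fermat.Agent.Cor.Hilb

open QuadraticMap Fermat.Agent.Cor.HM

variable {F : Type*} [Field F]

section Five

variable (H : LocalHilb F)

include H

/-- a non-square with trivial symbol -/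
lemma LocalHilb.exists_ker (δ : Fˣ) : ∃ y : Fˣ, ¬ IsSquare y ∧ H.symb.s y δ = 1 := by
  obtain ⟨α, β, hα0, hβ0, hα, hβ, hαβ⟩ := H.big
  set a := Units.mk0 α hα0
  set b := Units.mk0 β hβ0
  have h1 : ¬ IsSquare a := by rwa [isSquare_unit_iff]
  have h2 : ¬ IsSquare b := by rwa [isSquare_unit_iff]
  have h3 : ¬ IsSquare (a * b) := by rwa [isSquare_unit_iff]
  by_cases h4 : H.symb.s a δ = 1
  · exact ⟨a, h1, h4⟩
  by_cases h5 : H.symb.s b δ = 1
  · exact ⟨b, h2, h5⟩
  refine ⟨a * b, h3, ?_⟩
  rw [map_mul, MonoidHom.mul_apply, eq_neg_one_of_ne h4, eq_neg_one_of_ne h5]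
  decide

lemma LocalHilb.exists_nonsquare : ∃ y : Fˣ, ¬ IsSquare y := by
  obtain ⟨y, hy, -⟩ := H.exists_ker 1
  exact ⟨y, hy⟩

lemma LocalHilb.self_neg_mul (a b : Fˣ) : H.symb.s a (-(a * b)) = H.symb.s a b :=
  (H.rep_two a b a).mp ⟨1, 0, by ring⟩

/-- a non-square has a symbol equal to `-1` -/
lemma LocalHilb.exists_eq {δ : Fˣ} (hδ : ¬ IsSquare δ) (ε : ℤˣ) : ∃ x : Fˣ, H.symb.s x δ = ε := by
  rcases Int.units_eq_one_or ε with rfl | rfl
  · exact ⟨1, by rw [map_one, MonoidHom.one_apply]⟩
  · by_contra! h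
    refine hδ (H.isSquare_of fun x => ?_)
    rw [H.symb.symm]
    by_contra h1
    exact h x (eq_neg_one_of_ne h1)

/-- **Every form in five variables is isotropic.** -/
theorem LocalHilb.five (a : Fin 5 → F) (ha : ∀ i, a i ≠ 0) :
    ∃ x : Fin 5 → F, x ≠ 0 ∧ ∑ i, a i * x i ^ 2 = 0 := by
  set A : Fin 5 → Fˣ := fun i => Units.mk0 (a i) (ha i) with hA
  have hAa : ∀ i, (A i : F) = a i := fun i => rfl
  -- a value `u` of `<a₀, a₁>` with `u a₀ a₁ a₂ a₃ a₄` not a square
  obtain ⟨u, ⟨x, y, hxy⟩, hu⟩ : ∃ u : Fˣ, (∃ x y : F, (A 0 : F) * x ^ 2 + A 1 * y ^ 2 = u) ∧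
      ¬ IsSquare (u * (A 0 * A 1 * A 2 * A 3 * A 4)) := by
    by_cases h1 : IsSquare (A 0 * (A 0 * A 1 * A 2 * A 3 * A 4))
    · obtain ⟨y, hy, hy1⟩ := H.exists_ker (-(A 0 * A 1))
      refine ⟨A 0 * y, ?_, fun h => hy ?_⟩
      · rw [H.rep_two, map_mul, MonoidHom.mul_apply, hy1, mul_one]
        exact H.self_neg_mul _ _
      · rw [← isSquare_mul_left_iff h1, mul_assoc, mul_comm _ y, ← mul_assoc]
        exact h
    · exact ⟨A 0, ⟨1, 0, by ring⟩, h1⟩
  obtain ⟨z, t, v, w, h0, h⟩ := (H.iso_four (A 0 * A 1 * u) (A 2) (A 3) (A 4)).mpr (Or.inl (by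
    have e1 : A 0 * A 1 * u * A 2 * (A 3 * A 4) = u * (A 0 * A 1 * A 2 * A 3 * A 4) := by
      rw [mul_comm (A 0 * A 1) u]
      simp only [mul_assoc]
    rwa [e1]))
  rw [Units.val_mul, Units.val_mul] at h
  simp only [hAa] at h hxy
  refine ⟨![-(a 1 * y * z), a 0 * x * z, t, v, w], fun h' => ?_, ?_⟩
  · have e0 : -(a 1 * y * z) = 0 := congrFun h' 0
    have e1 : a 0 * x * z = 0 := congrFun h' 1
    have e2 : t = 0 := congrFun h' 2
    have e3 : v = 0 := congrFun h' 3
    have e4 : w = 0 := congrFun h' 4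
    have hz : z ≠ 0 := fun hz => h0 ⟨hz, e2, e3, e4⟩
    have hx : x = 0 := by simpa [ha 0, hz] using e1
    have hy : y = 0 := by simpa [ha 1, hz] using e0
    apply u.ne_zero
    rw [← hxy, hx, hy]
    ring
  · rw [Fin.sum_univ_five]
    simp only [Matrix.cons_val_zero, Matrix.cons_val_one, Matrix.cons_val]
    rw [← hxy] at h
    linear_combination h

end Five

/-- isotropy of `wf a` in coordinates -/
lemma not_anisotropic_wf {n : ℕ} (a : Fin n → Fˣ) :
    ¬ (wf a).Anisotropic ↔ ∃ x : Fin n → F, x ≠ 0 ∧ ∑ i, (a i : F) * x i ^ 2 = 0 := by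
  simp only [QuadraticMap.Anisotropic, not_forall, wf_apply]
  constructor
  · rintro ⟨x, hx, hx0⟩
    exact ⟨x, hx0, hx⟩
  · rintro ⟨x, hx0, hx⟩
    exact ⟨x, hx, hx0⟩

section Iso

variable (H : LocalHilb F)

include H

/-- **Theorem 6 of Serre, Cours d'arithmétique, IV.2**: a form over a local field of rank `n`,
discriminant `d` and Hasse-Witt invariant `ε` is isotropic iff `n = 2` and `-d` is a square, or
`n = 3` and `(-1, -d) = ε`, or `n = 4` and (`d` is not a square or `ε = (-1, -1)`), or `n ≥ 5`. -/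
theorem LocalHilb.isotropic_iff {n : ℕ} (a : Fin n → Fˣ) : ¬ (wf a).Anisotropic ↔
    (n = 2 ∧ IsSquare (-∏ i, a i)) ∨
    (n = 3 ∧ H.symb.s (-1) (-∏ i, a i) = H.symb.hasse a) ∨
    (n = 4 ∧ (¬ IsSquare (∏ i, a i) ∨ H.symb.hasse a = H.symb.s (-1) (-1))) ∨ 5 ≤ n := by
  rw [not_anisotropic_wf]
  obtain h5 | h5 := le_or_gt 5 n
  · refine iff_of_true (isotropic_of_sub (Fin.castLEEmb h5) ?_) (Or.inr (Or.inr (Or.inr h5)))
    exact H.five _ fun i => (a _).ne_zero
  interval_cases n
  · refine iff_of_false ?_ (by omega)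
    rintro ⟨x, hx, -⟩
    exact hx (Subsingleton.elim _ _)
  · refine iff_of_false ?_ (by omega)
    rintro ⟨x, hx, h⟩
    apply hx
    funext i
    rw [Fin.sum_univ_one] at h
    rw [Subsingleton.elim i 0]
    simpa using h
  · have e : (∃ x : Fin 2 → F, x ≠ 0 ∧ ∑ i, (a i : F) * x i ^ 2 = 0) ↔
        IsSquare (-∏ i, a i) := by
      rw [Fin.prod_univ_two, ← iso_two]
      constructor
      · rintro ⟨x, hx, h⟩
        rw [Fin.sum_univ_two] at h
        refine ⟨x 0, x 1, fun h' => hx ?_, h⟩
        funext i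
        fin_cases i
        · exact h'.1
        · exact h'.2
      · rintro ⟨x, y, h0, h⟩
        refine ⟨![x, y], fun h' => h0 ⟨congrFun h' 0, congrFun h' 1⟩, ?_⟩
        rw [Fin.sum_univ_two]
        exact h
    rw [e]
    simp
  · have e : (∃ x : Fin 3 → F, x ≠ 0 ∧ ∑ i, (a i : F) * x i ^ 2 = 0) ↔
        H.symb.s (-1) (-∏ i, a i) = H.symb.hasse a := by
      have e1 : (∃ x : Fin 3 → F, x ≠ 0 ∧ ∑ i, (a i : F) * x i ^ 2 = 0) ↔
          ∃ x y z : F, ¬ (x = 0 ∧ y = 0 ∧ z = 0) ∧
            (a 0 : F) * x ^ 2 + a 1 * y ^ 2 + a 2 * z ^ 2 = 0 := by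
        constructor
        · rintro ⟨x, hx, h⟩
          rw [Fin.sum_univ_three] at h
          refine ⟨x 0, x 1, x 2, fun h' => hx ?_, h⟩
          funext i
          fin_cases i
          · exact h'.1
          · exact h'.2.1
          · exact h'.2.2
        · rintro ⟨x, y, z, h0, h⟩
          refine ⟨![x, y, z], fun h' => h0 ⟨congrFun h' 0, congrFun h' 1, congrFun h' 2⟩, ?_⟩
          rw [Fin.sum_univ_three]
          exact h
      rw [e1, H.iso_three, Fin.prod_univ_three]
      have e2 : H.symb.hasse a = H.symb.s (a 0) (a 1) * H.symb.s (a 2) (a 0 * a 1) := by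
        simp only [Symb.hasse, Fin.tail, Fin.prod_univ_succ, Fin.prod_univ_zero, mul_one, map_mul,
          map_one]
        rw [H.symb.symm (a 2) (a 0), H.symb.symm (a 2) (a 1)]
        simp only [Fin.succ_zero_eq_one, Fin.succ_one_eq_two, mul_assoc]
      have e3 : H.symb.s (-(a 2)) (-(a 0 * a 1)) =
          H.symb.s (-1) (-(a 0 * a 1 * a 2)) * H.symb.s (a 2) (a 0 * a 1) := by
        have f1 : -(a 2) = (-1) * a 2 := by rw [neg_one_mul]
        have f2 : -(a 0 * a 1) = (-1) * (a 0 * a 1) := by rw [neg_one_mul]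
        have f3 : -(a 0 * a 1 * a 2) = (-1) * (a 0 * a 1 * a 2) := by rw [neg_one_mul]
        rw [f1, f2, f3]
        simp only [map_mul, MonoidHom.mul_apply]
        rw [H.symb.symm (a 2) (-1)]
        simp only [mul_comm, mul_left_comm]
      rw [e2, e3]
      generalize H.symb.s (-1) (-(a 0 * a 1 * a 2)) = p
      generalize H.symb.s (a 2) (a 0 * a 1) = q
      generalize H.symb.s (a 0) (a 1) = r
      revert p q r
      decide
    rw [e]
    simp
  · have e : (∃ x : Fin 4 → F, x ≠ 0 ∧ ∑ i, (a i : F) * x i ^ 2 = 0) ↔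
        (¬ IsSquare (∏ i, a i) ∨ H.symb.hasse a = H.symb.s (-1) (-1)) := by
      have e1 : (∃ x : Fin 4 → F, x ≠ 0 ∧ ∑ i, (a i : F) * x i ^ 2 = 0) ↔
          ∃ x y z t : F, ¬ (x = 0 ∧ y = 0 ∧ z = 0 ∧ t = 0) ∧
            (a 0 : F) * x ^ 2 + a 1 * y ^ 2 + a 2 * z ^ 2 + a 3 * t ^ 2 = 0 := by
        constructor
        · rintro ⟨x, hx, h⟩
          rw [Fin.sum_univ_four] at h
          refine ⟨x 0, x 1, x 2, x 3, fun h' => hx ?_, h⟩
          funext i
          fin_cases i
          · exact h'.1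
          · exact h'.2.1
          · exact h'.2.2.1
          · exact h'.2.2.2
        · rintro ⟨x, y, z, t, h0, h⟩
          refine ⟨![x, y, z, t], fun h' => h0 ⟨congrFun h' 0, congrFun h' 1, congrFun h' 2,
            congrFun h' 3⟩, ?_⟩
          rw [Fin.sum_univ_four]
          exact h
      have e2 : H.symb.hasse a = H.symb.s (a 0) (a 1) * H.symb.s (a 2) (a 3) *
          H.symb.s (a 0 * a 1) (a 2 * a 3) := by
        simp only [Symb.hasse, Fin.tail, Fin.prod_univ_succ, Fin.prod_univ_zero, mul_one, map_mul,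
          map_one, MonoidHom.mul_apply, Fin.succ_zero_eq_one, Fin.succ_one_eq_two]
        have e3 : (Fin.succ (2 : Fin 3) : Fin 4) = 3 := rfl
        rw [e3]
        generalize H.symb.s (a 0) (a 1) = p01
        generalize H.symb.s (a 0) (a 2) = p02
        generalize H.symb.s (a 0) (a 3) = p03
        generalize H.symb.s (a 1) (a 2) = p12
        generalize H.symb.s (a 1) (a 3) = p13
        generalize H.symb.s (a 2) (a 3) = p23
        revert p01 p02 p03 p12 p13 p23
        decide
      rw [e1, H.iso_four, Fin.prod_univ_four, e2, mul_assoc (a 0 * a 1)]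
    rw [e]
    simp

end Iso

section Values

/-- `wf a` represents `c` iff `<-c> ⊥ wf a` is isotropic. -/
lemma exists_value_iff_cons (h2 : (2 : F) ≠ 0) {n : ℕ} (a : Fin n → Fˣ) (c : Fˣ) :
    (∃ x : Fin n → F, wf a x = c) ↔ ¬ (wf (Fin.cons (-c) a : Fin (n + 1) → Fˣ)).Anisotropic := by
  rw [not_anisotropic_wf]
  constructor
  · rintro ⟨x, hx⟩
    refine ⟨Fin.cons 1 x, fun h => one_ne_zero (congrFun h 0), ?_⟩
    rw [Fin.sum_univ_succ]
    simp only [Fin.cons_zero, Fin.cons_succ]
    rw [← wf_apply, hx, Units.val_neg]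
    ring
  · rintro ⟨x, hx0, hx⟩
    rw [Fin.sum_univ_succ] at hx
    simp only [Fin.cons_zero, Fin.cons_succ, Units.val_neg] at hx
    by_cases ht : x 0 = 0
    · have hx1 : (fun i : Fin n => x i.succ) ≠ 0 := by
        intro h0
        apply hx0
        funext i
        refine Fin.cases ht (fun j => ?_) i
        exact congrFun h0 j
      have hx2 : ∑ i : Fin n, (a i : F) * x i.succ ^ 2 = 0 := by
        rw [ht] at hx
        linear_combination hx
      obtain ⟨y, hy⟩ := exists_value_of_isotropic h2 (fun i => (a i).ne_zero) ⟨_, hx1, hx2⟩ (c : F)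
      exact ⟨y, by rw [wf_apply, hy]⟩
    · refine ⟨fun i => x i.succ / x 0, ?_⟩
      have h1 : ∑ i : Fin n, (a i : F) * (x i.succ / x 0) ^ 2 =
          (∑ i : Fin n, (a i : F) * x i.succ ^ 2) / x 0 ^ 2 := by
        rw [Finset.sum_div]
        exact Finset.sum_congr rfl fun i _ => by ring
      rw [wf_apply, h1, div_eq_iff (pow_ne_zero 2 ht)]
      linear_combination hx

variable (H : LocalHilb F)

include H

/-- **The elements represented by a form** (the corollary of Theorem 6): a form of rank `n`,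
discriminant `d` and Hasse-Witt invariant `ε` represents `c ≠ 0` iff `n = 1` and `c d` is a square,
or `n = 2` and `(c, -d) = ε`, or `n = 3` and (`-c d` is not a square or `(-1, -d) = ε`),
or `n ≥ 4`. -/
theorem LocalHilb.exists_value_iff {n : ℕ} (a : Fin n → Fˣ) (c : Fˣ) :
    (∃ x : Fin n → F, wf a x = c) ↔
    (n = 1 ∧ IsSquare (c * ∏ i, a i)) ∨
    (n = 2 ∧ H.symb.s c (-∏ i, a i) = H.symb.hasse a) ∨
    (n = 3 ∧ (¬ IsSquare (-(c * ∏ i, a i)) ∨ H.symb.s (-1) (-∏ i, a i) = H.symb.hasse a)) ∨
    4 ≤ n := by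
  rw [exists_value_iff_cons H.two, H.isotropic_iff, Fin.prod_cons, Symb.hasse_cons]
  generalize (∏ i, a i) = d
  generalize H.symb.hasse a = ε
  have h1 : -(-c * d) = c * d := by rw [neg_mul, neg_neg]
  have h2 : H.symb.s (-1) (-(-c * d)) = H.symb.s (-c) d * ε ↔ H.symb.s c (-d) = ε := by
    have e1 : H.symb.s (-1) (c * d) = H.symb.s (-1) c * H.symb.s (-1) d := map_mul _ _ _
    have e2 : H.symb.s (-c) d = H.symb.s (-1) d * H.symb.s c d := by
      rw [← neg_one_mul, map_mul, MonoidHom.mul_apply]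
    have e3 : H.symb.s c (-d) = H.symb.s (-1) c * H.symb.s c d := by
      rw [← neg_one_mul, map_mul, H.symb.symm c (-1)]
    rw [h1, e1, e2, e3]
    generalize H.symb.s (-1) c = p
    generalize H.symb.s (-1) d = q
    generalize H.symb.s c d = r
    revert p q r ε
    decide
  have h3 : (¬ IsSquare (-c * d) ∨ H.symb.s (-c) d * ε = H.symb.s (-1) (-1)) ↔
      (¬ IsSquare (-(c * d)) ∨ H.symb.s (-1) (-d) = ε) := by
    rw [neg_mul]
    by_cases hs : IsSquare (-(c * d))
    · rw [or_iff_right (not_not.mpr hs), or_iff_right (not_not.mpr hs)]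
      have e1 : H.symb.s (-c) d = H.symb.s (-c) (-c) := by
        refine H.symb.congr_right ?_ _
        rwa [mul_neg, mul_comm]
      have e2 : H.symb.s (-1) (-d) = H.symb.s (-1) c := by
        refine H.symb.congr_right ?_ _
        rwa [neg_mul, mul_comm]
      have e3 : H.symb.s (-c) (-1) = H.symb.s (-1) (-1) * H.symb.s (-1) c := by
        rw [H.symb.symm, ← map_mul, neg_one_mul]
      rw [e1, H.symb.self_eq, e3, e2]
      clear h2 e1 e2 e3
      generalize H.symb.s (-1) (-1) = p
      generalize H.symb.s (-1) c = q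
      revert p q ε
      decide
    · exact iff_of_true (Or.inl hs) (Or.inl hs)
  rw [h1] at h2
  rw [h1, h2, h3]
  have k1 : n + 1 = 2 ↔ n = 1 := by omega
  have k2 : n + 1 = 3 ↔ n = 2 := by omega
  have k3 : n + 1 = 4 ↔ n = 3 := by omega
  have k4 : 5 ≤ n + 1 ↔ 4 ≤ n := by omega
  rw [k1, k2, k3, k4]

end Values

section Equiv

variable (H : LocalHilb F)

include H

/-- **Theorem 7 of Serre, Cours d'arithmétique, IV.2**: two forms over a local field are equivalent
iff they have the same rank, discriminant and Hasse-Witt invariant. -/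
theorem LocalHilb.equivalent_iff {n : ℕ} (a b : Fin n → Fˣ) : (wf a).Equivalent (wf b) ↔
    IsSquare ((∏ i, a i) * ∏ i, b i) ∧ H.symb.hasse a = H.symb.hasse b := by
  have h2 := H.two
  constructor
  · intro h
    exact ⟨isSquare_disc_of_equivalent h2 h, hasse_eq_of_equivalent H.symb h2 h⟩
  · rintro ⟨hd, hh⟩
    refine equivalent_of_invariants (fun _ : Unit => H.symb) h2 (X := Unit) (fun _ _ => ())
      (fun _ _ _ _ => rfl) (fun _ _ _ _ _ => rfl) ?_ n a b rfl hd fun _ => hh
    intro m a b _ hd hh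
    have hh' := hh ()
    rcases m with _ | m
    · -- two variables
      refine ⟨b 0, ?_, ⟨Pi.single 0 1, ?_⟩⟩
      · obtain ⟨x, y, hxy⟩ := (H.rep_two (a 0) (a 1) (b 0)).mpr (by
          rw [Fin.prod_univ_two, Fin.prod_univ_two] at hd
          have e1 : H.symb.s (b 0) (-(a 0 * a 1)) = H.symb.s (b 0) (-(b 0 * b 1)) := by
            refine H.symb.congr_right ?_ _
            rwa [neg_mul_neg]
          have e2 : H.symb.s (a 0) (a 1) = H.symb.s (b 0) (b 1) := by
            simpa [Symb.hasse, Fin.tail] using hh'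
          rw [e1, e2, H.self_neg_mul])
        refine ⟨![x, y], ?_⟩
        rw [Fin.sum_univ_two]
        exact hxy
      · rw [Finset.sum_eq_single 0]
        · simp
        · intro i _ hi
          simp [hi]
        · intro h0
          exact absurd (Finset.mem_univ _) h0
    · -- at least three variables
      let _ : Invertible (2 : F) := invertibleOfNonzero h2
      refine exists_common_value h2 (m := m + 2) (n := m + 2) a b ?_
      have h5 := not_anisotropic_of_five H.five ((wf a).prod (-(wf b))) (by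
        rw [Module.finrank_prod, Module.finrank_fin_fun]
        omega)
      simp only [QuadraticMap.Anisotropic, not_forall] at h5
      obtain ⟨w, hw, hw0⟩ := h5
      refine ⟨w.1, w.2, fun h => hw0 (Prod.ext h.1 h.2), ?_⟩
      rw [QuadraticMap.prod_apply, _root_.neg_apply, wf_apply, wf_apply] at hw
      exact sub_eq_zero.1 (by rw [sub_eq_add_neg]; exact hw)

/-- two anisotropic forms in four variables are equivalent -/
theorem LocalHilb.equivalent_of_anisotropic_four {a b : Fin 4 → Fˣ} (ha : (wf a).Anisotropic)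
    (hb : (wf b).Anisotropic) : (wf a).Equivalent (wf b) := by
  have key : ∀ a : Fin 4 → Fˣ, (wf a).Anisotropic → IsSquare (∏ i, a i) ∧
      H.symb.hasse a = -H.symb.s (-1) (-1) := by
    intro a ha
    have h1 := (H.isotropic_iff a).not.mp (not_not.mpr ha)
    push Not at h1
    obtain ⟨h2, h3⟩ := h1.2.2.1 rfl
    refine ⟨h2, ?_⟩
    clear h1
    generalize H.symb.hasse a = p at *
    generalize H.symb.s (-1) (-1) = q at *
    revert p q
    decide
  obtain ⟨h1, h2⟩ := key a ha
  obtain ⟨h3, h4⟩ := key b hb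
  rw [H.equivalent_iff]
  exact ⟨h1.mul h3, h2.trans h4.symm⟩

/-- **Proposition 6 of Serre, Cours d'arithmétique, IV.2**: the invariants which occur. -/
theorem LocalHilb.exists_invariants_iff (n : ℕ) (d : Fˣ) (ε : ℤˣ) :
    (∃ a : Fin n → Fˣ, IsSquare (d * ∏ i, a i) ∧ H.symb.hasse a = ε) ↔
    (n = 0 ∧ IsSquare d ∧ ε = 1) ∨ (n = 1 ∧ ε = 1) ∨
    (n = 2 ∧ (¬ IsSquare (-d) ∨ ε = 1)) ∨ 3 ≤ n := by
  -- the binary forms
  have two : ∀ (d : Fˣ) (ε : ℤˣ), (¬ IsSquare (-d) ∨ ε = 1) →
      ∃ b c : Fˣ, IsSquare (d * (b * c)) ∧ H.symb.s b c = ε := by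
    rintro d ε (hd | rfl)
    · obtain ⟨x, hx⟩ := H.exists_eq hd ε
      refine ⟨x, x * d, ⟨x * d, ?_⟩, ?_⟩
      · simp only [mul_comm, mul_left_comm]
      · have e1 : x * d = (-x) * (-d) := by rw [neg_mul_neg]
        rw [e1, map_mul, H.symb.neg_self, one_mul, hx]
    · refine ⟨1, d, ⟨d, by rw [one_mul]⟩, by rw [map_one, MonoidHom.one_apply]⟩
  obtain h3 | h3 := le_or_gt 3 n
  · refine iff_of_true ?_ (Or.inr (Or.inr (Or.inr h3)))
    induction n, h3 using Nat.le_induction with
    | base =>
      obtain ⟨α, hα⟩ := H.exists_nonsquare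
      -- the first coefficient `-d α`
      set x : Fˣ := -(d * α) with hx
      obtain ⟨b, c, h1, h2⟩ := two (x * d) (ε * H.symb.s x (x * d)) (Or.inl (by
        intro h
        apply hα
        rw [← isSquare_mul_left_iff (⟨d, rfl⟩ : IsSquare (d * d))]
        have e1 : -(x * d) = d * d * α := by
          rw [hx, neg_mul, neg_neg]
          simp only [mul_comm, mul_left_comm]
        rwa [e1] at h))
      refine ⟨Fin.cons x ![b, c], ?_, ?_⟩
      · rw [Fin.prod_cons, Fin.prod_univ_two]
        have e1 : d * (x * (b * c)) = x * d * (b * c) := by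
          simp only [mul_assoc, mul_left_comm]
        have e2 : (![b, c] : Fin 2 → Fˣ) 0 = b := rfl
        have e3 : (![b, c] : Fin 2 → Fˣ) 1 = c := rfl
        rw [e2, e3, e1]
        exact h1
      · rw [Symb.hasse_cons, Fin.prod_univ_two]
        have e2 : (![b, c] : Fin 2 → Fˣ) 0 = b := rfl
        have e3 : (![b, c] : Fin 2 → Fˣ) 1 = c := rfl
        have e4 : H.symb.hasse (![b, c] : Fin 2 → Fˣ) = H.symb.s b c := by
          simp [Symb.hasse, Fin.tail]
        have e5 : H.symb.s x (b * c) = H.symb.s x (x * d) := by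
          refine H.symb.congr_right ?_ x
          rwa [mul_comm]
        rw [e2, e3, e4, h2, e5, mul_comm ε, ← mul_assoc, H.symb.mul_self, one_mul]
    | succ n hn ih =>
      obtain ⟨a, h1, h2⟩ := ih
      refine ⟨Fin.cons 1 a, ?_, ?_⟩
      · rwa [Fin.prod_cons, one_mul]
      · rw [Symb.hasse_cons, map_one, MonoidHom.one_apply, one_mul, h2]
  interval_cases n
  · constructor
    · rintro ⟨a, h1, h2⟩
      left
      rw [Finset.univ_eq_empty, Finset.prod_empty, mul_one] at h1
      exact ⟨rfl, h1, h2.symm⟩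
    · intro h
      have h1 : IsSquare d ∧ ε = 1 := by
        rcases h with h | h | h | h
        · exact h.2
        · omega
        · omega
        · omega
      refine ⟨Fin.elim0, ?_, h1.2.symm⟩
      rw [Finset.univ_eq_empty, Finset.prod_empty, mul_one]
      exact h1.1
  · constructor
    · rintro ⟨a, h1, h2⟩
      right; left
      refine ⟨rfl, ?_⟩
      rw [← h2]
      simp [Symb.hasse]
    · intro h
      have h1 : ε = 1 := by
        rcases h with h | h | h | h
        · exact h.2.2
        · exact h.2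
        · omega
        · omega
      refine ⟨fun _ => d, ?_, ?_⟩
      · rw [Fin.prod_univ_one]
        exact ⟨d, rfl⟩
      · rw [h1]
        simp [Symb.hasse]
  · constructor
    · rintro ⟨a, h1, h2⟩
      right; right; left
      refine ⟨rfl, ?_⟩
      by_cases h3 : IsSquare (-d)
      · right
        rw [← h2]
        have e4 : H.symb.hasse a = H.symb.s (a 0) (a 1) := by
          simp [Symb.hasse, Fin.tail]
        rw [e4]
        refine H.eq_one_of_isSquare ?_
        rw [← isSquare_mul_left_iff h3, neg_mul_neg]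
        rwa [Fin.prod_univ_two] at h1
      · exact Or.inl h3
    · intro h
      have h1 : ¬ IsSquare (-d) ∨ ε = 1 := by
        rcases h with h | h | h | h
        · omega
        · omega
        · exact h.2
        · omega
      obtain ⟨b, c, h2, h3⟩ := two d ε h1
      refine ⟨![b, c], ?_, ?_⟩
      · rw [Fin.prod_univ_two]
        exact h2
      · rw [← h3]
        simp [Symb.hasse, Fin.tail]

/-- **There is an anisotropic form in four variables.** -/
theorem LocalHilb.exists_anisotropic_four : ∃ a : Fin 4 → Fˣ, (wf a).Anisotropic := by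
  obtain ⟨a, h1, h2⟩ := (H.exists_invariants_iff 4 1 (-H.symb.s (-1) (-1))).mpr
    (Or.inr (Or.inr (Or.inr (by norm_num))))
  refine ⟨a, ?_⟩
  by_contra h
  rw [H.isotropic_iff] at h
  rcases h with h | h | h | h
  · omega
  · omega
  · rw [one_mul] at h1
    rcases h.2 with h3 | h3
    · exact h3 h1
    · rw [h2] at h3
      generalize H.symb.s (-1) (-1) = q at *
      clear h2 h
      revert q
      decide
  · omega

end Equiv

end Fermat.Agent.Cor.Hilb
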