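import Fermat.Agent.Corollaries.HM.Hilb.Adic
import Fermat.Agent.Corollaries.HM.RatProd

/-!
# The Hilbert symbol of `ℚ_p`

Bilinearity, non-degeneracy and the explicit formulas (Serre, Cours d'arithmétique, III, th. 1, 2).
-/

set_option autoImplicit false

namespace Fermat.Agent.Cor.Hilb

open IsDedekindDomain NumberField WithZero Rat.HeightOneSpectrum
open Fermat.Agent.CFT Fermat.Agent.CFT.Global Fermat.Agent.CFT.Global2
open Fermat.Agent.CFT.SUnits (ord)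
open Fermat.Agent.Cor.HM Fermat.Agent.Cor.HM.RatLoc Fermat.Agent.Cor.HM.RatProd

section Transfer

variable (p : ℕ) [hp : Fact p.Prime]

/-- the place `p` of `ℚ` -/
noncomputable def plc : HeightOneSpectrum (𝓞 ℚ) := pl p hp.out

lemma natGenerator_plc : natGenerator (plc p) = p := natGenerator_pl hp.out

/-- the completion at the place `p` is `ℚ_p` -/
noncomputable def eqv : ℚ_[p] ≃ₐ[ℚ] (plc p).adicCompletion ℚ :=
  (Padic.adicCompletionEquiv (𝓞 ℚ) ⟨p, hp.out⟩).toAlgEquiv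

variable {p}

lemma hilb_eqv (A B : ℚ_[p]) : hilb (eqv p A) (eqv p B) = hilb A B :=
  hilb_map (eqv p).toRingEquiv A B

lemma eqv_ne_zero {A : ℚ_[p]} (hA : A ≠ 0) : eqv p A ≠ 0 :=
  (map_ne_zero_iff _ (eqv p).injective).mpr hA

/-- **Bilinearity** of the Hilbert symbol of `ℚ_p`. -/
theorem hilb_padic_mul_left {A A' B : ℚ_[p]} (hA : A ≠ 0) (hA' : A' ≠ 0) (hB : B ≠ 0) :
    hilb (A * A') B = hilb A B * hilb A' B := by
  rw [← hilb_eqv, ← hilb_eqv, ← hilb_eqv, map_mul]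
  exact hilb_adic_mul_left (eqv_ne_zero hA) (eqv_ne_zero hA') (eqv_ne_zero hB)

theorem hilb_padic_mul_right {A B B' : ℚ_[p]} (hA : A ≠ 0) (hB : B ≠ 0) (hB' : B' ≠ 0) :
    hilb A (B * B') = hilb A B * hilb A B' := by
  rw [hilb_comm, hilb_padic_mul_left hB hB' hA, hilb_comm B, hilb_comm B']

/-- **Non-degeneracy** of the Hilbert symbol of `ℚ_p`. -/
theorem isSquare_iff_hilb_padic {A : ℚ_[p]} (hA : A ≠ 0) :
    IsSquare A ↔ ∀ B, B ≠ 0 → hilb A B = 1 := by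
  constructor
  · rintro ⟨c, rfl⟩ B _
    rw [hilb_comm, ← sq]
    exact hilb_sq_right B c
  · intro h
    have h1 : IsSquare (eqv p A) := isSquare_of_hilb_adic (eqv_ne_zero hA) fun B hB => by
      obtain ⟨B', rfl⟩ := (eqv p).surjective B
      rw [hilb_eqv]
      exact h B' fun h0 => hB (by rw [h0, map_zero])
    have h2 := h1.map (eqv p).symm
    rwa [AlgEquiv.symm_apply_apply] at h2

variable (p) in
/-- The Hilbert symbol as a bilinear form on `ℚ_pˣ`. -/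
noncomputable def hs : ℚ_[p]ˣ →* ℚ_[p]ˣ →* ℤˣ :=
  MonoidHom.mk' (fun a => MonoidHom.mk' (fun b => hilb (a : ℚ_[p]) b) fun b c => by
    rw [Units.val_mul]
    exact hilb_padic_mul_right a.ne_zero b.ne_zero c.ne_zero) fun a b => by
    ext c
    change ((hilb ((a * b : ℚ_[p]ˣ) : ℚ_[p]) c : ℤˣ) : ℤ) = ((hilb (a : ℚ_[p]) c * hilb (b : ℚ_[p]) c : ℤˣ) : ℤ)
    rw [Units.val_mul, hilb_padic_mul_left a.ne_zero b.ne_zero c.ne_zero]

lemma hs_apply (a b : ℚ_[p]ˣ) : hs p a b = hilb (a : ℚ_[p]) b := rfl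

lemma hs_comm (a b : ℚ_[p]ˣ) : hs p a b = hs p b a := hilb_comm _ _

/-- rational numbers -/
theorem hilb_rat (LS : LocalSymbols 2 ℚ) (a b : ℚˣ) :
    hilb (((a : ℚ) : ℚ_[p])) ((b : ℚ) : ℚ_[p]) = sg (LS.sym (plc p) a b) := by
  rw [← hilb_algebraMap LS, ← hilb_eqv]
  congr 1
  · rw [← eq_ratCast (algebraMap ℚ ℚ_[p]), AlgEquiv.commutes]
  · rw [← eq_ratCast (algebraMap ℚ ℚ_[p]), AlgEquiv.commutes]

lemma hilb_rat_eq_one_iff (LS : LocalSymbols 2 ℚ) (a b : ℚˣ) :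
    hilb (((a : ℚ) : ℚ_[p])) ((b : ℚ) : ℚ_[p]) = 1 ↔ hh LS (plc p) a b = 0 := by
  rw [hilb_rat LS, sg_eq_one_iff, hh_eq_zero_iff]

end Transfer

section Squares

variable {p : ℕ} [hp : Fact p.Prime]

open Polynomial in
/-- Hensel's lemma for squares -/
theorem isSquare_of_norm {w : ℤ_[p]} (h : ‖w - 1‖ < ‖(2 : ℤ_[p])‖ ^ 2) : IsSquare w := by
  have h1 : ‖(X ^ 2 - C w : ℤ_[p][X]).aeval (1 : ℤ_[p])‖ <
      ‖(derivative (X ^ 2 - C w : ℤ_[p][X])).aeval (1 : ℤ_[p])‖ ^ 2 := by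
    simp only [map_sub, map_pow, aeval_X, aeval_C, Algebra.algebraMap_self, RingHom.id_apply,
      one_pow, derivative_X_pow, derivative_C, sub_zero, map_mul, Nat.cast_ofNat, map_ofNat]
    rw [norm_sub_rev]
    simpa using h
  obtain ⟨z, hz, -⟩ := hensels_lemma h1
  refine ⟨z, ?_⟩
  simp only [map_sub, map_pow, aeval_X, aeval_C, Algebra.algebraMap_self, RingHom.id_apply] at hz
  rw [← sq]
  exact (sub_eq_zero.mp hz).symm

/-- A unit congruent to an integer `k` modulo `4 p` (resp. `p`) has the class of `k`. -/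
theorem exists_sq_of_near (u : ℤ_[p]ˣ) {k : ℤ} (h1 : ‖(u : ℤ_[p]) - k‖ < 1)
    (h : ‖(u : ℤ_[p]) - k‖ < ‖(2 : ℤ_[p])‖ ^ 2) :
    ∃ r : ℚ_[p], r ≠ 0 ∧ ((u : ℤ_[p]) : ℚ_[p]) = ((k : ℤ) : ℚ_[p]) * r ^ 2 := by
  have hu : ‖(u : ℤ_[p])‖ = 1 := PadicInt.norm_units u
  have hk : ‖((k : ℤ) : ℤ_[p])‖ = 1 := by
    have h2 : ((k : ℤ) : ℤ_[p]) = u - (u - k) := by ring
    rw [h2]
    have h3 : ‖(u : ℤ_[p]) - k‖ ≠ ‖(u : ℤ_[p])‖ := by rw [hu]; exact h1.ne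
    have h4 := PadicInt.norm_add_eq_max_of_ne (q := (u : ℤ_[p])) (r := -((u : ℤ_[p]) - k))
      (by rw [norm_neg]; exact h3.symm)
    rw [← sub_eq_add_neg, norm_neg, hu, max_eq_left h1.le] at h4
    exact h4
  obtain ⟨kU, hkU⟩ := PadicInt.isUnit_iff.mpr hk
  have h5 : ‖(u : ℤ_[p]) * (kU⁻¹ : ℤ_[p]ˣ) - 1‖ < ‖(2 : ℤ_[p])‖ ^ 2 := by
    have h6 : (u : ℤ_[p]) * (kU⁻¹ : ℤ_[p]ˣ) - 1 = (u - kU) * (kU⁻¹ : ℤ_[p]ˣ) := by
      rw [sub_mul, Units.mul_inv]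
    rw [h6, norm_mul, PadicInt.norm_units, mul_one, hkU]
    exact h
  obtain ⟨r, hr⟩ := isSquare_of_norm h5
  have h7 : (u : ℤ_[p]) = k * r ^ 2 := by
    have h8 : (u : ℤ_[p]) = (u : ℤ_[p]) * (kU⁻¹ : ℤ_[p]ˣ) * kU := by
      rw [mul_assoc, Units.inv_mul, mul_one]
    rw [h8, hr, ← hkU]
    ring
  refine ⟨r, ?_, ?_⟩
  · intro h9
    have h10 : r = 0 := PadicInt.ext (h9.trans PadicInt.coe_zero.symm)
    rw [h10, zero_pow two_ne_zero, mul_zero] at h7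
    exact u.ne_zero h7
  · rw [h7]
    push_cast
    rfl

end Squares

section Units

variable {p : ℕ} [hp : Fact p.Prime]

/-- a unit of `ℤ_p` as a unit of `ℚ_p` -/
noncomputable def uu : ℤ_[p]ˣ →* ℚ_[p]ˣ := Units.map (PadicInt.Coe.ringHom (p := p)).toMonoidHom

lemma uu_val (u : ℤ_[p]ˣ) : ((uu u : ℚ_[p]ˣ) : ℚ_[p]) = ((u : ℤ_[p]) : ℚ_[p]) := rfl

variable (p) in
/-- `p` as a unit of `ℚ_p` -/
noncomputable def pp : ℚ_[p]ˣ := Units.mk0 (p : ℚ_[p]) (by exact_mod_cast hp.out.ne_zero)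

lemma not_dvd_of_near (u : ℤ_[p]ˣ) {k : ℤ} (h1 : ‖(u : ℤ_[p]) - k‖ < 1) : ¬ (p : ℤ) ∣ k := by
  intro h
  have hu : ‖(u : ℤ_[p])‖ = 1 := PadicInt.norm_units u
  have hk : ‖((k : ℤ) : ℤ_[p])‖ < 1 := PadicInt.norm_int_lt_one_iff_dvd k |>.mpr h
  have h2 : (u : ℤ_[p]) = (u - k) + k := by ring
  have h3 : ‖(u : ℤ_[p])‖ ≤ max ‖(u : ℤ_[p]) - k‖ ‖((k : ℤ) : ℤ_[p])‖ := by
    conv_lhs => rw [h2]
    exact PadicInt.nonarchimedean _ _
  rw [hu] at h3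
  exact absurd h3 (not_le.mpr (max_lt h1 hk))

/-- the class of a unit -/
lemma hs_unit_eq (u : ℤ_[p]ˣ) {k : ℤ} (hk : k ≠ 0) (h1 : ‖(u : ℤ_[p]) - k‖ < 1)
    (h : ‖(u : ℤ_[p]) - k‖ < ‖(2 : ℤ_[p])‖ ^ 2) (B : ℚ_[p]ˣ) :
    hs p (uu u) B = hilb (((iu k hk : ℚˣ) : ℚ) : ℚ_[p]) (B : ℚ_[p]) := by
  obtain ⟨r, hr, h2⟩ := exists_sq_of_near u h1 h
  rw [hs_apply, uu_val, h2, hilb_mul_sq_left _ _ hr, iu_val, Rat.cast_intCast]

lemma hs_unit_eq' (u : ℤ_[p]ˣ) {k : ℤ} (hk : k ≠ 0) (h1 : ‖(u : ℤ_[p]) - k‖ < 1)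
    (h : ‖(u : ℤ_[p]) - k‖ < ‖(2 : ℤ_[p])‖ ^ 2) (B : ℚ_[p]) :
    hilb B (uu u : ℚ_[p]ˣ) = hilb B (((iu k hk : ℚˣ) : ℚ) : ℚ_[p]) := by
  obtain ⟨r, hr, h2⟩ := exists_sq_of_near u h1 h
  rw [uu_val, h2, hilb_mul_sq_right _ _ hr, iu_val, Rat.cast_intCast]

lemma pp_eq (h0 : ((p : ℕ) : ℤ) ≠ 0) : ((pp p : ℚ_[p]ˣ) : ℚ_[p]) = ((iu p h0 : ℚˣ) : ℚ) := by
  rw [iu_val, Int.cast_natCast, Rat.cast_natCast]
  rfl

end Units

section Odd

variable {p : ℕ} [hp : Fact p.Prime]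

open Classical in
/-- the Legendre symbol of a unit of `ℤ_p` -/
noncomputable def leg (u : ℤ_[p]ˣ) : ℤˣ :=
  if IsSquare (PadicInt.toZMod (u : ℤ_[p]) : ZMod p) then 1 else -1

lemma norm_two_odd (hp2 : p ≠ 2) : ‖(2 : ℤ_[p])‖ = 1 := by
  have h1 : ¬ (p : ℤ) ∣ 2 := by
    intro h
    exact hp2 ((Nat.prime_dvd_prime_iff_eq hp.out Nat.prime_two).mp (by exact_mod_cast h))
  have h2 := (PadicInt.norm_int_lt_one_iff_dvd (p := p) 2).not.mpr h1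
  have h3 := PadicInt.norm_le_one (2 : ℤ_[p])
  push_cast at h2
  exact le_antisymm h3 (not_lt.mp h2)

lemma exists_int_odd (hp2 : p ≠ 2) (u : ℤ_[p]ˣ) : ∃ k : ℤ, k ≠ 0 ∧ ¬ (p : ℤ) ∣ k ∧
    ‖(u : ℤ_[p]) - k‖ < 1 ∧ ‖(u : ℤ_[p]) - k‖ < ‖(2 : ℤ_[p])‖ ^ 2 ∧
    (PadicInt.toZMod (u : ℤ_[p]) : ZMod p) = k := by
  have h := PadicInt.norm_sub_zmodRepr_lt_one (u : ℤ_[p])
  have h1 : ‖(u : ℤ_[p]) - (((u : ℤ_[p]).zmodRepr : ℕ) : ℤ)‖ < 1 := by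
    rw [Int.cast_natCast]
    exact h
  have h2 := not_dvd_of_near u h1
  refine ⟨(((u : ℤ_[p]).zmodRepr : ℕ) : ℤ), fun h0 => h2 (h0 ▸ dvd_zero _), h2, h1, ?_, ?_⟩
  · rwa [norm_two_odd hp2, one_pow]
  · rw [Int.cast_natCast, ← PadicInt.val_toZMod_eq_zmodRepr, ZMod.natCast_val, ZMod.cast_id]

variable (hp2 : p ≠ 2)

include hp2

lemma plc_ne_two : natGenerator (plc p) ≠ 2 := by
  rw [natGenerator_plc]
  exact hp2

/-- units -/
theorem hs_units_odd (u w : ℤ_[p]ˣ) : hs p (uu u) (uu w) = 1 := by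
  obtain ⟨LS⟩ := nonempty_LS ℚ
  obtain ⟨k, hk, hk', h1, h2, -⟩ := exists_int_odd hp2 u
  obtain ⟨l, hl, hl', h3, h4, -⟩ := exists_int_odd hp2 w
  rw [hs_unit_eq u hk h1 h2, hs_unit_eq' w hl h3 h4, hilb_rat_eq_one_iff LS]
  exact hh_units (plc_ne_two hp2) (ord_iu _ hk (by rwa [natGenerator_plc]))
    (ord_iu _ hl (by rwa [natGenerator_plc]))

/-- `(p, u) = (u / p)` -/
theorem hs_pp_unit (u : ℤ_[p]ˣ) : hs p (pp p) (uu u) = leg u := by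
  obtain ⟨LS⟩ := nonempty_LS ℚ
  obtain ⟨k, hk, hk', h1, h2, h3⟩ := exists_int_odd hp2 u
  have h0 : ((p : ℕ) : ℤ) ≠ 0 := by exact_mod_cast hp.out.ne_zero
  have h4 : hh LS (plc p) (iu p h0) (iu k hk) = 0 ↔ IsSquare (k : ZMod p) := by
    have h5 : ∀ q : ℕ, natGenerator (plc p) = q → ∀ h0 : (q : ℤ) ≠ 0,
        (hh LS (plc p) (iu q h0) (iu k hk) = 0 ↔ IsSquare (k : ZMod q)) := by
      rintro q rfl h0
      exact hh_gen (plc_ne_two hp2) hk (by rwa [natGenerator_plc])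
        (by rw [iu_val, Int.cast_natCast])
    exact h5 p (natGenerator_plc p) h0
  have h5 : hs p (pp p) (uu u) = 1 ↔ IsSquare (PadicInt.toZMod (u : ℤ_[p]) : ZMod p) := by
    rw [hs_apply, hs_unit_eq' u hk h1 h2, pp_eq h0, hilb_rat_eq_one_iff LS, h4, h3]
  rw [leg]
  split_ifs with h6
  · exact h5.mpr h6
  · exact (Int.units_eq_one_or _).resolve_left fun h7 => h6 (h5.mp h7)

omit hp2 in
lemma toZMod_neg_one : (PadicInt.toZMod (((-1 : ℤ_[p]ˣ)) : ℤ_[p]) : ZMod p) = -1 := by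
  rw [Units.val_neg, Units.val_one, map_neg, map_one]

/-- `(p, p) = (-1)^((p - 1) / 2)` -/
theorem hs_pp_pp : hs p (pp p) (pp p) = (-1) ^ ((p - 1) / 2) := by
  have h1 : pp p = uu (-1) * (-pp p) := by
    ext
    rw [Units.val_mul, uu_val, Units.val_neg, Units.val_neg, Units.val_one]
    push_cast
    ring
  have h2 : hs p (pp p) (pp p) = hs p (pp p) (uu (-1)) * hs p (pp p) (-pp p) := by
    rw [← map_mul, ← h1]
  have h3 : hs p (pp p) (-pp p) = 1 := by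
    rw [hs_apply, Units.val_neg]
    exact hilb_neg_self _
  rw [h2, h3, mul_one, hs_pp_unit hp2, leg, toZMod_neg_one]
  have hodd : p % 2 = 1 := hp.out.mod_two_eq_one_iff_ne_two.mpr hp2
  have h4 := ZMod.exists_sq_eq_neg_one_iff (p := p)
  split_ifs with h5
  · have h6 := h4.mp h5
    have h7 : Even ((p - 1) / 2) := by
      rw [Nat.even_iff]
      omega
    rw [h7.neg_one_pow]
  · have h6 : p % 4 = 3 := not_not.mp fun h7 => h5 (h4.mpr h7)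
    have h7 : Odd ((p - 1) / 2) := by
      rw [Nat.odd_iff]
      omega
    rw [h7.neg_one_pow]

/-- **The Hilbert symbol of `ℚ_p`, `p` odd** (Serre, III, th. 1). -/
theorem hs_odd (α β : ℤ) (u w : ℤ_[p]ˣ) : hs p (pp p ^ α * uu u) (pp p ^ β * uu w) =
    ((-1) ^ ((p - 1) / 2)) ^ (α * β) * leg u ^ β * leg w ^ α := by
  have h1 : hs p (uu u) (pp p) = leg u := by rw [hs_comm, hs_pp_unit hp2]
  simp only [map_mul, map_zpow, MonoidHom.mul_apply, MonoidHom.zpow_apply, hs_pp_pp hp2,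
    hs_pp_unit hp2, h1, hs_units_odd hp2, mul_one]
  rw [mul_zpow, ← zpow_mul]

end Odd

section Two

/-- `ε(u) = (u - 1) / 2` modulo `2` -/
noncomputable def eps (u : ℤ_[2]ˣ) : ℤ :=
  if (PadicInt.toZModPow 2 (u : ℤ_[2]) : ZMod (2 ^ 2)) = 3 then 1 else 0

/-- `ω(u) = (u² - 1) / 8` modulo `2` -/
noncomputable def omega (u : ℤ_[2]ˣ) : ℤ :=
  if (PadicInt.toZModPow 3 (u : ℤ_[2]) : ZMod (2 ^ 3)) = 1 ∨
    (PadicInt.toZModPow 3 (u : ℤ_[2]) : ZMod (2 ^ 3)) = 7 then 0 else 1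

lemma exists_int_two (u : ℤ_[2]ˣ) : ∃ k : ℤ, k ≠ 0 ∧ ¬ (2 : ℤ) ∣ k ∧
    ‖(u : ℤ_[2]) - k‖ < 1 ∧ ‖(u : ℤ_[2]) - k‖ < ‖(2 : ℤ_[2])‖ ^ 2 ∧
    (eps u = if k % 4 = 3 then 1 else 0) ∧
    (omega u = if k % 8 = 1 ∨ k % 8 = 7 then 0 else 1) := by
  set k : ℕ := (u : ℤ_[2]).appr 3 with hk
  have h := PadicInt.appr_spec 3 (u : ℤ_[2])
  have h1 : ‖(u : ℤ_[2]) - ((k : ℤ) : ℤ_[2])‖ ≤ (2 : ℝ) ^ (-3 : ℤ) := by
    rw [Int.cast_natCast]
    exact (PadicInt.norm_le_pow_iff_mem_span_pow _ 3).mpr h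
  have h2 : ‖(2 : ℤ_[2])‖ = 2⁻¹ := by
    have h3 := PadicInt.norm_p (p := 2)
    exact_mod_cast h3
  have h3 : ‖(u : ℤ_[2]) - ((k : ℤ) : ℤ_[2])‖ < 1 := lt_of_le_of_lt h1 (by norm_num)
  have h4 : ‖(u : ℤ_[2]) - ((k : ℤ) : ℤ_[2])‖ < ‖(2 : ℤ_[2])‖ ^ 2 := by
    rw [h2]
    exact lt_of_le_of_lt h1 (by norm_num)
  have h5 := not_dvd_of_near u h3
  have h6 : (PadicInt.toZModPow 3 (u : ℤ_[2]) : ZMod (2 ^ 3)) = (k : ℤ) := by
    have h7 : (u : ℤ_[2]) - (k : ℤ_[2]) ∈ RingHom.ker (PadicInt.toZModPow (p := 2) 3) := by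
      rw [PadicInt.ker_toZModPow]
      exact h
    rw [RingHom.mem_ker, map_sub, map_natCast, sub_eq_zero] at h7
    rw [h7, Int.cast_natCast]
  have h8 : (PadicInt.toZModPow 2 (u : ℤ_[2]) : ZMod (2 ^ 2)) = (k : ℤ) := by
    have h7 : (u : ℤ_[2]) - (k : ℤ_[2]) ∈ RingHom.ker (PadicInt.toZModPow (p := 2) 2) := by
      rw [PadicInt.ker_toZModPow]
      refine Ideal.span_singleton_le_span_singleton.mpr ?_ h
      exact pow_dvd_pow _ (by norm_num)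
    rw [RingHom.mem_ker, map_sub, map_natCast, sub_eq_zero] at h7
    rw [h7, Int.cast_natCast]
  have h9 : ∀ m n : ℤ, ((m : ℤ) : ZMod (2 ^ 3)) = n ↔ m % 8 = n % 8 := fun m n => by
    rw [ZMod.intCast_eq_intCast_iff]
    exact Iff.rfl
  have h10 : ∀ m n : ℤ, ((m : ℤ) : ZMod (2 ^ 2)) = n ↔ m % 4 = n % 4 := fun m n => by
    rw [ZMod.intCast_eq_intCast_iff]
    exact Iff.rfl
  refine ⟨k, fun h0 => h5 (h0 ▸ dvd_zero _), h5, h3, h4, ?_, ?_⟩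
  · have h11 := h10 k 3
    rw [← h8] at h11
    push_cast at h11
    rw [eps]
    simp only [h11]
  · have h11 := h9 k 1
    have h12 := h9 k 7
    rw [← h6] at h11 h12
    push_cast at h11 h12
    rw [omega]
    simp only [h11, h12]

lemma hilb_eq_of (LS : LocalSymbols 2 ℚ) {a b : ℚˣ} {m : ℤ} {P : Prop} [Decidable P]
    (h : hh LS (plc 2) a b = if P then 1 else 0) (hm : m = if P then 1 else 0) :
    hilb (((a : ℚ) : ℚ_[2])) ((b : ℚ) : ℚ_[2]) = (-1) ^ m := by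
  subst hm
  split_ifs at h ⊢ with h1
  · rw [zpow_one]
    refine (Int.units_eq_one_or _).resolve_left fun h2 => ?_
    rw [hilb_rat_eq_one_iff LS, h] at h2
    exact one_ne_zero h2
  · rw [zpow_zero, hilb_rat_eq_one_iff LS, h]

/-- units -/
theorem hs_units_two (u w : ℤ_[2]ˣ) : hs 2 (uu u) (uu w) = (-1) ^ (eps u * eps w) := by
  obtain ⟨LS⟩ := nonempty_LS ℚ
  obtain ⟨k, hk, hk', h1, h2, h5, -⟩ := exists_int_two u
  obtain ⟨l, hl, hl', h3, h4, h6, -⟩ := exists_int_two w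
  rw [hs_unit_eq u hk h1 h2, hs_unit_eq' w hl h3 h4]
  refine hilb_eq_of LS (hh_odd_odd (natGenerator_plc 2) hk hk' hl hl') ?_
  rw [h5, h6]
  by_cases h7 : k % 4 = 3 <;> by_cases h8 : l % 4 = 3 <;> simp [h7, h8]

/-- `(2, u)` -/
theorem hs_two_unit (u : ℤ_[2]ˣ) : hs 2 (pp 2) (uu u) = (-1) ^ omega u := by
  obtain ⟨LS⟩ := nonempty_LS ℚ
  obtain ⟨k, hk, hk', h1, h2, -, h5⟩ := exists_int_two u
  rw [hs_apply, hs_unit_eq' u hk h1 h2, pp_eq (by norm_num)]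
  have h6 := hh_two_odd (LS := LS) (natGenerator_plc 2) hk hk'
  have h7 : ∀ P : Prop, ∀ [Decidable P], (if P then (0 : ZMod 2) else 1) = if ¬ P then 1 else 0 := by
    intro P _
    by_cases h : P <;> simp [h]
  have h8 : ∀ P : Prop, ∀ [Decidable P], (if P then (0 : ℤ) else 1) = if ¬ P then 1 else 0 := by
    intro P _
    by_cases h : P <;> simp [h]
  rw [h7] at h6
  rw [h8] at h5
  exact hilb_eq_of LS h6 h5

/-- `(2, 2) = 1` -/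
theorem hs_two_two : hs 2 (pp 2) (pp 2) = 1 := by
  obtain ⟨LS⟩ := nonempty_LS ℚ
  rw [hs_apply, pp_eq (by norm_num), hilb_rat_eq_one_iff LS]
  exact hh_two_two

/-- **The Hilbert symbol of `ℚ_2`** (Serre, III, th. 1). -/
theorem hs_two (α β : ℤ) (u w : ℤ_[2]ˣ) : hs 2 (pp 2 ^ α * uu u) (pp 2 ^ β * uu w) =
    (-1) ^ (eps u * eps w + α * omega w + β * omega u) := by
  have h1 : hs 2 (uu u) (pp 2) = (-1) ^ omega u := by rw [hs_comm, hs_two_unit]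
  simp only [map_mul, map_zpow, MonoidHom.mul_apply, MonoidHom.zpow_apply, hs_two_two,
    hs_two_unit, h1, hs_units_two, one_zpow, one_mul]
  rw [← zpow_mul, ← zpow_mul, ← zpow_add, ← zpow_add]
  congr 1
  ring

end Two

end Fermat.Agent.Cor.Hilb
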