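import Fermat.Agent.Corollaries.HM.Hilb.LocalForms
import Fermat.Agent.Corollaries.HM.Hilb.Padic

/-!
# `ℚ_p` and the completions of number fields at finite places; regular quadratic forms

`localHilb_adic`, `localHilb_padic`: the results of `LocalForms` apply to `K_v` and `ℚ_p`.
For a regular quadratic form `Q` on a finite-dimensional space over a field `k` of characteristic
different from two: the discriminant `qdisc Q hQ ∈ kˣ / kˣ²` and, for a symbol `S` on `k`, the
Hasse-Witt invariant `hasseWitt S Q hQ`.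
-/

set_option autoImplicit false

namespace Fermat.Agent.Cor.Hilb

open IsDedekindDomain NumberField QuadraticMap
open Fermat.Agent.CFT Fermat.Agent.CFT.Global Fermat.Agent.CFT.Global2
open Fermat.Agent.Cor.HM

section Adic

variable {K : Type} [Field K] [NumberField K]

/-- two independent classes modulo squares -/
theorem exists_indep (v : HeightOneSpectrum (𝓞 K)) : ∃ α β : v.adicCompletion K, α ≠ 0 ∧ β ≠ 0 ∧
    ¬ IsSquare α ∧ ¬ IsSquare β ∧ ¬ IsSquare (α * β) := by
  obtain ⟨π, hπ⟩ := exists_ord_eq_one v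
  have h1 : ¬ IsSquare (algebraMap K (v.adicCompletion K) (π : K)) := fun h =>
    not_mem_locPow_of_ord_eq_one hπ ((mem_locPow_two_iff π).mpr h)
  have h2 : ¬ IsSquare (-algebraMap K (v.adicCompletion K) (π : K)) := fun h => by
    refine not_mem_locPow_of_ord_eq_one (v := v) (π := -π) (by rw [ord_neg, hπ])
      ((mem_locPow_two_iff (-π)).mpr ?_)
    rwa [Units.val_neg, map_neg]
  have hA : algebraMap K (v.adicCompletion K) (π : K) ≠ 0 := (_root_.map_ne_zero _).mpr π.ne_zero
  generalize algebraMap K (v.adicCompletion K) (π : K) = A at *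
  by_contra! hcon
  have h3 : ∀ B : v.adicCompletion K, B ≠ 0 → IsSquare B ∨ IsSquare (A * B) := fun B hB => by
    by_cases h : IsSquare B
    · exact Or.inl h
    · exact Or.inr (hcon A B hA hB h1 h)
  obtain ⟨r, hr⟩ := (h3 (-A) (neg_ne_zero.mpr hA)).resolve_left h2
  have hr0 : r ≠ 0 := by
    rintro rfl
    rw [mul_zero, mul_neg, neg_eq_zero] at hr
    exact mul_ne_zero hA hA hr
  have h5 : hilb A A = 1 := by
    rw [← hilb_neg_self A, ← hilb_mul_sq_right A (-A) (c := r / A) (div_ne_zero hr0 hA)]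
    congr 1
    field_simp
    linear_combination -hr
  refine h1 (isSquare_of_hilb_adic hA fun B hB => ?_)
  rcases h3 B hB with ⟨c, rfl⟩ | ⟨c, hc⟩
  · rw [← pow_two, hilb_sq_right]
  · have hc0 : c ≠ 0 := by
      rintro rfl
      rw [mul_zero] at hc
      exact mul_ne_zero hA hB hc
    rw [← h5, ← hilb_mul_sq_right A A (c := c / A) (div_ne_zero hc0 hA)]
    congr 1
    field_simp
    linear_combination hc

/-- **The completion of a number field at a finite place.** -/
theorem localHilb_adic (v : HeightOneSpectrum (𝓞 K)) : LocalHilb (v.adicCompletion K) where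
  two := HM.two_ne_zero'
  mul_left _ _ _ hA hA' hB := hilb_adic_mul_left hA hA' hB
  nondeg _ hA h := isSquare_of_hilb_adic hA h
  big := exists_indep v

/-- **The field `ℚ_p`.** -/
theorem localHilb_padic (p : ℕ) [hp : Fact p.Prime] : LocalHilb ℚ_[p] where
  two := two_ne_zero
  mul_left _ _ _ hA hA' hB := hilb_padic_mul_left hA hA' hB
  nondeg _ hA h := (isSquare_iff_hilb_padic hA).mpr h
  big := by
    obtain ⟨α, β, hα, hβ, h1, h2, h3⟩ := exists_indep (plc p)
    have key : ∀ γ : (plc p).adicCompletion ℚ, ¬ IsSquare γ → ¬ IsSquare ((eqv p).symm γ) := by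
      intro γ hγ h
      have h4 := h.map (eqv p)
      rw [AlgEquiv.apply_symm_apply] at h4
      exact hγ h4
    refine ⟨(eqv p).symm α, (eqv p).symm β, ?_, ?_, key _ h1, key _ h2, ?_⟩
    · exact (map_ne_zero_iff _ (eqv p).symm.injective).mpr hα
    · exact (map_ne_zero_iff _ (eqv p).symm.injective).mpr hβ
    · rw [← map_mul]
      exact key _ h3

end Adic

section General

variable {k : Type*} [Field k] [Invertible (2 : k)]
variable {V : Type*} [AddCommGroup V] [Module k V] [FiniteDimensional k V]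
variable {V' : Type*} [AddCommGroup V'] [Module k V'] [FiniteDimensional k V']

/-- The coefficients of a diagonalisation of `Q`. -/
noncomputable def diag (Q : QuadraticForm k V) (hQ : (associated (R := k) Q).SeparatingLeft) :
    Fin (Module.finrank k V) → kˣ :=
  (exists_wf Q hQ).choose

lemma equivalent_diag (Q : QuadraticForm k V) (hQ : (associated (R := k) Q).SeparatingLeft) :
    Q.Equivalent (wf (diag Q hQ)) :=
  (exists_wf Q hQ).choose_spec

/-- The discriminant of a regular quadratic form, in `kˣ / kˣ²`. -/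
noncomputable def qdisc (Q : QuadraticForm k V) (hQ : (associated (R := k) Q).SeparatingLeft) :
    kˣ ⧸ (powMonoidHom 2 : kˣ →* kˣ).range :=
  QuotientGroup.mk (∏ i, diag Q hQ i)

/-- The Hasse-Witt invariant `∏_{i < j} (a_i, a_j)` of a regular quadratic form. -/
noncomputable def hasseWitt {G : Type*} [CommGroup G] (S : Symb k G) (Q : QuadraticForm k V)
    (hQ : (associated (R := k) Q).SeparatingLeft) : G :=
  S.hasse (diag Q hQ)

omit [Invertible (2 : k)] in
lemma mk_eq_mk_iff {a b : kˣ} :
    (QuotientGroup.mk a : kˣ ⧸ (powMonoidHom 2 : kˣ →* kˣ).range) = QuotientGroup.mk b ↔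
      IsSquare (a * b) := by
  rw [QuotientGroup.eq, MonoidHom.mem_range]
  constructor
  · rintro ⟨r, hr⟩
    rw [powMonoidHom_apply] at hr
    refine ⟨a * r, ?_⟩
    have h1 : b = a * r ^ 2 := by rw [hr, mul_inv_cancel_left]
    rw [h1, pow_two]
    simp only [mul_comm, mul_left_comm]
  · rintro ⟨r, hr⟩
    refine ⟨a⁻¹ * r, ?_⟩
    rw [powMonoidHom_apply, pow_two, mul_mul_mul_comm, ← hr, mul_assoc, inv_mul_cancel_left]

omit [Invertible (2 : k)] in
lemma isSquare_congr {a b : kˣ} (h : IsSquare (a * b)) : IsSquare a ↔ IsSquare b := by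
  constructor
  · intro ha
    exact (isSquare_mul_left_iff ha).mp h
  · intro hb
    rw [mul_comm] at h
    exact (isSquare_mul_left_iff hb).mp h

omit [Invertible (2 : k)] [FiniteDimensional k V] in
lemma finrank_eq_of_equivalent {n : ℕ} {Q : QuadraticForm k V} {a : Fin n → kˣ}
    (h : Q.Equivalent (wf a)) : Module.finrank k V = n := by
  obtain ⟨e⟩ := h
  rw [e.toLinearEquiv.finrank_eq, Module.finrank_fin_fun]

/-- The discriminant may be computed with any diagonalisation. -/
theorem qdisc_eq {n : ℕ} {Q : QuadraticForm k V} (hQ : (associated (R := k) Q).SeparatingLeft)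
    {a : Fin n → kˣ} (h : Q.Equivalent (wf a)) : qdisc Q hQ = QuotientGroup.mk (∏ i, a i) := by
  obtain rfl := finrank_eq_of_equivalent h
  rw [qdisc, mk_eq_mk_iff]
  exact isSquare_disc_of_equivalent (Invertible.ne_zero 2) ((equivalent_diag Q hQ).symm.trans h)

/-- The Hasse-Witt invariant may be computed with any diagonalisation. -/
theorem hasseWitt_eq {G : Type*} [CommGroup G] (S : Symb k G) {n : ℕ} {Q : QuadraticForm k V}
    (hQ : (associated (R := k) Q).SeparatingLeft) {a : Fin n → kˣ} (h : Q.Equivalent (wf a)) :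
    hasseWitt S Q hQ = S.hasse a := by
  obtain rfl := finrank_eq_of_equivalent h
  exact hasse_eq_of_equivalent S (Invertible.ne_zero 2) ((equivalent_diag Q hQ).symm.trans h)

omit [Invertible (2 : k)] [FiniteDimensional k V] [FiniteDimensional k V'] in
lemma anisotropic_iff_of_equivalent {Q : QuadraticForm k V} {Q' : QuadraticForm k V'}
    (h : Q.Equivalent Q') : Q.Anisotropic ↔ Q'.Anisotropic := by
  obtain ⟨e⟩ := h
  constructor
  · intro hQ x hx
    have h1 := hQ (e.symm x) (by rw [e.symm.map_app, hx])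
    have h2 : x = e (e.symm x) := (e.apply_symm_apply x).symm
    rw [h2, h1]
    exact map_zero e.toLinearEquiv
  · intro hQ x hx
    have h1 := hQ (e x) (by rw [e.map_app, hx])
    exact e.toLinearEquiv.map_eq_zero_iff.mp h1

end General

section Local

variable {F : Type*} [Field F] [Invertible (2 : F)] (H : LocalHilb F)
variable {V : Type*} [AddCommGroup V] [Module F V] [FiniteDimensional F V]
variable {V' : Type*} [AddCommGroup V'] [Module F V'] [FiniteDimensional F V']

include H

omit [Invertible (2 : F)] in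
lemma LocalHilb.equivalent_of_eq {m n : ℕ} (h : m = n) (a : Fin m → Fˣ) (b : Fin n → Fˣ)
    (hd : IsSquare ((∏ i, a i) * ∏ i, b i)) (hh : H.symb.hasse a = H.symb.hasse b) :
    (wf a).Equivalent (wf b) := by
  subst h
  exact (H.equivalent_iff a b).mpr ⟨hd, hh⟩

/-- **Classification of the regular quadratic forms over a local field**: rank, discriminant and
Hasse-Witt invariant (Theorem 7). -/
theorem LocalHilb.equivalent_iff_invariants (Q : QuadraticForm F V) (Q' : QuadraticForm F V')
    (hQ : (associated (R := F) Q).SeparatingLeft) (hQ' : (associated (R := F) Q').SeparatingLeft) :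
    Q.Equivalent Q' ↔ Module.finrank F V = Module.finrank F V' ∧ qdisc Q hQ = qdisc Q' hQ' ∧
      hasseWitt H.symb Q hQ = hasseWitt H.symb Q' hQ' := by
  have h1 := equivalent_diag Q' hQ'
  constructor
  · intro h
    have h2 := h.trans h1
    exact ⟨finrank_eq_of_equivalent h2, (qdisc_eq hQ h2).trans (qdisc_eq hQ' h1).symm,
      (hasseWitt_eq H.symb hQ h2).trans (hasseWitt_eq H.symb hQ' h1).symm⟩
  · rintro ⟨h2, h3, h4⟩
    have h5 := equivalent_diag Q hQ
    rw [qdisc_eq hQ h5, qdisc_eq hQ' h1, mk_eq_mk_iff] at h3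
    rw [hasseWitt_eq H.symb hQ h5, hasseWitt_eq H.symb hQ' h1] at h4
    exact h5.trans ((H.equivalent_of_eq h2 _ _ h3 h4).trans h1.symm)

/-- **Theorem 6** for a regular quadratic form of discriminant `d`. -/
theorem LocalHilb.not_anisotropic_iff (Q : QuadraticForm F V)
    (hQ : (associated (R := F) Q).SeparatingLeft) (d : Fˣ) (hd : qdisc Q hQ = QuotientGroup.mk d) :
    ¬ Q.Anisotropic ↔
    (Module.finrank F V = 2 ∧ IsSquare (-d)) ∨
    (Module.finrank F V = 3 ∧ H.symb.s (-1) (-d) = hasseWitt H.symb Q hQ) ∨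
    (Module.finrank F V = 4 ∧ (¬ IsSquare d ∨ hasseWitt H.symb Q hQ = H.symb.s (-1) (-1))) ∨
    5 ≤ Module.finrank F V := by
  have h5 := equivalent_diag Q hQ
  rw [anisotropic_iff_of_equivalent h5, H.isotropic_iff, hasseWitt_eq H.symb hQ h5]
  rw [qdisc_eq hQ h5, mk_eq_mk_iff] at hd
  generalize (∏ i, diag Q hQ i) = D at hd ⊢
  have h1 : IsSquare (-D) ↔ IsSquare (-d) := isSquare_congr (by rwa [neg_mul_neg])
  have h2 : IsSquare D ↔ IsSquare d := isSquare_congr hd
  have h3 : H.symb.s (-1) (-D) = H.symb.s (-1) (-d) := H.symb.congr_right (by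
    rw [neg_mul_neg]
    exact hd) _
  rw [h1, h2, h3]

/-- the elements represented by a regular quadratic form of discriminant `d` -/
theorem LocalHilb.exists_value_iff' (Q : QuadraticForm F V)
    (hQ : (associated (R := F) Q).SeparatingLeft) (d : Fˣ) (hd : qdisc Q hQ = QuotientGroup.mk d)
    (c : Fˣ) : (∃ x : V, Q x = c) ↔
    (Module.finrank F V = 1 ∧ IsSquare (c * d)) ∨
    (Module.finrank F V = 2 ∧ H.symb.s c (-d) = hasseWitt H.symb Q hQ) ∨
    (Module.finrank F V = 3 ∧
      (¬ IsSquare (-(c * d)) ∨ H.symb.s (-1) (-d) = hasseWitt H.symb Q hQ)) ∨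
    4 ≤ Module.finrank F V := by
  have h5 := equivalent_diag Q hQ
  have h0 : (∃ x : V, Q x = c) ↔ ∃ x, wf (diag Q hQ) x = c := by
    obtain ⟨e⟩ := h5
    constructor
    · rintro ⟨x, hx⟩
      exact ⟨e x, by rw [e.map_app, hx]⟩
    · rintro ⟨x, hx⟩
      exact ⟨e.symm x, by rw [e.symm.map_app, hx]⟩
  rw [h0, H.exists_value_iff, hasseWitt_eq H.symb hQ h5]
  rw [qdisc_eq hQ h5, mk_eq_mk_iff] at hd
  generalize (∏ i, diag Q hQ i) = D at hd ⊢
  have h1 : IsSquare (c * D) ↔ IsSquare (c * d) := isSquare_congr (by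
    rw [mul_mul_mul_comm]
    exact (IsSquare.mul_self c).mul hd)
  have h2 : IsSquare (-(c * D)) ↔ IsSquare (-(c * d)) := isSquare_congr (by
    rw [neg_mul_neg, mul_mul_mul_comm]
    exact (IsSquare.mul_self c).mul hd)
  have h3 : ∀ e : Fˣ, H.symb.s e (-D) = H.symb.s e (-d) := fun e => H.symb.congr_right (by
    rw [neg_mul_neg]
    exact hd) _
  rw [h1, h2, h3, h3]

end Local

end Fermat.Agent.Cor.Hilb
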