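import Fermat.Agent.Corollaries.HM.Hilb.Padic

/-!
# Hilbert's product formula over `ℚ`
-/

set_option autoImplicit false

namespace Fermat.Agent.Cor.Hilb

open IsDedekindDomain NumberField WithZero Rat.HeightOneSpectrum
open Fermat.Agent.CFT Fermat.Agent.CFT.Global Fermat.Agent.CFT.Global2
open Fermat.Agent.Cor.HM Fermat.Agent.Cor.HM.RatLoc Fermat.Agent.Cor.HM.RatProd

/-- the Hilbert symbol `(a, b)_p` of two rational numbers at the prime `p` -/
noncomputable def hilbAt (p : Nat.Primes) (a b : ℚ) : ℤˣ :=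
  haveI : Fact p.1.Prime := ⟨p.2⟩
  hilb (a : ℚ_[p]) (b : ℚ_[p])

/-- the Hilbert symbol `(a, b)_∞` of two rational numbers -/
noncomputable def hilbInf (a b : ℚ) : ℤˣ := hilb (a : ℝ) (b : ℝ)

lemma hilbAt_eq (p : ℕ) [hp : Fact p.Prime] (a b : ℚ) :
    hilbAt ⟨p, hp.out⟩ a b = hilb (a : ℚ_[p]) (b : ℚ_[p]) := rfl

lemma hilbInf_eq {a b : ℚ} (ha : a ≠ 0) (hb : b ≠ 0) :
    hilbInf a b = if a < 0 ∧ b < 0 then -1 else 1 := by
  rw [hilbInf, hilb_real (by exact_mod_cast ha) (by exact_mod_cast hb)]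
  simp only [Rat.cast_lt_zero]

/-- `sg` as a homomorphism -/
def sgHom : Multiplicative (ZMod 2) →* ℤˣ := MonoidHom.mk' sg sg_mul

lemma hilbAt_units (LS : LocalSymbols 2 ℚ) (p : Nat.Primes) (a b : ℚˣ) :
    hilbAt p a b = sgHom (LS.sym (primesEquiv.symm p) a b) := by
  have : Fact p.1.Prime := ⟨p.2⟩
  exact hilb_rat LS a b

lemma finite_sym (LS : LocalSymbols 2 ℚ) (a b : ℚˣ) :
    (Function.mulSupport fun v => sgHom (LS.sym v a b)).Finite := by
  refine (symVec LS two_ne_zero a b).support.finite_toSet.subset fun v hv => ?_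
  rw [Finset.mem_coe, Finsupp.mem_support_iff]
  intro h
  apply hv
  change (LS.sym v a b).toAdd = 0 at h
  have h1 : LS.sym v a b = 1 := toAdd_eq_zero.mp h
  change sgHom (LS.sym v a b) = 1
  rw [h1, map_one]

/-- Almost all symbols are trivial. -/
theorem finite_hilbAt {a b : ℚ} (ha : a ≠ 0) (hb : b ≠ 0) :
    {p : Nat.Primes | hilbAt p a b ≠ 1}.Finite := by
  obtain ⟨LS⟩ := nonempty_LS ℚ
  have h := (finite_sym LS (Units.mk0 a ha) (Units.mk0 b hb)).preimage
    ((primesEquiv (R := 𝓞 ℚ)).symm.injective.injOn (s := _))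
  refine h.subset fun p hp => ?_
  change sgHom (LS.sym (primesEquiv.symm p) _ _) ≠ 1
  rw [← hilbAt_units LS p (Units.mk0 a ha) (Units.mk0 b hb)]
  exact hp

/-- **Hilbert's product formula** over `ℚ` (Serre, III, th. 3). -/
theorem product_formula {a b : ℚ} (ha : a ≠ 0) (hb : b ≠ 0) :
    (∏ᶠ p : Nat.Primes, hilbAt p a b) * hilbInf a b = 1 := by
  obtain ⟨LS⟩ := nonempty_LS ℚ
  set A : ℚˣ := Units.mk0 a ha with hA
  set B : ℚˣ := Units.mk0 b hb with hB
  have h1 : (∏ᶠ p : Nat.Primes, hilbAt p a b) = ∏ᶠ v, sgHom (LS.sym v A B) := by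
    rw [← finprod_comp_equiv (primesEquiv (R := 𝓞 ℚ)).symm]
    exact finprod_congr fun p => hilbAt_units LS p A B
  have h2 : (∏ᶠ v, sgHom (LS.sym v A B)) =
      ∏ v ∈ (symVec LS two_ne_zero A B).support, sgHom (LS.sym v A B) := by
    refine finprod_eq_prod_of_mulSupport_subset _ fun v hv => ?_
    rw [Finset.mem_coe, Finsupp.mem_support_iff]
    intro h
    apply hv
    change (LS.sym v A B).toAdd = 0 at h
    have h1 : LS.sym v A B = 1 := toAdd_eq_zero.mp h
    change sgHom (LS.sym v A B) = 1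
    rw [h1, map_one]
  have h3 : (∏ v ∈ (symVec LS two_ne_zero A B).support, LS.sym v A B).toAdd =
      if (A : ℚ) < 0 ∧ (B : ℚ) < 0 then 1 else 0 := by
    rw [← prod_rat LS A B, Finsupp.sum, toAdd_prod]
    rfl
  rw [h1, h2, ← map_prod, hilbInf_eq ha hb]
  by_cases h4 : a < 0 ∧ b < 0
  · have h5 : (if (A : ℚ) < 0 ∧ (B : ℚ) < 0 then (1 : ZMod 2) else 0) = 1 := if_pos h4
    rw [h5] at h3
    have h6 : ∏ v ∈ (symVec LS two_ne_zero A B).support, LS.sym v A B =
        Multiplicative.ofAdd (1 : ZMod 2) := h3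
    rw [h6, if_pos h4]
    decide
  · have h5 : (if (A : ℚ) < 0 ∧ (B : ℚ) < 0 then (1 : ZMod 2) else 0) = 0 := if_neg h4
    rw [h5] at h3
    have h6 : ∏ v ∈ (symVec LS two_ne_zero A B).support, LS.sym v A B =
        Multiplicative.ofAdd (0 : ZMod 2) := h3
    rw [h6, if_neg h4]
    decide

end Fermat.Agent.Cor.Hilb
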