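import Fermat.Agent.Corollaries.HM.Hilb.Count

/-!
# Anisotropic quadratic forms over local fields

`F` a local field (`LocalHilb F`) of characteristic not two, `N = |Fˣ / Fˣ²|`. By Witt's
decomposition the anisotropic classes are the elements of the Witt group.

* `LocalHilb.card_aniso`: the number of classes of anisotropic forms of rank `n` is
  `1, N, 2 (N - 1), N, 1` for `n = 0, 1, 2, 3, 4` and `0` for `n ≥ 5`;
* `LocalHilb.card_witt`: altogether `4 N`;
* `card_witt_padic`: `16` over `ℚ_p`, `p` odd, `32` over `ℚ_2`.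
-/

set_option autoImplicit false

namespace Fermat.Agent.Cor.Hilb

open IsDedekindDomain NumberField QuadraticMap
open Fermat.Agent.CFT Fermat.Agent.CFT.Global Fermat.Agent.CFT.Global2
open Fermat.Agent.Cor.HM

variable {F : Type*} [Field F] [Invertible (2 : F)]

omit [Invertible (2 : F)] in
lemma anisotropic_of_equivalent {V W : Type*} [AddCommGroup V] [Module F V] [AddCommGroup W]
    [Module F W] {Q : QuadraticForm F V} {Q' : QuadraticForm F W} (h : Q.Equivalent Q')
    (hQ : Q.Anisotropic) : Q'.Anisotropic := by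
  obtain ⟨e⟩ := h
  intro x hx
  have h1 : Q (e.symm x) = 0 := by rw [e.symm.map_app, hx]
  have h2 := hQ _ h1
  have h3 := congrArg e h2
  rwa [e.apply_symm_apply, map_zero] at h3

omit [Invertible (2 : F)] in
lemma anisotropic_congr {V W : Type*} [AddCommGroup V] [Module F V] [AddCommGroup W]
    [Module F W] {Q : QuadraticForm F V} {Q' : QuadraticForm F W} (h : Q.Equivalent Q') :
    Q.Anisotropic ↔ Q'.Anisotropic :=
  ⟨anisotropic_of_equivalent h, anisotropic_of_equivalent h.symm⟩

/-- The class consists of anisotropic forms. -/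
def IsAniso {n : ℕ} : FormClass F n → Prop :=
  Quotient.lift (fun Q => Q.1.Anisotropic) fun _ _ h => propext (anisotropic_congr h)

variable (H : LocalHilb F)

/-- the invariants of the anisotropic forms -/
lemma LocalHilb.image_inv (n : ℕ) : H.inv n '' {c | IsAniso c} =
    {p | ∃ a : Fin n → Fˣ, p.1 = QuotientGroup.mk (∏ i, a i) ∧ p.2 = H.symb.hasse a ∧
      (wf a).Anisotropic} := by
  ext p
  constructor
  · rintro ⟨x, hx, rfl⟩
    induction x using Quotient.inductionOn with | _ Q
    have h1 := exists_wf Q.1 Q.2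
    rw [Module.finrank_fin_fun] at h1
    obtain ⟨a, ha⟩ := h1
    exact ⟨a, qdisc_eq Q.2 ha, hasseWitt_eq H.symb Q.2 ha, (anisotropic_congr ha).mp hx⟩
  · rintro ⟨a, h1, h2, h3⟩
    refine ⟨Quotient.mk _ ⟨wf a, separatingLeft_wf a⟩, h3, ?_⟩
    refine Prod.ext ?_ ?_
    · rw [h1]
      exact qdisc_eq (separatingLeft_wf a) (Equivalent.refl (wf a))
    · rw [h2]
      exact hasseWitt_eq H.symb (separatingLeft_wf a) (Equivalent.refl (wf a))

lemma LocalHilb.card_aniso_eq (n : ℕ) : Nat.card {c : FormClass F n // IsAniso c} =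
    {p : (Fˣ ⧸ (powMonoidHom 2 : Fˣ →* Fˣ).range) × ℤˣ | ∃ a : Fin n → Fˣ,
      p.1 = QuotientGroup.mk (∏ i, a i) ∧ p.2 = H.symb.hasse a ∧ (wf a).Anisotropic}.ncard := by
  rw [← H.image_inv n, Set.ncard_image_of_injective _ (H.inv_injective n)]
  rfl

omit [Invertible (2 : F)] in
lemma LocalHilb.s_congr {x d d' : Fˣ} (h : IsSquare (d * d')) : H.symb.s x d = H.symb.s x d' := by
  obtain ⟨r, hr⟩ := h
  have h1 : H.symb.s x d * H.symb.s x d' = 1 := by
    rw [← map_mul, hr, map_mul]
    exact Int.units_mul_self _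
  rw [← mul_one (H.symb.s x d), ← Int.units_mul_self (H.symb.s x d'), ← mul_assoc, h1, one_mul]

/-- `(-1, -d)` as a function of the class of `d` -/
noncomputable def LocalHilb.sg (q : Fˣ ⧸ (powMonoidHom 2 : Fˣ →* Fˣ).range) : ℤˣ :=
  H.symb.s (-1) (-q.out)

omit [Invertible (2 : F)] in
lemma LocalHilb.sg_mk (d : Fˣ) : H.sg (QuotientGroup.mk d) = H.symb.s (-1) (-d) := by
  refine H.s_congr ?_
  rw [neg_mul_neg]
  exact mk_eq_mk_iff.mp (QuotientGroup.out_eq' _)

include H in
/-- **The number of classes of anisotropic forms of rank `n`.** -/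
theorem LocalHilb.card_aniso {N : ℕ} (hN : N ≠ 0)
    (h : Nat.card (Fˣ ⧸ (powMonoidHom 2 : Fˣ →* Fˣ).range) = N) (n : ℕ) :
    Nat.card {c : FormClass F n // IsAniso c} =
      if n = 0 then 1 else if n = 1 then N else if n = 2 then 2 * (N - 1) else
        if n = 3 then N else if n = 4 then 1 else 0 := by
  have hfin : Finite (Fˣ ⧸ (powMonoidHom 2 : Fˣ →* Fˣ).range) :=
    (Nat.card_ne_zero.mp (h ▸ hN)).2
  have hu : Nat.card ℤˣ = 2 := by rw [Nat.card_eq_fintype_card]; rfl
  have hne : ∀ {x y : ℤˣ}, x ≠ y → x = -y := by decide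
  have hex : ∀ {n : ℕ} (a : Fin n → Fˣ), (n = 0 ∧ IsSquare (∏ i, a i) ∧ H.symb.hasse a = 1) ∨
      (n = 1 ∧ H.symb.hasse a = 1) ∨
      (n = 2 ∧ (¬ IsSquare (-∏ i, a i) ∨ H.symb.hasse a = 1)) ∨ 3 ≤ n := fun {n} a =>
    (H.exists_invariants_iff n (∏ i, a i) (H.symb.hasse a)).mp ⟨a, IsSquare.mul_self _, rfl⟩
  have hani : ∀ {n : ℕ} (a : Fin n → Fˣ), (wf a).Anisotropic ↔
      ¬ ((n = 2 ∧ IsSquare (-∏ i, a i)) ∨
      (n = 3 ∧ H.symb.s (-1) (-∏ i, a i) = H.symb.hasse a) ∨
      (n = 4 ∧ (¬ IsSquare (∏ i, a i) ∨ H.symb.hasse a = H.symb.s (-1) (-1))) ∨ 5 ≤ n) :=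
    fun {n} a => by rw [← H.isotropic_iff, not_not]
  rw [H.card_aniso_eq]
  split_ifs with h0 h1 h2 h3 h4
  · subst h0
    rw [Set.ncard_eq_one]
    refine ⟨(1, 1), ?_⟩
    ext p
    rw [Set.mem_singleton_iff]
    have key : ∀ a : Fin 0 → Fˣ, H.symb.hasse a = 1 := fun a => by
      rcases hex a with h | h | h | h
      · exact h.2.2
      · omega
      · omega
      · omega
    constructor
    · rintro ⟨a, h1, h2, -⟩
      refine Prod.ext (h1.trans ?_) (h2.trans (key a))
      rw [Finset.univ_eq_empty, Finset.prod_empty]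
      rfl
    · rintro rfl
      refine ⟨Fin.elim0, ?_, (key _).symm, fun x _ => Subsingleton.elim _ _⟩
      rw [Finset.univ_eq_empty, Finset.prod_empty]
      rfl
  · subst h1
    have e : {p : (Fˣ ⧸ (powMonoidHom 2 : Fˣ →* Fˣ).range) × ℤˣ | ∃ a : Fin 1 → Fˣ,
        p.1 = QuotientGroup.mk (∏ i, a i) ∧ p.2 = H.symb.hasse a ∧ (wf a).Anisotropic} =
        Set.univ ×ˢ {1} := by
      have key : ∀ a : Fin 1 → Fˣ, H.symb.hasse a = 1 := fun a => by
        rcases hex a with h | h | h | h
        · omega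
        · exact h.2
        · omega
        · omega
      ext p
      simp only [Set.mem_ofPred_eq, Set.mem_prod, Set.mem_univ, Set.mem_singleton_iff, true_and]
      constructor
      · rintro ⟨a, -, h2, -⟩
        exact h2.trans (key a)
      · intro h2
        obtain ⟨d, hd⟩ := QuotientGroup.mk_surjective p.1
        refine ⟨fun _ => d, ?_, h2.trans (key _).symm, (hani _).mpr (by omega)⟩
        rw [Fin.prod_univ_one, hd]
    rw [e, Set.ncard_prod, Set.ncard_univ, Set.ncard_singleton, h, mul_one]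
  · subst h2
    have e : {p : (Fˣ ⧸ (powMonoidHom 2 : Fˣ →* Fˣ).range) × ℤˣ | ∃ a : Fin 2 → Fˣ,
        p.1 = QuotientGroup.mk (∏ i, a i) ∧ p.2 = H.symb.hasse a ∧ (wf a).Anisotropic} =
        {QuotientGroup.mk (-1)}ᶜ ×ˢ Set.univ := by
      ext p
      simp only [Set.mem_ofPred_eq, Set.mem_prod, Set.mem_univ, Set.mem_compl_iff,
        Set.mem_singleton_iff, and_true]
      constructor
      · rintro ⟨a, h1, -, h3⟩ h4
        rw [h4] at h1
        have h5 := mk_eq_mk_iff.mp h1
        rw [neg_one_mul] at h5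
        exact (hani a).mp h3 (Or.inl ⟨rfl, h5⟩)
      · intro h2
        obtain ⟨d, hd⟩ := QuotientGroup.mk_surjective p.1
        have hd' : ¬ IsSquare (-d) := by
          intro h3
          apply h2
          rw [← hd]
          exact mk_eq_mk_iff.mpr (by rw [mul_neg_one]; exact h3)
        obtain ⟨a, ha, hε⟩ := (H.exists_invariants_iff 2 d p.2).mpr
          (Or.inr (Or.inr (Or.inl ⟨rfl, Or.inl hd'⟩)))
        have h4 : p.1 = QuotientGroup.mk (∏ i, a i) := by
          rw [← hd]
          exact mk_eq_mk_iff.mpr ha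
        refine ⟨a, h4, hε.symm, (hani a).mpr ?_⟩
        rintro (h3 | h3 | h3 | h3)
        · apply h2
          rw [h4]
          exact mk_eq_mk_iff.mpr (by rw [mul_neg_one]; exact h3.2)
        · omega
        · omega
        · omega
    rw [e, Set.ncard_prod, Set.ncard_compl, Set.ncard_singleton, Set.ncard_univ, h, hu, mul_comm]
  · subst h3
    have e : {p : (Fˣ ⧸ (powMonoidHom 2 : Fˣ →* Fˣ).range) × ℤˣ | ∃ a : Fin 3 → Fˣ,
        p.1 = QuotientGroup.mk (∏ i, a i) ∧ p.2 = H.symb.hasse a ∧ (wf a).Anisotropic} =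
        Set.range fun q => (q, -H.sg q) := by
      ext p
      rw [Set.mem_range]
      constructor
      · rintro ⟨a, h1, h2, h3⟩
        refine ⟨p.1, Prod.ext rfl ?_⟩
        change -H.sg p.1 = p.2
        rw [h1, h2, H.sg_mk]
        refine (hne fun h4 => (hani a).mp h3 (Or.inr (Or.inl ⟨rfl, h4.symm⟩))).symm
      · rintro ⟨q, rfl⟩
        obtain ⟨d, rfl⟩ := QuotientGroup.mk_surjective q
        obtain ⟨a, ha, hε⟩ := (H.exists_invariants_iff 3 d (-H.sg (QuotientGroup.mk d))).mpr
          (Or.inr (Or.inr (Or.inr le_rfl)))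
        refine ⟨a, mk_eq_mk_iff.mpr ha, hε.symm, (hani a).mpr ?_⟩
        rintro (h3 | h3 | h3 | h3)
        · omega
        · rw [hε, H.sg_mk, H.s_congr (d := -∏ i, a i) (d' := -d)
            (by rw [neg_mul_neg, mul_comm]; exact ha)] at h3
          exact absurd h3.2 ((by decide : ∀ x : ℤˣ, x ≠ -x) _)
        · omega
        · omega
    rw [e, ← Nat.card_coe_set_eq,
      Nat.card_range_of_injective (fun x y hxy => congrArg Prod.fst hxy), h]
  · subst h4
    rw [Set.ncard_eq_one]
    refine ⟨(1, -H.symb.s (-1) (-1)), ?_⟩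
    ext p
    rw [Set.mem_singleton_iff]
    constructor
    · rintro ⟨a, h1, h2, h3⟩
      have h4 := (hani a).mp h3
      have h5 : IsSquare (∏ i, a i) := by
        by_contra h5
        exact h4 (Or.inr (Or.inr (Or.inl ⟨rfl, Or.inl h5⟩)))
      refine Prod.ext (h1.trans ?_) (h2.trans (hne fun h6 =>
        h4 (Or.inr (Or.inr (Or.inl ⟨rfl, Or.inr h6⟩)))))
      rw [← QuotientGroup.mk_one]
      exact mk_eq_mk_iff.mpr (by rwa [mul_one])
    · rintro rfl
      obtain ⟨a, ha, hε⟩ := (H.exists_invariants_iff 4 1 (-H.symb.s (-1) (-1))).mpr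
        (Or.inr (Or.inr (Or.inr (by norm_num))))
      refine ⟨a, mk_eq_mk_iff.mpr ha, hε.symm, (hani a).mpr ?_⟩
      rintro (h3 | h3 | h3 | h3)
      · omega
      · omega
      · rcases h3.2 with h3 | h3
        · exact h3 (by rwa [one_mul] at ha)
        · rw [hε] at h3
          exact absurd h3.symm ((by decide : ∀ x : ℤˣ, x ≠ -x) _)
      · omega
  · rw [Set.ncard_eq_zero, Set.eq_empty_iff_forall_notMem]
    rintro p ⟨a, -, -, h5⟩
    exact (hani a).mp h5 (Or.inr (Or.inr (Or.inr (by omega))))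

include H in
/-- **The number of classes of anisotropic forms is `4 |Fˣ / Fˣ²|`** (the order of the Witt
group). -/
theorem LocalHilb.card_witt {N : ℕ} (hN : N ≠ 0)
    (h : Nat.card (Fˣ ⧸ (powMonoidHom 2 : Fˣ →* Fˣ).range) = N) :
    Nat.card (Σ n : ℕ, {c : FormClass F n // IsAniso c}) = 4 * N := by
  have hc := H.card_aniso hN h
  have hfin : Finite (Fˣ ⧸ (powMonoidHom 2 : Fˣ →* Fˣ).range) :=
    (Nat.card_ne_zero.mp (h ▸ hN)).2
  have hfin' : ∀ n, Finite (FormClass F n) := fun n => Finite.of_injective _ (H.inv_injective n)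
  have hlt : ∀ (n : ℕ) (c : {c : FormClass F n // IsAniso c}), n < 5 := by
    intro n c
    by_contra hn
    have h1 := hc n
    rw [if_neg (by omega), if_neg (by omega), if_neg (by omega), if_neg (by omega),
      if_neg (by omega)] at h1
    have : Nonempty {c : FormClass F n // IsAniso c} := ⟨c⟩
    exact Nat.card_pos.ne' h1
  let e : (Σ n : ℕ, {c : FormClass F n // IsAniso c}) ≃
      (Σ i : Fin 5, {c : FormClass F (i : ℕ) // IsAniso c}) :=
    { toFun := fun x => ⟨⟨x.1, hlt x.1 x.2⟩, x.2⟩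
      invFun := fun x => ⟨(x.1 : ℕ), x.2⟩
      left_inv := fun _ => rfl
      right_inv := fun _ => rfl }
  rw [Nat.card_congr e, Nat.card_sigma, Fin.sum_univ_five]
  simp only [hc]
  norm_num
  omega

/-- **The number of classes of anisotropic forms over `ℚ_p`**: `16` for odd `p`, `32` for `p = 2`
(the order of the Witt group of `ℚ_p`). -/
theorem card_witt_padic (p : ℕ) [hp : Fact p.Prime] [Invertible (2 : ℚ_[p])] :
    Nat.card (Σ n : ℕ, {c : FormClass ℚ_[p] n // IsAniso c}) = if p = 2 then 32 else 16 := by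
  rw [(localHilb_padic p).card_witt (by split_ifs <;> norm_num) (card_padic' p)]
  split_ifs <;> norm_num

/-- The anisotropic forms over `ℚ_p`, `p` odd: `4`, `6`, `4`, `1` classes in the ranks
`1, 2, 3, 4`. -/
theorem card_aniso_padic (p : ℕ) [hp : Fact p.Prime] (h2 : p ≠ 2) [Invertible (2 : ℚ_[p])]
    (n : ℕ) : Nat.card {c : FormClass ℚ_[p] n // IsAniso c} =
      if n = 0 then 1 else if n = 1 then 4 else if n = 2 then 6 else
        if n = 3 then 4 else if n = 4 then 1 else 0 :=
  (localHilb_padic p).card_aniso (by norm_num) (card_padic p h2) n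

/-- The anisotropic forms over `ℚ_2`: `8`, `14`, `8`, `1` classes in the ranks `1, 2, 3, 4`. -/
theorem card_aniso_padic_two [Invertible (2 : ℚ_[2])] (n : ℕ) :
    Nat.card {c : FormClass ℚ_[2] n // IsAniso c} =
      if n = 0 then 1 else if n = 1 then 8 else if n = 2 then 14 else
        if n = 3 then 8 else if n = 4 then 1 else 0 :=
  (localHilb_padic 2).card_aniso (by norm_num) card_padic_two n

/-- **The number of classes of anisotropic forms over `K_v`** is `16 N(v)^(ord_v 2)`. -/
theorem card_witt_adic {K : Type} [Field K] [NumberField K] (v : HeightOneSpectrum (𝓞 K))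
    [Invertible (2 : v.adicCompletion K)] :
    Nat.card (Σ n : ℕ, {c : FormClass (v.adicCompletion K) n // IsAniso c}) =
      16 * Ideal.absNorm v.asIdeal ^ LocalCount.ramP 2 v := by
  have h1 : Ideal.absNorm v.asIdeal ≠ 0 :=
    (NumberField.HeightOneSpectrum.one_lt_absNorm v).ne_bot
  rw [(localHilb_adic v).card_witt (mul_ne_zero four_ne_zero (pow_ne_zero _ h1)) (card_adic v)]
  ring

end Fermat.Agent.Cor.Hilb
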